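import Fermat.Agent.S48.Full.ScaleA

/-!
# S48 / FULL leaf SC-A2 : conjugation by `δ = [h 0; 0 1]` on matrices and on `ℍ`
-/

set_option autoImplicit false
set_option linter.unusedSectionVars false

open UpperHalfPlane ModularCurve Polynomial Filter Asymptotics
open scoped MatrixGroups Manifold

noncomputable section

namespace Fermat.Agent.S48.Full

open Fermat.Agent.S24 Fermat.Agent.S24.Degree Fermat.Agent.S24.JLocal Fermat.Agent.GAL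

variable {K : Type} [Field K] (ι : K →+* ℂ) (h : ℕ) [NeZero h]

/-- `γ' = δ γ δ⁻¹`, `δ = [h 0; 0 1]`. -/
def IsScale (h : ℕ) (γ γ' : SL(2, ℤ)) : Prop :=
  γ' 0 0 = γ 0 0 ∧ γ' 0 1 = h * γ 0 1 ∧ h * γ' 1 0 = γ 1 0 ∧ γ' 1 1 = γ 1 1

variable {h} in
theorem IsScale.mulH_smul {γ γ' : SL(2, ℤ)} (hs : IsScale h γ γ') (τ : ℍ) :
    mulH h (γ • τ) = γ' • mulH h τ := by
  obtain ⟨h1, h2, h3, h4⟩ := hs
  apply UpperHalfPlane.ext
  rw [coe_mulH, coe_SL2Z_smul, coe_SL2Z_smul, coe_mulH]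
  have e1 : (γ' 0 0 : ℂ) = (γ 0 0 : ℂ) := by rw [h1]
  have e2 : (γ' 0 1 : ℂ) = (h : ℂ) * (γ 0 1 : ℂ) := by rw [h2]; push_cast; rfl
  have e3 : (γ 1 0 : ℂ) = (h : ℂ) * (γ' 1 0 : ℂ) := by rw [← h3]; push_cast; rfl
  have e4 : (γ' 1 1 : ℂ) = (γ 1 1 : ℂ) := by rw [h4]
  rw [e1, e2, e3, e4, mul_div_assoc']
  congr 1 <;> ring

variable {h} in
theorem IsScale.divH_smul {γ γ' : SL(2, ℤ)} (hs : IsScale h γ γ') (τ : ℍ) :
    divH h (γ' • τ) = γ • divH h τ := by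
  have h1 := hs.mulH_smul (divH h τ)
  rw [mulH_divH] at h1
  rw [← h1, divH_mulH]

/-- every element of `Γ₀(h)` can be scaled. -/
theorem exists_isScale_of_mem_Gamma0 {γ : SL(2, ℤ)} (hγ : γ ∈ CongruenceSubgroup.Gamma0 h) :
    ∃ γ', IsScale h γ γ' := by
  rw [CongruenceSubgroup.Gamma0_mem, ZMod.intCast_zmod_eq_zero_iff_dvd] at hγ
  obtain ⟨c, hc⟩ := hγ
  have hdet := γ.det_coe
  rw [Matrix.det_fin_two] at hdet
  refine ⟨⟨!![γ 0 0, h * γ 0 1; c, γ 1 1], ?_⟩, rfl, rfl, hc.symm, rfl⟩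
  rw [Matrix.det_fin_two_of]
  rw [hc] at hdet
  linarith

/-- every element of `Γ⁰(h)` can be unscaled. -/
theorem exists_isScale_of_dvd {γ' : SL(2, ℤ)} (hγ : (h : ℤ) ∣ γ' 0 1) :
    ∃ γ, IsScale h γ γ' := by
  obtain ⟨b, hb⟩ := hγ
  have hdet := γ'.det_coe
  rw [Matrix.det_fin_two] at hdet
  refine ⟨⟨!![γ' 0 0, b; h * γ' 1 0, γ' 1 1], ?_⟩, rfl, hb, rfl, rfl⟩
  rw [Matrix.det_fin_two_of]
  rw [hb] at hdet
  linarith

theorem ScaleA2_divH_eq (τ : ℍ) : divH h τ = ModularGroup.S • mulH h (ModularGroup.S • τ) := by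
  apply UpperHalfPlane.ext
  have hτ : (τ : ℂ) ≠ 0 := UpperHalfPlane.ne_zero τ
  have hh : (h : ℂ) ≠ 0 := by exact_mod_cast NeZero.ne h
  have e1 : ∀ σ : ℍ, ((ModularGroup.S • σ : ℍ) : ℂ) = (-(σ : ℂ))⁻¹ := by
    intro σ
    rw [UpperHalfPlane.modular_S_smul]
  rw [coe_divH, e1, coe_mulH, e1]
  field_simp

/-- PROOF. `kleinJ (τ/h) = kleinJ (S • (τ/h)) = kleinJ (h • (S • τ))`; apply
`S24.mem_Gamma0_of_kleinJ_mulH_smul_eq` to `S * γ * S⁻¹`, whose `1 0` entry is `- γ 0 1`. -/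
theorem dvd_of_kleinJ_divH_smul_eq (γ : SL(2, ℤ))
    (hγ : ∀ τ : ℍ, kleinJ (divH h (γ • τ)) = kleinJ (divH h τ)) : (h : ℤ) ∣ γ 0 1 := by
  have hJ : ∀ τ : ℍ, kleinJ (divH h τ) = kleinJ (mulH h (ModularGroup.S • τ)) := by
    intro τ
    rw [ScaleA2_divH_eq, kleinJ_smul]
  have hmem : ModularGroup.S * γ * ModularGroup.S⁻¹ ∈ CongruenceSubgroup.Gamma0 h := by
    apply mem_Gamma0_of_kleinJ_mulH_smul_eq
    intro σ
    have h2 : (ModularGroup.S * γ * ModularGroup.S⁻¹) • σ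
        = ModularGroup.S • (γ • (ModularGroup.S⁻¹ • σ)) := by rw [mul_smul, mul_smul]
    rw [h2, ← hJ, hγ, hJ, smul_smul, mul_inv_cancel, one_smul]
  rw [CongruenceSubgroup.Gamma0_mem, ZMod.intCast_zmod_eq_zero_iff_dvd] at hmem
  have e : (ModularGroup.S * γ * ModularGroup.S⁻¹) 1 0 = - γ 0 1 := by
    rw [Matrix.SpecialLinearGroup.coe_mul, Matrix.SpecialLinearGroup.coe_mul,
      Matrix.SpecialLinearGroup.coe_inv, ModularGroup.coe_S, Matrix.adjugate_fin_two_of]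
    simp [Matrix.mul_apply, Fin.sum_univ_two, Matrix.vecMul, dotProduct]
  rw [e, dvd_neg] at hmem
  exact hmem

theorem PsiFun_one_jM (τ : ℍ) : PsiFun ι 1 (jM K h) τ = kleinJ (mulH h τ) := by
  rw [← PsiFun_mulH ι h, PsiFun_jM]

theorem PsiFun_jM_one (τ : ℍ) : PsiFun ι h (jM K 1) τ = kleinJ (divH h τ) := by
  rw [← PsiFun_divH ι h, PsiFun_jM]

end Fermat.Agent.S48.Full
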