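import Fermat.Agent.S48.Full.Good
import Fermat.Agent.S48.WT1.Lipschitz
import Fermat.Agent.S48.WT1.ConstTerm

/-!
# S48 / FULL : the level `M` Eisenstein series of weight 4 (analytic definitions)

The analysis is in `S48/WT1/{EisDefs,Lipschitz,ConstTerm}` (`WT1.G`, `WT1.G_slash`, `WT1.G_eq`,
`WT1.Zc_four`).
-/

set_option autoImplicit false
set_option linter.unusedSectionVars false

open UpperHalfPlane ModularCurve Matrix ModularForm EisensteinSeries
open scoped MatrixGroups Manifold Real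

noncomputable section

namespace Fermat.Agent.S48.Full

open Fermat.Agent.S24 Fermat.Agent.GAL.Tors.TwistedEis

local notation "Δ" => ModularForm.discriminant

variable (M : ℕ) [NeZero M]

/-- reduction mod `M` of an element of `SL₂(ℤ)`. -/
abbrev redSL (γ : SL(2, ℤ)) : Matrix (Fin 2) (Fin 2) (ZMod M) := WT1.redSL M γ

/-- `G₄^v(τ) = ∑_{x ≡ v mod M} (x₀ τ + x₁)⁻⁴`. -/
abbrev G4 (v : Fin 2 → ZMod M) : ℍ → ℂ := WT1.G M 4 v

/-- The normalising constant `(2πi)⁴ / (3! M⁴)`. -/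
abbrev cM : ℂ := WT1.Ck M 4

theorem cM_ne_zero : cM M ≠ 0 := WT1.Ck_ne_zero M 4

/-- `ζ_M = e^{2πi/M}`. -/
def zetaC : ℂˣ := Units.mk0 (Complex.exp (2 * π * Complex.I / M)) (Complex.exp_ne_zero _)

theorem coe_zetaC : ((zetaC M : ℂˣ) : ℂ) = Complex.exp (2 * π * Complex.I / M) := rfl

/-- The weight zero function `G₄^v E₄² / Δ`, normalised. -/
def hA (v : Fin 2 → ZMod M) (τ : ℍ) : ℂ := G4 M v τ / cM M * (E₄ τ ^ 2 / Δ τ)

end Fermat.Agent.S48.Full
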