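import Fermat.Agent.S48.Full.ActBasic

/-!
# S48 / FULL leaves A5, A6 : Galois theory of `K(S) / K(j)`

`G := (H.act hst).range` is a finite group of automorphisms of `F = K(S)` (it is a quotient of
`SL₂(ℤ) ⧸ Γ`; `Γ` is the kernel by `act_eq_self_of_mem`, `mem_of_act_eq_one`), of order
`[SL₂(ℤ) : Γ] = [F : K(j)]` (`finrank_jF`).  Artin (`FixedPoints.finrank_eq_card`,
`IntermediateField.finrank_fixedField_eq_card`): `[F : F^G] = |G|`; `K(j) ≤ F^G` (`act_jF`), so they are equal.
(A6): same count with the image of `Γ'`: `[F : F^{Γ'}] = [Γ' : Γ]`, `FS K S' ≤ F^{Γ'}`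
(`H'.compSL_PsiMer`-type invariance; `FS_le`), `[FS K S' : K(j)] = [SL₂(ℤ) : Γ']`.
-/

set_option autoImplicit false
set_option linter.unusedSectionVars false

open UpperHalfPlane ModularCurve Polynomial AlgebraicCurve
open scoped MatrixGroups Manifold

noncomputable section

namespace Fermat.Agent.S48.Full

open Fermat.Agent.S24 Fermat.Agent.GAL Fermat.Agent.GAL.Tors

variable {K : Type} [Field K] {ι : K →+* ℂ} {Γ : Subgroup SL(2, ℤ)}
  {h : ℕ} [NeZero h] {S : Set (LaurentSeries K)}

/-- Artin's theorem + degree count: a subfield `E` fixed by a group of automorphisms whose order is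
`[F : E]` is the whole fixed field. -/
theorem ActGalois_mem_of_fixed {K F G₀ : Type*} [Field K] [Field F] [Algebra K F] [Group G₀]
    (φ : G₀ →* (F ≃ₐ[K] F)) (E : IntermediateField K F)
    (hle : E ≤ IntermediateField.fixedField φ.range)
    (hcard : φ.ker.index = Module.finrank E F) (h0 : Module.finrank E F ≠ 0)
    (x : F) (hx : ∀ g, φ g x = x) : x ∈ E := by
  classical
  have hc : Nat.card φ.range = Module.finrank E F := by rw [← hcard, Subgroup.index_ker]
  have : Finite φ.range := Nat.finite_of_card_ne_zero (by rw [hc]; exact h0)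
  let _ : Fintype φ.range := Fintype.ofFinite _
  have hA : Module.finrank (IntermediateField.fixedField φ.range) F = Fintype.card φ.range :=
    FixedPoints.finrank_eq_card φ.range F
  have : FiniteDimensional E F := Module.finite_of_finrank_pos (Nat.pos_of_ne_zero h0)
  have heq : E = IntermediateField.fixedField φ.range :=
    IntermediateField.eq_of_le_of_finrank_eq' hle (by rw [hA, ← Nat.card_eq_fintype_card, hc])
  rw [heq, IntermediateField.mem_fixedField_iff]
  rintro _ ⟨g, rfl⟩
  exact hx g

namespace GenSet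

variable (H : GenSet ι Γ h S) (hst : Stable ι h S)

/-- the kernel of the action is `Γ`. -/
theorem ActGalois_ker : (H.act hst).ker = Γ := by
  ext g
  rw [MonoidHom.mem_ker]
  constructor
  · intro hg
    exact H.mem_of_act_eq_one hst (fun x => by rw [hg]; rfl)
  · intro hg
    ext x
    rw [H.act_eq_self_of_mem hst hg x]
    rfl

/-- the two realisations agree on the smaller field. -/
theorem ActGalois_PsiMer_eq [Γ.FiniteIndex] [IsAlgClosed K] {Γ' : Subgroup SL(2, ℤ)}
    {S' : Set (LaurentSeries K)} (H' : GenSet ι Γ' h S') (hΓ : Γ ≤ Γ') (y : FS K S') :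
    H.PsiMer (IntermediateField.inclusion (H.FS_le H' hΓ) y) = H'.PsiMer y := by
  have hh : H.PsiMer.comp (IntermediateField.inclusion (H.FS_le H' hΓ)).toRingHom = H'.PsiMer := by
    apply IsFractionRing.ringHom_ext (A := AS K S')
    intro a
    show H.PsiMer (IntermediateField.inclusion (H.FS_le H' hΓ) (a : FS K S'))
      = H'.PsiMer (a : FS K S')
    have hcoe : ((IntermediateField.inclusion (H.FS_le H' hΓ) (a : FS K S') : FS K S) :
        LaurentSeries K) = ((a : FS K S') : LaurentSeries K) :=
      IntermediateField.coe_inclusion _ _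
    have hgood : ((IntermediateField.inclusion (H.FS_le H' hΓ) (a : FS K S') : FS K S) :
        LaurentSeries K) ∈ goodSub K ι Γ h := by
      rw [hcoe]
      exact goodSub_mono ι h hΓ (H'.good_coe a)
    rw [H'.PsiMer_coe, H.PsiMer_of_good _ hgood]
    congr 1
  exact RingHom.congr_fun hh y

/-- elements of the smaller field are fixed by the bigger group. -/
theorem ActGalois_act_eq_self [Γ.FiniteIndex] [IsAlgClosed K] {Γ' : Subgroup SL(2, ℤ)}
    {S' : Set (LaurentSeries K)} (H' : GenSet ι Γ' h S') (hΓ : Γ ≤ Γ') (x : FS K S)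
    (hx : (x : LaurentSeries K) ∈ FS K S') {g : SL(2, ℤ)} (hg : g ∈ Γ') : H.act hst g x = x := by
  apply H.PsiMer_injective
  have hxe : x = IntermediateField.inclusion (H.FS_le H' hΓ) ⟨(x : LaurentSeries K), hx⟩ :=
    Subtype.ext (IntermediateField.coe_inclusion (H.FS_le H' hΓ)
      (⟨(x : LaurentSeries K), hx⟩ : FS K S')).symm
  rw [PsiMer_act, hxe, H.ActGalois_PsiMer_eq H' hΓ, H'.compSL_PsiMer g⁻¹ (inv_mem hg)]

/-- (A5) **the fixed field is `K(j)`**. -/
theorem mem_adjoin_jF_of_fixed [Γ.FiniteIndex] [IsAlgClosed K] (x : FS K S)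
    (hx : ∀ g, H.act hst g x = x) : x ∈ IntermediateField.adjoin K {H.jF} := by
  have hfr := H.finrank_jF
  refine ActGalois_mem_of_fixed (H.act hst) (IntermediateField.adjoin K {H.jF}) ?_ ?_ ?_ x hx
  · rw [IntermediateField.adjoin_simple_le_iff, IntermediateField.mem_fixedField_iff]
    rintro _ ⟨g, rfl⟩
    exact H.act_jF hst g
  · rw [H.ActGalois_ker hst, hfr]
    rfl
  · rw [hfr]
    exact Subgroup.FiniteIndex.index_ne_zero

/-- (A6) **Galois correspondence**: the fixed field of `Γ' ≥ Γ` is the function field of `Γ'`. -/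
theorem mem_FS_iff_fixed [Γ.FiniteIndex] [IsAlgClosed K] {Γ' : Subgroup SL(2, ℤ)}
    {S' : Set (LaurentSeries K)} (H' : GenSet ι Γ' h S') (hΓ : Γ ≤ Γ') (x : FS K S) :
    (x : LaurentSeries K) ∈ FS K S' ↔ ∀ g ∈ Γ', H.act hst g x = x := by
  refine ⟨fun hx g hg => H.ActGalois_act_eq_self hst H' hΓ x hx hg, fun hx => ?_⟩
  have : Γ'.FiniteIndex := Subgroup.finiteIndex_of_le hΓ
  have hle : FS K S' ≤ FS K S := H.FS_le H' hΓ
  have hJ : IntermediateField.adjoin K {jM K h} ≤ FS K S' := by
    rw [IntermediateField.adjoin_simple_le_iff]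
    exact IntermediateField.subset_adjoin K S' H'.jmem
  -- degrees in the ambient field
  have h1 : IntermediateField.relfinrank (IntermediateField.adjoin K {jM K h}) (FS K S) = Γ.index := by
    have := H.finrank_jF
    rw [Dict.degree_finrank_eq_relfinrank (FS K S) H.jF] at this
    exact this
  have h2 : IntermediateField.relfinrank (IntermediateField.adjoin K {jM K h}) (FS K S')
      = Γ'.index := by
    have := H'.finrank_jF
    rw [Dict.degree_finrank_eq_relfinrank (FS K S') H'.jF] at this
    exact this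
  have h3 := IntermediateField.relfinrank_mul_relfinrank hJ hle
  rw [h1, h2, ← Subgroup.relIndex_mul_index hΓ, mul_comm] at h3
  have h4 : IntermediateField.relfinrank (FS K S') (FS K S) = Γ.relIndex Γ' :=
    Nat.eq_of_mul_eq_mul_right (Nat.pos_of_ne_zero Subgroup.FiniteIndex.index_ne_zero) h3
  have h5 : Module.finrank (IntermediateField.restrict hle) (FS K S) = Γ.relIndex Γ' := by
    rw [← h4, ← IntermediateField.relfinrank_top_right,
      ← IntermediateField.relfinrank_map_map _ _ (FS K S).val, ← AlgHom.fieldRange_eq_map,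
      IntermediateField.fieldRange_val]
    congr 1
    exact IntermediateField.lift_restrict hle
  have h6 : Γ.relIndex Γ' ≠ 0 := by
    intro h0
    have h7 := Subgroup.relIndex_mul_index hΓ
    rw [h0, zero_mul] at h7
    exact Subgroup.FiniteIndex.index_ne_zero h7.symm
  rw [← IntermediateField.mem_restrict hle]
  refine ActGalois_mem_of_fixed ((H.act hst).comp Γ'.subtype) (IntermediateField.restrict hle)
    ?_ ?_ ?_ x (fun g => hx g.1 g.2)
  · intro y hy
    rw [IntermediateField.mem_fixedField_iff]
    rintro _ ⟨g, rfl⟩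
    exact H.ActGalois_act_eq_self hst H' hΓ y ((IntermediateField.mem_restrict hle y).1 hy) g.2
  · rw [h5, ← MonoidHom.comap_ker, H.ActGalois_ker hst]
    rfl
  · rw [h5]
    exact h6

end GenSet

end Fermat.Agent.S48.Full
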