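import Fermat.Agent.S48.Full.ActBasic

/-!
# S48 / FULL leaf AN : the action of a subgroup `N ≤ SL₂(ℤ)` stabilising the generating set

Verbatim port of `Act.lean` + `ActBasic.lean` (which treat `N = ⊤`) with `g : SL(2, ℤ)` replaced by
`g : N`.  Used for `F1` with `N = Γ₀(M)` (diamond operators).
-/

set_option autoImplicit false
set_option linter.unusedSectionVars false

open UpperHalfPlane ModularCurve Polynomial AlgebraicCurve
open scoped MatrixGroups Manifold

noncomputable section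

namespace Fermat.Agent.S48.Full

open Fermat.Agent.S24 Fermat.Agent.GAL Fermat.Agent.GAL.Tors

variable {K : Type} [Field K] {ι : K →+* ℂ} {Γ : Subgroup SL(2, ℤ)}
  {h : ℕ} [NeZero h] {S : Set (LaurentSeries K)} {N : Subgroup SL(2, ℤ)}

/-- The set of sums of the elements of `S` is stable under `N`. -/
def StableOn (ι : K →+* ℂ) (h : ℕ) (S : Set (LaurentSeries K)) (N : Subgroup SL(2, ℤ)) : Prop :=
  ∀ g ∈ N, ∀ s ∈ S, ∃ s' ∈ S, ∀ τ, PsiFun ι h s' τ = PsiFun ι h s (g • τ)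

namespace GenSet

variable (H : GenSet ι Γ h S) (hst : StableOn ι h S N)

include hst in
theorem exists_translateN (g : N) (a : AS K S) :
    ∃ a' : AS K S, ∀ τ, H.PsiA a' τ = H.PsiA a ((g : SL(2, ℤ)) • τ) := by
  have key : ∀ s ∈ Algebra.adjoin K S, ∃ s' ∈ Algebra.adjoin K S,
      ∀ τ, PsiFun ι h s' τ = PsiFun ι h s ((g : SL(2, ℤ)) • τ) := by
    intro s hs
    induction hs using Algebra.adjoin_induction with
    | mem x hx =>
      obtain ⟨s', hs', h'⟩ := hst g.1 g.2 x hx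
      exact ⟨s', Algebra.subset_adjoin hs', h'⟩
    | algebraMap c =>
      exact ⟨algebraMap K _ c, Subalgebra.algebraMap_mem _ c, fun τ => by
        rw [PsiFun_algebraMap, PsiFun_algebraMap]⟩
    | add x y hx hy ihx ihy =>
      obtain ⟨x', hx', h1⟩ := ihx
      obtain ⟨y', hy', h2⟩ := ihy
      refine ⟨x' + y', add_mem hx' hy', fun τ => ?_⟩
      rw [PsiFun_add (H.adjoin_le hx').1 (H.adjoin_le hy').1,
        PsiFun_add (H.adjoin_le hx).1 (H.adjoin_le hy).1, h1, h2]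
    | mul x y hx hy ihx ihy =>
      obtain ⟨x', hx', h1⟩ := ihx
      obtain ⟨y', hy', h2⟩ := ihy
      refine ⟨x' * y', mul_mem hx' hy', fun τ => ?_⟩
      rw [PsiFun_mul (H.adjoin_le hx').1 (H.adjoin_le hy').1,
        PsiFun_mul (H.adjoin_le hx).1 (H.adjoin_le hy).1, h1, h2]
  obtain ⟨s', hs', h'⟩ := key _ a.2
  exact ⟨⟨⟨s', IntermediateField.algebra_adjoin_le_adjoin K S hs'⟩, hs'⟩, h'⟩

include hst in
/-- stability passes to `K(S)`. -/
theorem ActN_exists_mer (g : N) (x : FS K S) :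
    ∃ y : FS K S, H.PsiMer y = compSL (g : SL(2, ℤ)) (H.PsiMer x) := by
  obtain ⟨a, ha, s, hs, _, hx⟩ := exists_div_AS S x
  obtain ⟨a', ha'⟩ := H.exists_translateN hst g ⟨a, ha⟩
  obtain ⟨s', hs'⟩ := H.exists_translateN hst g ⟨s, hs⟩
  refine ⟨(a' : FS K S) / (s' : FS K S), ?_⟩
  rw [hx, map_div₀, map_div₀, map_div₀, H.Act_PsiMer_translate g ⟨a, ha⟩ a' ha',
    H.Act_PsiMer_translate g ⟨s, hs⟩ s' hs']

/-- the translate of `x` by `g⁻¹`. -/
def ActNFun (g : N) (x : FS K S) : FS K S := (H.ActN_exists_mer hst g⁻¹ x).choose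

theorem ActN_PsiMer_ActNFun (g : N) (x : FS K S) :
    H.PsiMer (H.ActNFun hst g x) = compSL ((g : SL(2, ℤ))⁻¹) (H.PsiMer x) :=
  (H.ActN_exists_mer hst g⁻¹ x).choose_spec

theorem ActN_ActNFun_inv (g : N) (x : FS K S) :
    H.ActNFun hst g⁻¹ (H.ActNFun hst g x) = x := by
  apply H.PsiMer_injective
  rw [ActN_PsiMer_ActNFun, ActN_PsiMer_ActNFun, ← compSL_mul, Subgroup.coe_inv, mul_inv_cancel,
    compSL_one]

/-- the translation by `g⁻¹`, as an automorphism of `K(S)`. -/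
def ActNEquiv (g : N) : FS K S ≃ₐ[K] FS K S where
  toFun := H.ActNFun hst g
  invFun := H.ActNFun hst g⁻¹
  left_inv := H.ActN_ActNFun_inv hst g
  right_inv x := by
    have := H.ActN_ActNFun_inv hst g⁻¹ x
    rwa [inv_inv] at this
  map_mul' x y := by
    apply H.PsiMer_injective
    rw [map_mul, ActN_PsiMer_ActNFun, ActN_PsiMer_ActNFun, ActN_PsiMer_ActNFun, map_mul, map_mul]
  map_add' x y := by
    apply H.PsiMer_injective
    rw [map_add, ActN_PsiMer_ActNFun, ActN_PsiMer_ActNFun, ActN_PsiMer_ActNFun, map_add, map_add]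
  commutes' c := by
    apply H.PsiMer_injective
    rw [ActN_PsiMer_ActNFun, PsiMer_algebraMap]
    exact compGL_algebraMap _ _ _

theorem ActN_ActNEquiv_apply (g : N) (x : FS K S) :
    H.ActNEquiv hst g x = H.ActNFun hst g x := rfl

include hst in
theorem exists_actN : ∃ act : N →* (FS K S ≃ₐ[K] FS K S),
    ∀ g x, H.PsiMer (act g x) = compSL ((g : SL(2, ℤ))⁻¹) (H.PsiMer x) := by
  refine ⟨{ toFun := H.ActNEquiv hst, map_one' := ?_, map_mul' := ?_ }, fun g x => ?_⟩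
  · refine AlgEquiv.ext fun x => ?_
    apply H.PsiMer_injective
    rw [ActN_ActNEquiv_apply, ActN_PsiMer_ActNFun, Subgroup.coe_one, inv_one, compSL_one]
    rfl
  · intro g g'
    refine AlgEquiv.ext fun x => ?_
    apply H.PsiMer_injective
    rw [AlgEquiv.mul_apply, ActN_ActNEquiv_apply, ActN_ActNEquiv_apply, ActN_ActNEquiv_apply,
      ActN_PsiMer_ActNFun, ActN_PsiMer_ActNFun, ActN_PsiMer_ActNFun, Subgroup.coe_mul, mul_inv_rev,
      compSL_mul]
  · exact H.ActN_PsiMer_ActNFun hst g x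

/-- `actN g x` is the function `τ ↦ x (g⁻¹ τ)`. -/
def actN : N →* (FS K S ≃ₐ[K] FS K S) := (H.exists_actN hst).choose

theorem PsiMer_actN (g : N) (x : FS K S) :
    H.PsiMer (H.actN hst g x) = compSL ((g : SL(2, ℤ))⁻¹) (H.PsiMer x) :=
  (H.exists_actN hst).choose_spec g x

/-- an element of `K[S]` whose sum is the translate of the sum of `a` is `actN g a`. -/
theorem ActN_actN_eq (g : N) (a a' : AS K S)
    (ha : ∀ τ, H.PsiA a' τ = H.PsiA a ((g : SL(2, ℤ))⁻¹ • τ)) :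
    H.actN hst g (a : FS K S) = (a' : FS K S) := by
  apply H.PsiMer_injective
  rw [PsiMer_actN, PsiMer_coe, PsiMer_coe, compSL_ofHolo_apply]
  congr 1
  apply Subtype.ext
  funext τ
  rw [holoComp_apply, PsiH_apply, PsiH_apply]
  exact (ha τ).symm

theorem actN_mem_AS (g : N) (a : AS K S) : H.actN hst g (a : FS K S) ∈ AS K S := by
  obtain ⟨a', ha'⟩ := H.exists_translateN hst g⁻¹ a
  rw [H.ActN_actN_eq hst g a a' ha']
  exact a'.2

theorem PsiA_actN (g : N) (a : AS K S) (τ : ℍ) :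
    H.PsiA ⟨H.actN hst g (a : FS K S), H.actN_mem_AS hst g a⟩ τ
      = H.PsiA a ((g : SL(2, ℤ))⁻¹ • τ) := by
  obtain ⟨a', ha'⟩ := H.exists_translateN hst g⁻¹ a
  have h1 : (⟨H.actN hst g (a : FS K S), H.actN_mem_AS hst g a⟩ : AS K S) = a' :=
    Subtype.ext (H.ActN_actN_eq hst g a a' ha')
  rw [h1, ha']
  rfl

theorem actN_gen (g : N) {s s' : LaurentSeries K} (hs : s ∈ S) (hs' : s' ∈ S)
    (hss' : ∀ τ, PsiFun ι h s' τ = PsiFun ι h s ((g : SL(2, ℤ))⁻¹ • τ)) :
    H.actN hst g ⟨s, IntermediateField.subset_adjoin K S hs⟩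
      = ⟨s', IntermediateField.subset_adjoin K S hs'⟩ :=
  H.ActN_actN_eq hst g
    ⟨⟨s, IntermediateField.subset_adjoin K S hs⟩, Algebra.subset_adjoin hs⟩
    ⟨⟨s', IntermediateField.subset_adjoin K S hs'⟩, Algebra.subset_adjoin hs'⟩ hss'

theorem actN_jF (g : N) : H.actN hst g H.jF = H.jF :=
  H.ActN_actN_eq hst g H.jA H.jA fun τ => by
    rw [PsiA_jA, PsiA_jA, JLocal.kleinJ_smul]

theorem actN_eq_self_of_mem {g : N} (hg : (g : SL(2, ℤ)) ∈ Γ) (x : FS K S) :
    H.actN hst g x = x := by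
  apply H.PsiMer_injective
  rw [PsiMer_actN, H.compSL_PsiMer (g : SL(2, ℤ))⁻¹ (inv_mem hg)]

theorem mem_of_actN_eq_one {g : N} (hg : ∀ x, H.actN hst g x = x) : (g : SL(2, ℤ)) ∈ Γ := by
  rw [← inv_mem_iff]
  refine H.sep (g : SL(2, ℤ))⁻¹ fun s hs τ => ?_
  have h1 := H.PsiA_actN hst g
    ⟨⟨s, IntermediateField.subset_adjoin K S hs⟩, Algebra.subset_adjoin hs⟩ τ
  rw [PsiA_apply, PsiA_apply] at h1
  rw [← h1]
  simp only [hg]

/-- `FS K S` is stable under `σ` (series form). -/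
theorem ActN_coeffMap_mem (σ : K →+* K) (hσ : ∀ s ∈ S, coeffMap σ s = s) {x : LaurentSeries K}
    (hx : x ∈ FS K S) : coeffMap σ x ∈ FS K S := by
  induction hx using IntermediateField.adjoin_induction with
  | mem s hs => rw [hσ s hs]; exact IntermediateField.subset_adjoin K S hs
  | algebraMap c =>
    rw [coeffMap_algebraMap]
    exact (FS K S).algebraMap_mem _
  | add x y _ _ ihx ihy => rw [map_add]; exact add_mem ihx ihy
  | inv x _ ihx => rw [map_inv₀]; exact inv_mem ihx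
  | mul x y _ _ ihx ihy => rw [map_mul]; exact mul_mem ihx ihy

/-- series form of `coeffMap_actN`. -/
theorem ActN_coeffMap_actN_aux (σ : K →+* K) (hσ : ∀ s ∈ S, coeffMap σ s = s) (g : N)
    {x : LaurentSeries K} (hx : x ∈ FS K S) :
    ((H.actN hst g ⟨coeffMap σ x, ActN_coeffMap_mem σ hσ hx⟩ : FS K S) : LaurentSeries K)
      = coeffMap σ ((H.actN hst g ⟨x, hx⟩ : FS K S) : LaurentSeries K) := by
  induction hx using IntermediateField.adjoin_induction with
  | mem s hs =>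
    obtain ⟨s', hs', h'⟩ := hst (g⁻¹ : N).1 (g⁻¹ : N).2 s hs
    have h1 := H.actN_gen hst g hs hs' h'
    have h2 : (⟨coeffMap σ s, ActN_coeffMap_mem σ hσ (IntermediateField.subset_adjoin K S hs)⟩ :
        FS K S) = ⟨s, IntermediateField.subset_adjoin K S hs⟩ := Subtype.ext (hσ s hs)
    rw [h2, h1]
    exact (hσ s' hs').symm
  | algebraMap c =>
    have h1 : (⟨algebraMap K (LaurentSeries K) c, (FS K S).algebraMap_mem c⟩ : FS K S)
        = algebraMap K (FS K S) c := rfl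
    have h2 : (⟨coeffMap σ (algebraMap K (LaurentSeries K) c),
        ActN_coeffMap_mem σ hσ ((FS K S).algebraMap_mem c)⟩ : FS K S)
        = algebraMap K (FS K S) (σ c) := Subtype.ext (coeffMap_algebraMap σ c)
    rw [h1, h2, AlgEquiv.commutes, AlgEquiv.commutes]
    exact (coeffMap_algebraMap σ c).symm
  | add x y hx hy ihx ihy =>
    have h1 : (⟨x + y, add_mem hx hy⟩ : FS K S) = ⟨x, hx⟩ + ⟨y, hy⟩ := rfl
    have h2 : (⟨coeffMap σ (x + y), ActN_coeffMap_mem σ hσ (add_mem hx hy)⟩ : FS K S)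
        = ⟨coeffMap σ x, ActN_coeffMap_mem σ hσ hx⟩ + ⟨coeffMap σ y, ActN_coeffMap_mem σ hσ hy⟩ :=
      Subtype.ext (map_add _ _ _)
    have e1 : ∀ a b : FS K S, H.actN hst g (a + b) = H.actN hst g a + H.actN hst g b :=
      fun a b => (H.actN hst g).map_add' a b
    rw [h1, h2, e1, e1]
    show ((H.actN hst g ⟨coeffMap σ x, _⟩ : FS K S) : LaurentSeries K)
        + ((H.actN hst g ⟨coeffMap σ y, _⟩ : FS K S) : LaurentSeries K)
      = coeffMap σ (((H.actN hst g ⟨x, hx⟩ : FS K S) : LaurentSeries K)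
        + ((H.actN hst g ⟨y, hy⟩ : FS K S) : LaurentSeries K))
    rw [(coeffMap σ).map_add, ihx, ihy]
  | inv x hx ihx =>
    have h1 : (⟨x⁻¹, inv_mem hx⟩ : FS K S) = (⟨x, hx⟩ : FS K S)⁻¹ := rfl
    have h2 : (⟨coeffMap σ x⁻¹, ActN_coeffMap_mem σ hσ (inv_mem hx)⟩ : FS K S)
        = (⟨coeffMap σ x, ActN_coeffMap_mem σ hσ hx⟩ : FS K S)⁻¹ :=
      Subtype.ext (map_inv₀ _ _)
    rw [h1, h2, map_inv₀, map_inv₀, IntermediateField.coe_inv, IntermediateField.coe_inv,
      map_inv₀, ihx]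
  | mul x y hx hy ihx ihy =>
    have h1 : (⟨x * y, mul_mem hx hy⟩ : FS K S) = ⟨x, hx⟩ * ⟨y, hy⟩ := rfl
    have h2 : (⟨coeffMap σ (x * y), ActN_coeffMap_mem σ hσ (mul_mem hx hy)⟩ : FS K S)
        = ⟨coeffMap σ x, ActN_coeffMap_mem σ hσ hx⟩ * ⟨coeffMap σ y, ActN_coeffMap_mem σ hσ hy⟩ :=
      Subtype.ext (map_mul _ _ _)
    rw [h1, h2, map_mul, map_mul, IntermediateField.coe_mul, IntermediateField.coe_mul, map_mul,
      ihx, ihy]

/-- The action commutes with every ring endomorphism `σ` of `K` acting on the coefficients, if the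
generators have `σ`-fixed coefficients.
PROOF. The set of `x : FS K S` such that `coeffMap σ x ∈ FS K S` and
`actN g ⟨coeffMap σ x, _⟩ = coeffMap σ (actN g x)` (as series) is closed under `+, *, ⁻¹`, contains
the constants (`actN g` is `K`-linear; `coeffMap σ (algebraMap c) = algebraMap (σ c)`) and `S`
(by `hst` and `actN_gen`, `actN g s ∈ S`).  Use `IntermediateField.adjoin_induction`. -/
theorem coeffMap_actN (σ : K →+* K) (hσ : ∀ s ∈ S, coeffMap σ s = s) (g : N) (x y : FS K S)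
    (hxy : (y : LaurentSeries K) = coeffMap σ (x : LaurentSeries K)) :
    ((H.actN hst g y : FS K S) : LaurentSeries K)
      = coeffMap σ ((H.actN hst g x : FS K S) : LaurentSeries K) := by
  have h1 : y = ⟨coeffMap σ (x : LaurentSeries K), ActN_coeffMap_mem σ hσ x.2⟩ := Subtype.ext hxy
  rw [h1]
  exact H.ActN_coeffMap_actN_aux hst σ hσ g x.2

/-- `FS K S` is stable under such a `σ`. -/
theorem coeffMap_mem_FS (σ : K →+* K) (hσ : ∀ s ∈ S, coeffMap σ s = s) (x : FS K S) :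
    coeffMap σ (x : LaurentSeries K) ∈ FS K S :=
  ActN_coeffMap_mem σ hσ x.2

end GenSet

end Fermat.Agent.S48.Full
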