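import Fermat.Agent.S48.Full.Act

/-!
# S48 / FULL leaves A3, A4, A7 : basic properties of the action of `SL₂(ℤ)` on `K(S)`

Everything follows from `PsiMer_act`, `PsiMer_injective`, `PsiMer_coe`, `compSL_ofHolo_apply`,
`exists_translate`, `eq_of_PsiFun_eq`.  (A7): both sides are ring homomorphisms `K(S) → K((t))`
(`IsFractionRing.ringHom_ext (A := AS K S)`); on `a ∈ K[S]` compare sums:
`tq h (T • τ) = e^{2πi/h} tq h τ`, `S24.evalAt_twist` (relate `S28.twist ζ` to `S24.twist`, same coefficients).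
-/

set_option autoImplicit false
set_option linter.unusedSectionVars false

open UpperHalfPlane ModularCurve Polynomial AlgebraicCurve
open scoped MatrixGroups Manifold

noncomputable section

namespace Fermat.Agent.S48.Full

open Fermat.Agent.S24 Fermat.Agent.GAL Fermat.Agent.GAL.Tors

variable {K : Type} [Field K] {ι : K →+* ℂ} {Γ : Subgroup SL(2, ℤ)}
  {h : ℕ} [NeZero h] {S : Set (LaurentSeries K)}

namespace GenSet

variable (H : GenSet ι Γ h S) (hst : Stable ι h S)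

/-- an element of `K[S]` whose sum is the translate of the sum of `a` is `act g a`. -/
theorem ActBasic_act_eq (g : SL(2, ℤ)) (a a' : AS K S)
    (ha : ∀ τ, H.PsiA a' τ = H.PsiA a (g⁻¹ • τ)) : H.act hst g (a : FS K S) = (a' : FS K S) := by
  apply H.PsiMer_injective
  rw [PsiMer_act, PsiMer_coe, PsiMer_coe, compSL_ofHolo_apply]
  congr 1
  apply Subtype.ext
  funext τ
  rw [holoComp_apply, PsiH_apply, PsiH_apply]
  exact (ha τ).symm

/-- (A3) -/
theorem act_mem_AS (g : SL(2, ℤ)) (a : AS K S) : H.act hst g (a : FS K S) ∈ AS K S := by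
  obtain ⟨a', ha'⟩ := H.exists_translate hst g⁻¹ a
  rw [H.ActBasic_act_eq hst g a a' ha']
  exact a'.2

/-- (A3) -/
theorem PsiA_act (g : SL(2, ℤ)) (a : AS K S) (τ : ℍ) :
    H.PsiA ⟨H.act hst g (a : FS K S), H.act_mem_AS hst g a⟩ τ = H.PsiA a (g⁻¹ • τ) := by
  obtain ⟨a', ha'⟩ := H.exists_translate hst g⁻¹ a
  have h1 : (⟨H.act hst g (a : FS K S), H.act_mem_AS hst g a⟩ : AS K S) = a' :=
    Subtype.ext (H.ActBasic_act_eq hst g a a' ha')
  rw [h1, ha']

/-- (A3) the action on generators. -/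
theorem act_gen (g : SL(2, ℤ)) {s s' : LaurentSeries K} (hs : s ∈ S) (hs' : s' ∈ S)
    (hss' : ∀ τ, PsiFun ι h s' τ = PsiFun ι h s (g⁻¹ • τ)) :
    H.act hst g ⟨s, IntermediateField.subset_adjoin K S hs⟩
      = ⟨s', IntermediateField.subset_adjoin K S hs'⟩ :=
  H.ActBasic_act_eq hst g
    ⟨⟨s, IntermediateField.subset_adjoin K S hs⟩, Algebra.subset_adjoin hs⟩
    ⟨⟨s', IntermediateField.subset_adjoin K S hs'⟩, Algebra.subset_adjoin hs'⟩ hss'

theorem act_jF (g : SL(2, ℤ)) : H.act hst g H.jF = H.jF :=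
  H.ActBasic_act_eq hst g H.jA H.jA fun τ => by
    rw [PsiA_jA, PsiA_jA, JLocal.kleinJ_smul]

/-- (A4) -/
theorem act_eq_self_of_mem {g : SL(2, ℤ)} (hg : g ∈ Γ) (x : FS K S) : H.act hst g x = x := by
  apply H.PsiMer_injective
  rw [PsiMer_act, H.compSL_PsiMer g⁻¹ (inv_mem hg)]

/-- (A4) -/
theorem mem_of_act_eq_one {g : SL(2, ℤ)} (hg : ∀ x, H.act hst g x = x) : g ∈ Γ := by
  rw [← inv_mem_iff]
  refine H.sep g⁻¹ fun s hs τ => ?_
  have h1 := H.PsiA_act hst g
    ⟨⟨s, IntermediateField.subset_adjoin K S hs⟩, Algebra.subset_adjoin hs⟩ τ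
  rw [PsiA_apply, PsiA_apply] at h1
  rw [← h1]
  simp only [hg]

theorem ActBasic_tq_T_smul (τ : ℍ) :
    tq h (ModularGroup.T • τ) = Complex.exp (2 * Real.pi * Complex.I / h) * tq h τ := by
  rw [tq, tq, UpperHalfPlane.modular_T_smul, UpperHalfPlane.coe_vadd,
    Function.Periodic.qParam, Function.Periodic.qParam, ← Complex.exp_add]
  congr 1
  push_cast
  ring

theorem ActBasic_coeffMap_twist (ζ : Kˣ) (hc : ι (ζ : K) ≠ 0) (x : LaurentSeries K) :
    coeffMap ι (S28.twist ζ x) = S24.twist (ι (ζ : K)) hc (coeffMap ι x) := by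
  ext n
  rw [coeffMap_coeff, S28.twist_coeff, S24.twist_coeff, coeffMap_coeff, map_mul, Units.val_zpow_eq_zpow_val,
    map_zpow₀]

/-- (A7) `T⁻¹` acts by `t ↦ ζ t`. -/
theorem coe_act_T_inv (ζ : Kˣ) (hζ : ι (ζ : K) = Complex.exp (2 * Real.pi * Complex.I / h))
    (x : FS K S) :
    ((H.act hst (ModularGroup.T⁻¹) x : FS K S) : LaurentSeries K)
      = S28.twist ζ (x : LaurentSeries K) := by
  have hc : ι (ζ : K) ≠ 0 := by rw [hζ]; exact Complex.exp_ne_zero _
  have hc1 : ‖ι (ζ : K)‖ ≤ 1 := by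
    rw [hζ, Complex.norm_exp]
    simp
  have hh : ((FS K S).val : FS K S →+* LaurentSeries K).comp
        ((H.act hst (ModularGroup.T⁻¹) : FS K S ≃ₐ[K] FS K S) : FS K S →+* FS K S)
      = (S28.twist ζ).comp ((FS K S).val : FS K S →+* LaurentSeries K) := by
    apply IsFractionRing.ringHom_ext (A := AS K S)
    intro a
    show ((H.act hst (ModularGroup.T⁻¹) (a : FS K S) : FS K S) : LaurentSeries K)
      = S28.twist ζ ((a : FS K S) : LaurentSeries K)
    have hconv : IsConv (coeffMap ι (S28.twist ζ ((a : FS K S) : LaurentSeries K))) := by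
      rw [ActBasic_coeffMap_twist ζ hc]
      exact (H.isConv_coe a).twist hc hc1
    refine eq_of_PsiFun_eq ι h
      (H.isConv_coe ⟨_, H.act_mem_AS hst (ModularGroup.T⁻¹) a⟩) hconv fun τ => ?_
    have h1 := H.PsiA_act hst (ModularGroup.T⁻¹) a τ
    rw [PsiA_apply, PsiA_apply, inv_inv] at h1
    rw [h1, PsiFun, PsiFun, ActBasic_coeffMap_twist ζ hc, S24.evalAt_twist, ActBasic_tq_T_smul, hζ]
  exact RingHom.congr_fun hh x

end GenSet

end Fermat.Agent.S48.Full
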