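import Fermat.Agent.S48.Full.InstA
import Fermat.Agent.S48.Full.ActBasic

/-!
# S48 / FULL leaf I-B : `FFullC K M` is the field of `± Γ(M)`; the action of `SL₂(ℤ)`

Black boxes: `InstA.lean`, `Eis4Mod.lean`, the generic layer.
-/

set_option autoImplicit false
set_option linter.unusedSectionVars false

open UpperHalfPlane ModularCurve Matrix
open scoped MatrixGroups Manifold

noncomputable section

namespace Fermat.Agent.S48.Full

open Fermat.Agent.S24 Fermat.Agent.S24.Degree Fermat.Agent.S24.JLocal Fermat.Agent.GAL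

variable {K : Type} [Field K] [IsAlgClosed K] (ι : K →+* ℂ) (M : ℕ) [NeZero M]

/-- PROOF. Take `ζ` from `exists_isZeta`, rewrite `gensC_eq`. `fin`: `finite_gensC`; `good`:
`jM_mem_goodSub`, `hVec_mem_goodSub`; `jmem`; `sep`: if `g` fixes all `PsiFun (hVec v) = hA M v`
then by `hA_smul` and `hA_eq_iff`, `v ᵥ* redSL M g = v ∨ = -v` for all `v ≠ 0`:
`mem_GammaPM_of_forall`. -/
theorem genSet_full : GenSet ι (GammaPM M) M (gensC K M) := by
  obtain ⟨ζ, hζ⟩ := exists_isZeta ι M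
  refine ⟨finite_gensC K, ?_, Or.inl rfl, ?_⟩
  · rw [gensC_eq hζ.isPrimitiveRoot]
    rintro x (rfl | ⟨v, hv, rfl⟩)
    · exact jM_mem_goodSub ι (GammaPM M) M
    · exact hVec_mem_goodSub hζ hv
  · intro g hg
    apply mem_GammaPM_of_forall
    intro v hv0
    have hv : v ≠ 0 := fun h => hv0 (by rw [h]; rfl)
    have h1 : ∀ τ, hA M v τ = hA M (v ᵥ* redSL M g) τ := fun τ => by
      have h2 := hg _ (hVec_mem_gensC hζ.isPrimitiveRoot hv) τ
      rw [PsiFun_hVec hζ hv, PsiFun_hVec hζ hv, hA_smul] at h2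
      exact h2.symm
    exact (hA_eq_iff hv (vecMul_redSL_ne_zero hv g)).1 h1

/-- PROOF. `jM ↦ jM` (`PsiFun_jM`, `kleinJ_smul`), `hVec v ↦ hVec (v ᵥ* redSL M g)`
(`PsiFun_hVec`, `hA_smul`, `vecMul_redSL_ne_zero`). -/
theorem stable_full : Stable ι M (gensC K M) := by
  obtain ⟨ζ, hζ⟩ := exists_isZeta ι M
  intro g s hs
  rw [gensC_eq hζ.isPrimitiveRoot] at hs
  rcases hs with rfl | ⟨v, hv, rfl⟩
  · exact ⟨jM K M, Or.inl rfl, fun τ => by rw [PsiFun_jM, PsiFun_jM, kleinJ_smul]⟩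
  · refine ⟨hVec K M ζ (v ᵥ* redSL M g),
      hVec_mem_gensC hζ.isPrimitiveRoot (vecMul_redSL_ne_zero hv g), fun τ => ?_⟩
    rw [PsiFun_hVec hζ hv, PsiFun_hVec hζ (vecMul_redSL_ne_zero hv g), hA_smul]

/-- The action of `SL₂(ℤ)` on `FFullC K M = FS K (gensC K M)`:
`actFull g x` is the function `τ ↦ x (g⁻¹ τ)`. -/
def actFull : SL(2, ℤ) →* (FS K (gensC K M) ≃ₐ[K] FS K (gensC K M)) :=
  (genSet_full ι M).act (stable_full ι M)

/-- PROOF. `GenSet.act_gen`, `PsiFun_hVec`, `hA_smul`. -/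
theorem actFull_hVec {ζ : Kˣ} (hζ : IsZeta ι M ζ) (g : SL(2, ℤ)) {v : Fin 2 → ZMod M}
    (hv : v ≠ 0) :
    actFull ι M g ⟨hVec K M ζ v,
        IntermediateField.subset_adjoin K _ (hVec_mem_gensC hζ.isPrimitiveRoot hv)⟩ =
      ⟨hVec K M ζ (v ᵥ* redSL M g⁻¹), IntermediateField.subset_adjoin K _
        (hVec_mem_gensC hζ.isPrimitiveRoot (vecMul_redSL_ne_zero hv g⁻¹))⟩ := by
  refine (genSet_full ι M).act_gen (stable_full ι M) g (hVec_mem_gensC hζ.isPrimitiveRoot hv)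
    (hVec_mem_gensC hζ.isPrimitiveRoot (vecMul_redSL_ne_zero hv g⁻¹)) fun τ => ?_
  rw [PsiFun_hVec hζ hv, PsiFun_hVec hζ (vecMul_redSL_ne_zero hv g⁻¹), hA_smul]

/-- `T⁻¹` acts by `t ↦ ζ t` (`GenSet.coe_act_T_inv`). -/
theorem coe_actFull_T_inv {ζ : Kˣ} (hζ : IsZeta ι M ζ) (x : FS K (gensC K M)) :
    ((actFull ι M ModularGroup.T⁻¹ x : FS K (gensC K M)) : LaurentSeries K)
      = S28.twist ζ (x : LaurentSeries K) :=
  (genSet_full ι M).coe_act_T_inv (stable_full ι M) ζ (hζ.trans (coe_zetaC M)) x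

theorem actFull_eq_self_of_mem {g : SL(2, ℤ)} (hg : g ∈ GammaPM M) (x : FS K (gensC K M)) :
    actFull ι M g x = x :=
  (genSet_full ι M).act_eq_self_of_mem (stable_full ι M) hg x

theorem mem_GammaPM_of_actFull {g : SL(2, ℤ)} (hg : ∀ x, actFull ι M g x = x) : g ∈ GammaPM M :=
  (genSet_full ι M).mem_of_act_eq_one (stable_full ι M) hg

end Fermat.Agent.S48.Full
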