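import Fermat.Agent.S48.Full.F1A
import Fermat.Agent.S48.Full.InstB
import Fermat.Agent.S48.Full.ActN
import Fermat.Agent.S48.Full.ActGalois

/-!
# S48 / FULL leaf F1-B : `F1 L M = F1C L M`, `F1C ≤ FFullC`, the action of `Γ₀(M)` on `F1C`
-/

set_option autoImplicit false
set_option linter.unusedSectionVars false

open UpperHalfPlane ModularCurve Matrix
open scoped MatrixGroups Manifold

noncomputable section

namespace Fermat.Agent.S48.Full

open Fermat.Agent.S24 Fermat.Agent.S24.Degree Fermat.Agent.S24.JLocal Fermat.Agent.GAL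

/-- The generators are defined over `ℤ`. -/
theorem coeffMap_gens1 {Λ Λ' : Type*} [CommRing Λ] [CommRing Λ'] (φ : Λ →+* Λ') (M : ℕ) [NeZero M] :
    ⇑(coeffMap φ) '' gens1 Λ M = gens1 Λ' M := by
  ext x
  constructor
  · rintro ⟨y, hy, rfl⟩
    rcases hy with rfl | rfl | ⟨a, ha, rfl⟩
    · exact Or.inl (coeffMap_jM φ 1)
    · exact Or.inr (Or.inl (coeffMap_jM φ M))
    · refine Or.inr (Or.inr ⟨a, ha, ?_⟩)
      rw [coeffMap_hSer φ M a 1 (Or.inl ha), map_one]
  · rintro (rfl | rfl | ⟨a, ha, rfl⟩)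
    · exact ⟨jM Λ 1, Or.inl rfl, coeffMap_jM φ 1⟩
    · exact ⟨jM Λ M, Or.inr (Or.inl rfl), coeffMap_jM φ M⟩
    · refine ⟨hSer Λ M a 1, Or.inr (Or.inr ⟨a, ha, rfl⟩), ?_⟩
      rw [coeffMap_hSer φ M a 1 (Or.inl ha), map_one]

theorem F1B_coeffEmb_algebraMap (L : Type*) [Field L] [Algebra ℚ L] (c : ℚ) :
    coeffEmb L (algebraMap ℚ (LaurentSeries ℚ) c) =
      algebraMap L (LaurentSeries L) (algebraMap ℚ L c) := by
  rw [algebraMap_laurentSeries_eq_single, algebraMap_laurentSeries_eq_single, coeffEmb,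
    coeffMap_single]

/-- `coeffEmb` maps `adjoin ℚ S` into `adjoin L (coeffEmb '' S)`. -/
theorem F1B_coeffEmb_mem_adjoin (L : Type*) [Field L] [Algebra ℚ L] {S : Set (LaurentSeries ℚ)}
    {x : LaurentSeries ℚ} (hx : x ∈ IntermediateField.adjoin ℚ S) :
    coeffEmb L x ∈ IntermediateField.adjoin L (⇑(coeffEmb L) '' S) := by
  induction hx using IntermediateField.adjoin_induction with
  | mem y hy => exact IntermediateField.subset_adjoin _ _ ⟨y, hy, rfl⟩
  | algebraMap c =>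
      rw [F1B_coeffEmb_algebraMap]
      exact IntermediateField.algebraMap_mem _ _
  | add x y _ _ hx hy => rw [map_add]; exact add_mem hx hy
  | inv x _ hx => rw [map_inv₀]; exact inv_mem hx
  | mul x y _ _ hx hy => rw [map_mul]; exact mul_mem hx hy

/-- PROOF. (≤) `laurentBaseChange L F₀ = adjoin L (coeffEmb L '' F₀)`; the set of `x ∈ ℚ((q))` with
`coeffEmb L x ∈ F1C L M` is a subfield containing `ℚ` and `gens1 ℚ M` (`coeffMap_gens1`), use
`IntermediateField.adjoin_induction` (model: `S24.FNAdjoin.modularFunctionFieldBar_eq_adjoin`).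
(≥) `gens1 L M = coeffEmb L '' gens1 ℚ M ⊆ coeffEmb L '' F1₀ M`. -/
theorem F1_eq (L : Type*) [Field L] [Algebra ℚ L] (M : ℕ) [NeZero M] : F1 L M = F1C L M := by
  have himg : ⇑(coeffEmb L) '' gens1 ℚ M = gens1 L M := coeffMap_gens1 (algebraMap ℚ L) M
  apply le_antisymm
  · show IntermediateField.adjoin L _ ≤ _
    rw [IntermediateField.adjoin_le_iff]
    rintro _ ⟨x, hx, rfl⟩
    show coeffEmb L x ∈ IntermediateField.adjoin L (gens1 L M)
    rw [← himg]
    exact F1B_coeffEmb_mem_adjoin L hx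
  · show IntermediateField.adjoin L (gens1 L M) ≤ _
    rw [IntermediateField.adjoin_le_iff, ← himg]
    rintro _ ⟨x, hx, rfl⟩
    exact coeffEmb_mem_laurentBaseChange L (IntermediateField.subset_adjoin ℚ _ hx)

variable {K : Type} [Field K] [IsAlgClosed K] (ι : K →+* ℂ) (M : ℕ) [NeZero M]

include ι in
/-- `F1C K M` is also generated by `gensUp K M` (`GenSet.FS_insert` for `genSet_up`). -/
theorem F1C_eq_up : F1C K M = FS K (gensUp K M) := by
  show FS K (gens1 K M) = _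
  rw [gens1_eq_insert]
  refine (genSet_up ι M).FS_insert fun γ hγ => ?_
  exact (ZMod.intCast_zmod_eq_zero_iff_dvd _ _).mp (mem_Gamma1up.mp hγ).1

include ι in
/-- PROOF. `F1C_eq_up` and
`GenSet.FS_le (genSet_full ι M) (genSet_up ι M) (GammaPM_le_Gamma1up M)`. -/
theorem F1C_le_FFullC : F1C K M ≤ FFullC K M := by
  rw [F1C_eq_up ι M]
  exact GenSet.FS_le (genSet_full ι M) (genSet_up ι M) (GammaPM_le_Gamma1up M)

/-- `F1C K M` is the fixed field of `± Γ¹(M)` in `FFullC K M` (`GenSet.mem_FS_iff_fixed`). -/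
theorem mem_F1C_iff_fixed (x : FS K (gensC K M)) :
    (x : LaurentSeries K) ∈ F1C K M ↔ ∀ g ∈ Gamma1up M, actFull ι M g x = x := by
  rw [F1C_eq_up ι M]
  exact (genSet_full ι M).mem_FS_iff_fixed (stable_full ι M) (genSet_up ι M)
    (GammaPM_le_Gamma1up M) x

/-- `[1 0; n 1]`. -/
def F1B_U (n : ℤ) : SL(2, ℤ) := ⟨!![1, 0; n, 1], by simp [Matrix.det_fin_two]⟩

theorem F1B_U_coe (n : ℤ) : (F1B_U n : Matrix (Fin 2) (Fin 2) ℤ) = !![1, 0; n, 1] := rfl

theorem F1B_U_mul (m n : ℤ) : F1B_U m * F1B_U n = F1B_U (m + n) := by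
  ext i j
  fin_cases i <;> fin_cases j <;>
    simp [Matrix.SpecialLinearGroup.coe_mul, F1B_U_coe, Matrix.mul_apply, Fin.sum_univ_two]

/-- `± Γ¹(M)` is generated by `± Γ(M)` and `L = [1 0; 1 1]`: an element fixed by `L` is fixed by
`± Γ¹(M)`.
PROOF. for `g ∈ Gamma1up M` with `c = g 1 0`: `g * L^(-c)` or its negative is `≡ 1 mod M`
(`a ≡ d ≡ ±1`, `b ≡ 0`), so `g = γ L^c` with `γ ∈ GammaPM M`; `actFull_eq_self_of_mem`. -/
theorem mem_F1C_of_fixed_L (x : FS K (gensC K M))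
    (hx : actFull ι M ⟨!![1, 0; 1, 1], by simp [Matrix.det_fin_two]⟩ x = x) :
    (x : LaurentSeries K) ∈ F1C K M := by
  rw [mem_F1C_iff_fixed ι M]
  -- the stabiliser of `x`
  let Hx : Subgroup SL(2, ℤ) :=
    (MulAction.stabilizer (FS K (gensC K M) ≃ₐ[K] FS K (gensC K M)) x).comap (actFull ι M)
  have hHx : ∀ g, g ∈ Hx ↔ actFull ι M g x = x := fun g => Iff.rfl
  have hU : ∀ n : ℤ, F1B_U n ∈ Hx := by
    have hL : F1B_U 1 ∈ Hx := (hHx _).mpr hx
    intro n
    induction n using Int.induction_on with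
    | zero =>
      have : F1B_U 0 = 1 := by
        ext i j; fin_cases i <;> fin_cases j <;> simp [F1B_U_coe]
      rw [this]
      exact Hx.one_mem
    | succ n ih =>
      rw [← F1B_U_mul]
      exact Hx.mul_mem ih hL
    | pred n ih =>
      have h1 : F1B_U (-(n : ℤ) - 1) * F1B_U 1 = F1B_U (-(n : ℤ)) := by
        rw [F1B_U_mul]; congr 1; ring
      rw [eq_mul_inv_of_mul_eq h1]
      exact Hx.mul_mem ih (Hx.inv_mem hL)
  intro g hg
  rw [← hHx]
  obtain ⟨hb, ha⟩ := mem_Gamma1up.mp hg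
  set n : ℤ := g 1 0 * g 1 1 with hn
  have hγ : g * F1B_U (-n) ∈ GammaPM M := by
    have hdet : g 0 0 * g 1 1 - g 0 1 * g 1 0 = 1 := by
      have := g.det_coe
      rwa [Matrix.det_fin_two] at this
    have hdet' : ((g 0 0 : ℤ) : ZMod M) * ((g 1 1 : ℤ) : ZMod M) = 1 := by
      have h2 := congrArg (Int.cast : ℤ → ZMod M) hdet
      push_cast at h2
      rw [hb, zero_mul, sub_zero] at h2
      exact h2
    have e00 : (g * F1B_U (-n)) 0 0 = g 0 0 - g 0 1 * n := by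
      simp [Matrix.SpecialLinearGroup.coe_mul, F1B_U_coe, Matrix.mul_apply, Fin.sum_univ_two]; ring
    have e01 : (g * F1B_U (-n)) 0 1 = g 0 1 := by
      simp [Matrix.SpecialLinearGroup.coe_mul, F1B_U_coe, Matrix.mul_apply, Fin.sum_univ_two]
    have e10 : (g * F1B_U (-n)) 1 0 = g 1 0 - g 1 1 * n := by
      simp [Matrix.SpecialLinearGroup.coe_mul, F1B_U_coe, Matrix.mul_apply, Fin.sum_univ_two]; ring
    have e11 : (g * F1B_U (-n)) 1 1 = g 1 1 := by
      simp [Matrix.SpecialLinearGroup.coe_mul, F1B_U_coe, Matrix.mul_apply, Fin.sum_univ_two]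
    rw [mem_GammaPM, CongruenceSubgroup.Gamma_mem, CongruenceSubgroup.Gamma_mem]
    rcases ha with ha | ha
    · left
      rw [ha, one_mul] at hdet'
      rw [e00, e01, e10, e11]
      push_cast
      rw [hn]
      push_cast
      rw [hb, ha, hdet']
      simp
    · right
      rw [ha] at hdet'
      have hd : ((g 1 1 : ℤ) : ZMod M) = -1 := by linear_combination -hdet'
      simp only [Matrix.SpecialLinearGroup.coe_neg, Matrix.neg_apply]
      rw [e00, e01, e10, e11]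
      push_cast
      rw [hn]
      push_cast
      rw [hb, ha, hd]
      simp
  have hg' : g = (g * F1B_U (-n)) * F1B_U n := by
    rw [mul_assoc, F1B_U_mul, neg_add_cancel]
    have : F1B_U 0 = 1 := by
      ext i j; fin_cases i <;> fin_cases j <;> simp [F1B_U_coe]
    rw [this, mul_one]
  rw [hg']
  exact Hx.mul_mem ((hHx _).mpr (actFull_eq_self_of_mem ι M hγ x)) (hU n)

omit [IsAlgClosed K] in
/-- PROOF. `g = [A B; C D] ∈ Γ₀(M)`, `g'` with `IsScale M g g'` (`exists_isScale_of_mem_Gamma0`).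
`jM K 1 ↦ jM K 1` (`PsiFun_jM`, `kleinJ_smul`); `jM K M ↦ jM K M` (`PsiFun_one_jM`,
`IsScale.mulH_smul`, `kleinJ_smul`); `hSer a 1 ↦ hSer (a * A) 1` (`PsiFun_one_hSer_one`,
`IsScale.mulH_smul`, `hA_smul`, `![a,0] ᵥ* redSL M g' = ![a * A, 0]` since `g' 0 1 = M * B`;
`a * A ≠ 0` because `A` is a unit mod `M`). -/
theorem stable_F1 : StableOn ι 1 (gens1 K M) (CongruenceSubgroup.Gamma0 M) := by
  intro g hg s hs
  obtain ⟨g', hs'⟩ := exists_isScale_of_mem_Gamma0 M hg
  rcases hs with rfl | rfl | ⟨a, ha, rfl⟩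
  · refine ⟨jM K 1, Or.inl rfl, fun τ => ?_⟩
    rw [PsiFun_jM, PsiFun_jM, kleinJ_smul]
  · refine ⟨jM K M, Or.inr (Or.inl rfl), fun τ => ?_⟩
    rw [PsiFun_one_jM, PsiFun_one_jM, hs'.mulH_smul, kleinJ_smul]
  · have hdet : g 0 0 * g 1 1 - g 0 1 * g 1 0 = 1 := by
      have := g.det_coe
      rwa [Matrix.det_fin_two] at this
    have hc : ((g 1 0 : ℤ) : ZMod M) = 0 := by
      rwa [CongruenceSubgroup.Gamma0_mem] at hg
    have hdet' : ((g 0 0 : ℤ) : ZMod M) * ((g 1 1 : ℤ) : ZMod M) = 1 := by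
      have h2 := congrArg (Int.cast : ℤ → ZMod M) hdet
      push_cast at h2
      rw [hc, mul_zero, sub_zero] at h2
      exact h2
    have ha' : a * ((g 0 0 : ℤ) : ZMod M) ≠ 0 := by
      intro h0
      apply ha
      calc a = a * (((g 0 0 : ℤ) : ZMod M) * ((g 1 1 : ℤ) : ZMod M)) := by rw [hdet', mul_one]
        _ = 0 := by rw [← mul_assoc, h0, zero_mul]
    refine ⟨hSer K M (a * ((g 0 0 : ℤ) : ZMod M)) 1, Or.inr (Or.inr ⟨_, ha', rfl⟩), fun τ => ?_⟩
    rw [PsiFun_one_hSer_one ι M ha', PsiFun_one_hSer_one ι M ha, hs'.mulH_smul, hA_smul]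
    congr 1
    obtain ⟨h00, h01, -, -⟩ := hs'
    ext i
    fin_cases i
    · simp [WT1.redSL, Matrix.vecMul, dotProduct, Fin.sum_univ_two, h00]
    · simp [WT1.redSL, Matrix.vecMul, dotProduct, Fin.sum_univ_two, h01]

omit [IsAlgClosed K] in
/-- The action of `Γ₀(M)` on `F1C K M = FS K (gens1 K M)`; `⟨d⟩ u = act1 (diaRep d)⁻¹ u`. -/
def act1 : CongruenceSubgroup.Gamma0 M →* (FS K (gens1 K M) ≃ₐ[K] FS K (gens1 K M)) :=
  (genSet_F1 ι M).actN (stable_F1 ι M)

omit [IsAlgClosed K] in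
theorem PsiMer_act1 (g : CongruenceSubgroup.Gamma0 M) (x : FS K (gens1 K M)) :
    (genSet_F1 ι M).PsiMer (act1 ι M g x)
      = Tors.compSL ((g : SL(2, ℤ))⁻¹) ((genSet_F1 ι M).PsiMer x) :=
  (genSet_F1 ι M).PsiMer_actN (stable_F1 ι M) g x

omit [IsAlgClosed K] in
/-- The action commutes with the Galois action on the coefficients. -/
theorem coeffMap_act1 (σ : K →+* K) (g : CongruenceSubgroup.Gamma0 M) (x y : FS K (gens1 K M))
    (hxy : (y : LaurentSeries K) = coeffMap σ (x : LaurentSeries K)) :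
    ((act1 ι M g y : FS K (gens1 K M)) : LaurentSeries K)
      = coeffMap σ ((act1 ι M g x : FS K (gens1 K M)) : LaurentSeries K) := by
  refine (genSet_F1 ι M).coeffMap_actN (stable_F1 ι M) σ ?_ g x y hxy
  rintro s (rfl | rfl | ⟨a, ha, rfl⟩)
  · exact coeffMap_jM σ 1
  · exact coeffMap_jM σ M
  · rw [coeffMap_hSer σ M a 1 (Or.inl ha), map_one]

end Fermat.Agent.S48.Full
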