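import Fermat.Agent.S48.Full.Defs
import Fermat.Agent.GAL.Gauss.Ring

/-!
# S48 / FULL : the function field of `X₁(M)` by `q`-expansions, and the INJ contracts

* `gens1 Λ M = {j(q), j(q^M), hSer Λ M a 1 (a ≠ 0)}`: `hSer Λ M a 1` is the `q`-expansion of
  `τ ↦ h_{(a,0)}(Mτ)`, a `Γ₁(M)`-invariant function with integer coefficients;
* `F1C L M = L(gens1 L M)` (any field), `F1₀ M = ℚ(gens1 ℚ M)`,
  `F1 L M = laurentBaseChange L (F1₀ M)`;
* `Gamma1PM M = ± Γ₁(M)`;
* `StmtInjFull M`, `StmtInj1 M`: injectivity of the reduction on Kummer classes.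
-/

set_option autoImplicit false

noncomputable section

namespace Fermat.Agent.S48.Full

open ModularCurve AlgebraicCurve
open scoped MatrixGroups

/-- The generators of the function field of `X₁(M)` (variable `q`). -/
def gens1 (Λ : Type*) [CommRing Λ] (M : ℕ) [NeZero M] : Set (LaurentSeries Λ) :=
  {x | x = jM Λ 1 ∨ x = jM Λ M ∨ ∃ a : ZMod M, a ≠ 0 ∧ x = hSer Λ M a 1}

/-- The same set without `j(q)`: generators of the fixed field of `± Γ¹(M)` in `FFullC`
(variable `t`). -/
def gensUp (Λ : Type*) [CommRing Λ] (M : ℕ) [NeZero M] : Set (LaurentSeries Λ) :=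
  {x | x = jM Λ M ∨ ∃ a : ZMod M, a ≠ 0 ∧ x = hSer Λ M a 1}

theorem gens1_eq_insert (Λ : Type*) [CommRing Λ] (M : ℕ) [NeZero M] :
    gens1 Λ M = insert (jM Λ 1) (gensUp Λ M) := rfl

/-- **The function field of `X₁(M)` over `L`**, inside `L((q))`. -/
def F1C (L : Type*) [Field L] (M : ℕ) [NeZero M] : IntermediateField L (LaurentSeries L) :=
  IntermediateField.adjoin L (gens1 L M)

/-- The `ℚ`-structure: modular functions for `Γ₁(M)` with rational `q`-expansion at `∞`. -/
def F1₀ (M : ℕ) [NeZero M] : IntermediateField ℚ (LaurentSeries ℚ) :=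
  IntermediateField.adjoin ℚ (gens1 ℚ M)

/-- **The function field of `X₁(M)`** over a field of characteristic zero. -/
abbrev F1 (L : Type*) [Field L] [Algebra ℚ L] (M : ℕ) [NeZero M] :
    IntermediateField L (LaurentSeries L) :=
  laurentBaseChange L (F1₀ M)

/-- `± Γ₁(M)`. -/
def Gamma1PM (M : ℕ) : Subgroup SL(2, ℤ) where
  carrier := {γ | γ ∈ CongruenceSubgroup.Gamma1 M ∨ -γ ∈ CongruenceSubgroup.Gamma1 M}
  one_mem' := Or.inl (one_mem _)
  mul_mem' := by
    rintro a b (ha | ha) (hb | hb)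
    · exact Or.inl (mul_mem ha hb)
    · exact Or.inr (by simpa using mul_mem ha hb)
    · exact Or.inr (by simpa using mul_mem ha hb)
    · exact Or.inl (by simpa using mul_mem ha hb)
  inv_mem' := by
    rintro a (ha | ha)
    · exact Or.inl (inv_mem ha)
    · refine Or.inr ?_
      have := inv_mem ha
      have e : (-a)⁻¹ = -a⁻¹ := by
        rw [inv_eq_iff_mul_eq_one]; simp
      rwa [e] at this

theorem mem_Gamma1PM {M : ℕ} {γ : SL(2, ℤ)} :
    γ ∈ Gamma1PM M ↔ γ ∈ CongruenceSubgroup.Gamma1 M ∨ -γ ∈ CongruenceSubgroup.Gamma1 M := Iff.rfl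

theorem Gamma1_le_Gamma1PM (M : ℕ) : CongruenceSubgroup.Gamma1 M ≤ Gamma1PM M :=
  fun _ h => Or.inl h

open Fermat.Agent.GAL.Gauss in
/-- **INJ for a subfield `F` of `K((t))`** and a valuation ring `A` of `K`: if `P, Q ∈ F` have
coefficients in `A`, the same non-zero reduction, and `m ∣ div (P/Q)` with `m` invertible in the
residue field, then `P/Q` is an `m`-th power in `F`. -/
def InjAt {K : Type} [Field K] (A : ValuationSubring K)
    (F : IntermediateField K (LaurentSeries K)) : Prop :=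
  ∀ (m : ℕ), ((m : ℕ) : IsLocalRing.ResidueField ↥A) ≠ 0 →
    ∀ (P Q : F) (p q : LaurentSeries ↥A),
      (P : LaurentSeries K) = iA A p → (Q : LaurentSeries K) = iA A q →
      pA A q ≠ 0 → pA A p = pA A q →
      (∀ v : Place K F, (m : ℤ) ∣ v.ord (P / Q)) → ∃ w : F, P / Q = w ^ m

/-- Contract of block IGUSA1. -/
def StmtInjFull (M : ℕ) [NeZero M] : Prop :=
  ∀ A : ValuationSubring (AlgebraicClosure ℚ), ((M : ℕ) : IsLocalRing.ResidueField ↥A) ≠ 0 →
    InjAt A (FFullC (AlgebraicClosure ℚ) M)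

/-- What block ES1 uses. -/
def StmtInj1 (M : ℕ) [NeZero M] : Prop :=
  ∀ A : ValuationSubring (AlgebraicClosure ℚ), ((M : ℕ) : IsLocalRing.ResidueField ↥A) ≠ 0 →
    InjAt A (F1 (AlgebraicClosure ℚ) M)

end Fermat.Agent.S48.Full
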