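import Fermat.Agent.S48.Full.Good
import Fermat.Agent.GAL.Tors.Dict.RC

/-!
# S48 / FULL leaves G7, G8 : expansions at the cusps

(G8) `f` holomorphic on `ℍ`, `f (τ + h) = f τ`, `f = O(e^{2π m y})`: `F(t) := f(τ)` for `t = e^{2πiτ/h}` is
well defined and holomorphic on the punctured disc (`Function.Periodic.cuspFunction`,
`Function.Periodic.qParam_right_inv`, `differentiableAt_cuspFunction`-type lemmas of
`Mathlib/Analysis/Complex/Periodic.lean`), `t^{m h} F(t)` is bounded near `0`, hence extends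
(removable singularity: `Complex.differentiableOn_update_limUnder_of_bddAbove` or the way
`S24/CuspRing.lean`, `S24/CuspExp.lean` do it); Taylor series `S24.isConv_taylor0`, `S24.evalAt_taylor0`.
(G7) apply the same construction to `τ ↦ PsiFun ι h a (g • τ)`, which is nice and has period `w`
(because `g T^w g⁻¹ ∈ Γ`); the target is `S24.CuspRing.HasExp w f m G`.
-/

set_option autoImplicit false
set_option linter.unusedSectionVars false

open UpperHalfPlane ModularCurve Polynomial Filter Asymptotics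
open scoped MatrixGroups Manifold

noncomputable section

namespace Fermat.Agent.S48.Full

open Fermat.Agent.S24 Fermat.Agent.S24.Degree Fermat.Agent.S24.JLocal Fermat.Agent.GAL

variable {K : Type} [Field K] (ι : K →+* ℂ) (Γ : Subgroup SL(2, ℤ)) (h : ℕ) [NeZero h]

/-- `T ^ n` acts by the translation by `n`. -/
theorem GoodCusp_T_pow_smul (n : ℕ) (τ : ℍ) :
    (ModularGroup.T ^ n : SL(2, ℤ)) • τ = (n : ℝ) +ᵥ τ := by
  have := UpperHalfPlane.modular_T_zpow_smul τ (n : ℤ)
  rwa [zpow_natCast, Int.cast_natCast] at this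

/-- (G7) the translates of a good series have an expansion at `∞` in `e^{2πiτ/w}`, as soon as
`T^w` lies in all conjugates of `Γ`. -/
theorem translate_mem_Rcusp (w : ℕ) [NeZero w]
    (hw : ∀ g : SL(2, ℤ), g * ModularGroup.T ^ w * g⁻¹ ∈ Γ)
    (a : LaurentSeries K) (ha : a ∈ goodSub K ι Γ h) (g : SL(2, ℤ)) :
    (fun τ => PsiFun ι h a (g • τ)) ∈ CuspRing.Rcusp w := by
  obtain ⟨-, hinv, hnice⟩ := ha
  obtain ⟨hmd, hgr⟩ := hnice g
  refine Fermat.Agent.GAL.Tors.Dict.mem_Rcusp_of_periodic hmd (fun τ => ?_) hgr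
  show PsiFun ι h a (g • ((w : ℝ) +ᵥ τ)) = PsiFun ι h a (g • τ)
  rw [← GoodCusp_T_pow_smul, ← hinv _ (hw g) (g • τ)]
  congr 1
  rw [← mul_smul, ← mul_smul, inv_mul_cancel_right]

/-- (G8) conversely: a holomorphic function on `ℍ`, of period `h`, of moderate growth, is the sum
of a convergent Laurent series in `t` (over `ℂ`). -/
theorem exists_series_of_periodic (f : ℍ → ℂ) (hf : f ∈ niceSubring)
    (hper : ∀ τ : ℍ, f ((ModularGroup.T ^ h : SL(2, ℤ)) • τ) = f τ) :
    ∃ a : LaurentSeries ℂ, IsConv a ∧ ∀ τ, evalAt (tq h τ) a = f τ := by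
  obtain ⟨hmd, hgr⟩ := hf
  have hmem : f ∈ CuspRing.Rcusp h :=
    Fermat.Agent.GAL.Tors.Dict.mem_Rcusp_of_periodic hmd
      (fun τ => by rw [← GoodCusp_T_pow_smul]; exact hper τ) hgr
  obtain ⟨m, g, hexp⟩ := CuspRing.mem_Rcusp.mp hmem
  refine ⟨CuspRing.ser m g, (isConv_single _ _).mul (isConv_taylor0 hexp.diff), fun τ => ?_⟩
  have hw : CuspRing.wpar h τ = tq h τ := rfl
  have h0 : tq h τ ≠ 0 := tq_ne_zero h τ
  have h1 : ‖tq h τ‖ < 1 := norm_tq_lt_one h τ
  rw [CuspRing.ser, evalAt_mul (isConv_single _ _) (isConv_taylor0 hexp.diff) h0 h1, evalAt_single,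
    evalAt_taylor0 hexp.diff h1, ← hw, ← hexp.eq τ, one_mul, zpow_neg, zpow_natCast]
  field_simp [CuspRing.wpar_ne_zero h τ]

end Fermat.Agent.S48.Full
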