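import Fermat.Agent.S48.Full.GenDeg
import Fermat.Agent.S48.Full.GoodCusp
import Fermat.Agent.GAL.FF.IsFFGeneral

/-!
# S48 / FULL : the dictionary places <-> points for `K(S)` (instantiation of `GAL/Tors/Dict`)

No `sorry` of its own.  `w` = a common width of all cusps (`T^w` lies in all conjugates of `Γ`).
-/

set_option autoImplicit false
set_option linter.unusedSectionVars false

open UpperHalfPlane ModularCurve Polynomial AlgebraicCurve
open scoped MatrixGroups Manifold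

noncomputable section

namespace Fermat.Agent.S48.Full

open Fermat.Agent.S24 Fermat.Agent.S24.Degree Fermat.Agent.S24.JLocal Fermat.Agent.GAL
  Fermat.Agent.S24.EmbedPoint Fermat.Agent.GAL.Tors Fermat.Agent.GAL.Tors.Dict

variable {K : Type} [Field K] [IsAlgClosed K] [CharZero K] {ι : K →+* ℂ} {Γ : Subgroup SL(2, ℤ)}
  [Γ.FiniteIndex] {h : ℕ} [NeZero h] {S : Set (LaurentSeries K)}

namespace GenSet

variable (H : GenSet ι Γ h S)
include H

theorem isFF : Lib.RR.IsFF K (FS K S) := by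
  have := H.finiteDimensional_jF
  exact FF.isFF_of_finiteDimensional H.jF H.transcendental_jF

theorem translate_mem (w : ℕ) [NeZero w] (hw : ∀ g : SL(2, ℤ), g * ModularGroup.T ^ w * g⁻¹ ∈ Γ)
    (g : SL(2, ℤ)) (a : AS K S) :
    Embed.translate H.realisation.Ψ g a ∈ CuspRing.Rcusp w :=
  translate_mem_Rcusp ι Γ h w hw _ (H.good_coe a) g⁻¹

/-- alg => an : orders. -/
theorem conc_orders (m : ℕ) (a : AS K S) (ha : a ≠ 0)
    (hdiv : ∀ v : Place K (FS K S), (m : ℤ) ∣ v.ord (a : FS K S)) (τ : ℍ) :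
    ∃ n : ℕ, analyticOrderAt (H.PsiA a ∘ ofComplex) (τ : ℂ) = ((m * n : ℕ) : ℕ∞) :=
  exists_analyticOrderAt_eq_mul (F := FS K S) H.realisation m a ha hdiv τ

/-- alg => an : the root is invariant under non hyperbolic elements. -/
theorem conc_root_invariant (w : ℕ) [NeZero w]
    (hw : ∀ g : SL(2, ℤ), g * ModularGroup.T ^ w * g⁻¹ ∈ Γ) (m : ℕ) [NeZero m] (a : AS K S)
    (ha : a ≠ 0) (hdiv : ∀ v : Place K (FS K S), (m : ℤ) ∣ v.ord (a : FS K S))
    (f : ℍ → ℂ) (hf : MDiff f) (hpow : ∀ τ, f τ ^ m = H.PsiA a τ)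
    (γ : SL(2, ℤ)) (hγ : γ ∈ Γ)
    (htr : (γ : Matrix (Fin 2) (Fin 2) ℤ).trace ^ 2 ≤ 4) (τ : ℍ) : f (γ • τ) = f τ := by
  rcases htr.lt_or_eq with h1 | h1
  · obtain ⟨τ₀, hτ₀⟩ := exists_fixed_of_trace_sq_lt_four γ h1
    exact root_smul_eq_of_fixed (F := FS K S) H.realisation m a ha hdiv f hf hpow γ hγ τ₀
      hτ₀ τ
  · exact root_smul_eq_of_parabolic (F := FS K S) H.realisation w
      (H.translate_mem w hw) m a ha hdiv f hf hpow γ hγ h1 τ

/-- an => alg. -/
theorem conc_dvd_ord (w : ℕ) [NeZero w]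
    (hw : ∀ g : SL(2, ℤ), g * ModularGroup.T ^ w * g⁻¹ ∈ Γ) (m : ℕ) [NeZero m] (a : AS K S)
    (ha : a ≠ 0) (f : ℍ → ℂ) (hf : MDiff f) (hpow : ∀ τ, f τ ^ m = H.PsiA a τ)
    (hinv : ∀ γ ∈ Γ, (γ : Matrix (Fin 2) (Fin 2) ℤ).trace ^ 2 ≤ 4 →
      ∀ τ, f (γ • τ) = f τ)
    (v : Place K (FS K S)) : (m : ℤ) ∣ v.ord (a : FS K S) := by
  have hj : Transcendental K (jOf (FS K S) H.realisation) := H.transcendental_jF
  have : FiniteDimensional (IntermediateField.adjoin K {jOf (FS K S) H.realisation})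
      (FS K S) := H.finiteDimensional_jF
  have hn : Module.finrank (IntermediateField.adjoin K {jOf (FS K S) H.realisation}) (FS K S)
      = Nat.card (SL(2, ℤ) ⧸ Γ) := H.finrank_jF
  rcases le_or_gt 0 (v.ord (jOf (FS K S) H.realisation)) with hv | hv
  · exact dvd_ord_of_root_point (F := FS K S) H.realisation hj hn m a ha f hf hpow
      (fun γ hγ τ₀ hτ₀ => hinv γ hγ (trace_sq_le_four_of_fixed γ τ₀ hτ₀)) v hv
  · exact dvd_ord_of_root_cusp (F := FS K S) H.realisation w (H.translate_mem w hw)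
      hj hn m a ha f hf hpow (fun γ hγ htr => hinv γ hγ htr.le) v hv

end GenSet

end Fermat.Agent.S48.Full
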