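import Fermat.Agent.S48.Full.GenSet

/-!
# S48 / FULL : change of the local parameter `t ↦ t^p` (width `h ↦ h p`)
-/

set_option autoImplicit false
set_option linter.unusedSectionVars false

open UpperHalfPlane ModularCurve Polynomial AlgebraicCurve
open scoped MatrixGroups Manifold

noncomputable section

namespace Fermat.Agent.S48.Full

open Fermat.Agent.S24 Fermat.Agent.GAL

variable {K : Type} [Field K] (ι : K →+* ℂ) (Γ : Subgroup SL(2, ℤ))
  (h : ℕ) [NeZero h] (p : ℕ) [NeZero p]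

theorem tq_mul_pow (τ : ℍ) : tq (h * p) τ ^ p = tq h τ := by
  have hh : (h : ℂ) ≠ 0 := Nat.cast_ne_zero.mpr (NeZero.ne h)
  have hp : (p : ℂ) ≠ 0 := Nat.cast_ne_zero.mpr (NeZero.ne p)
  unfold tq Function.Periodic.qParam
  rw [← Complex.exp_nat_mul]
  congr 1
  push_cast
  field_simp

theorem coeffMap_qExpand (a : LaurentSeries K) :
    coeffMap ι (qExpand K p a) = qExpand ℂ p (coeffMap ι a) := by
  exact ModularCurve.coeffMap_qExpand ι p a

theorem PsiFun_qExpand (a : LaurentSeries K) (τ : ℍ) :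
    PsiFun ι (h * p) (qExpand K p a) τ = PsiFun ι h a τ := by
  rw [PsiFun, Full.coeffMap_qExpand, evalAt_qExpand, tq_mul_pow, PsiFun]

theorem qExpand_mem_goodSub {a : LaurentSeries K} (ha : a ∈ goodSub K ι Γ h) :
    qExpand K p a ∈ goodSub K ι Γ (h * p) := by
  obtain ⟨h1, h2, h3⟩ := ha
  refine ⟨?_, fun γ hγ τ => ?_, fun g => ?_⟩
  · rw [Full.coeffMap_qExpand]
    exact h1.qExpand p
  · rw [PsiFun_qExpand, PsiFun_qExpand]
    exact h2 γ hγ τ
  · simp only [PsiFun_qExpand]
    exact h3 g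

theorem qExpand_jM : qExpand K p (jM K h) = jM K (h * p) := by
  rw [jM, jM, qExpand_qExpand]
  exact qExpand_congr (mul_comm p h) _

variable {ι Γ h}

/-- the same function field, written in the parameter `t^{1/p}`. -/
theorem GenSet.qExpand {S : Set (LaurentSeries K)} (H : GenSet ι Γ h S) :
    GenSet ι Γ (h * p) (⇑(ModularCurve.qExpand K p) '' S) := by
  refine ⟨H.fin.image _, ?_, ⟨jM K h, H.jmem, qExpand_jM h p⟩, fun g hg => H.sep g ?_⟩
  · rintro _ ⟨a, ha, rfl⟩
    exact qExpand_mem_goodSub ι Γ h p (H.good ha)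
  · intro s hs τ
    have := hg _ ⟨s, hs, rfl⟩ τ
    rwa [PsiFun_qExpand, PsiFun_qExpand] at this

/-- `K(S)(t^p) = K(S(t^p))`. -/
theorem mem_FS_image_qExpand {S : Set (LaurentSeries K)} (x : LaurentSeries K) :
    ModularCurve.qExpand K p x ∈ FS K (⇑(ModularCurve.qExpand K p) '' S) ↔ x ∈ FS K S := by
  have himg : (⇑(ModularCurve.qExpand K p) '' S) = (⇑(qExpandAlgHomC K p) '' S) := rfl
  rw [FS, FS, himg, ← IntermediateField.adjoin_map, IntermediateField.mem_map]
  constructor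
  · rintro ⟨y, hy, hxy⟩
    rw [qExpandAlgHomC_apply] at hxy
    rwa [← qExpand_injective p hxy]
  · intro hx
    exact ⟨x, hx, rfl⟩

end Fermat.Agent.S48.Full
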