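import Fermat.Agent.S48.Full.ScaleB
import Fermat.Agent.S48.Full.InstB
import Fermat.Agent.S48.Full.Width
import Fermat.Agent.S48.Full.ActGalois

/-!
# S48 / FULL leaf G0 : the `Γ₀`-fields of GAL inside the generic layer and inside `FFullC`

* `modularFunctionFieldFullC K N = FS K (divisorExpansionsC K N)` (defeq) is the field of `Γ₀(N)`
  in width `1`;
* its image under `q ↦ t^M` (`N = M`) is the fixed field of `Γ₀(M)` in `FFullC K M`;
* read in the variable `t` (`N = M²`) it is the field of `Γ₀⁰(M) = {b ≡ c ≡ 0 mod M}` in width `M`,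
  a subfield of `FFullC K M`.
-/

set_option autoImplicit false
set_option linter.unusedSectionVars false

open UpperHalfPlane ModularCurve Matrix
open scoped MatrixGroups Manifold

noncomputable section

namespace Fermat.Agent.S48.Full

open Fermat.Agent.S24 Fermat.Agent.S24.Degree Fermat.Agent.S24.JLocal Fermat.Agent.GAL

variable {K : Type} [Field K] (ι : K →+* ℂ)

theorem GenSet.congr_width {Γ : Subgroup SL(2, ℤ)} {h h' : ℕ} [NeZero h] [NeZero h']
    {S : Set (LaurentSeries K)} (e : h = h') (H : GenSet ι Γ h S) : GenSet ι Γ h' S := by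
  subst e; exact H

theorem divisorExpansionsC_eq (L : Type*) [Field L] (N : ℕ) :
    divisorExpansionsC L N = {x | ∃ (d : ℕ) (_ : NeZero d), d ∣ N ∧ x = jM L d} := rfl

theorem G0_Gamma0_le_of_dvd {d N : ℕ} (hd : d ∣ N) :
    CongruenceSubgroup.Gamma0 N ≤ CongruenceSubgroup.Gamma0 d := by
  intro γ hγ
  rw [CongruenceSubgroup.Gamma0_mem, ZMod.intCast_zmod_eq_zero_iff_dvd] at hγ ⊢
  exact (Int.natCast_dvd_natCast.2 hd).trans hγ

/-- PROOF. `fin`: image of `N.divisors`. `good`: `jM K d ∈ goodSub K ι ⊤ d` (`jM_mem_goodSub`) and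
`goodSub_scale` with `Γ' = Γ₀(N) ≤ Γ₀(d)` (`exists_isScale_of_mem_Gamma0`). `jmem`: `d = 1`.
`sep`: `d = N`, `PsiFun_one_jM`, `S24.mem_Gamma0_of_kleinJ_mulH_smul_eq`. -/
theorem genSet_Gamma0 (N : ℕ) [NeZero N] :
    GenSet ι (CongruenceSubgroup.Gamma0 N) 1 (divisorExpansionsC K N) := by
  classical
  refine ⟨?_, ?_, ⟨1, inferInstance, one_dvd N, rfl⟩, ?_⟩
  · refine (N.divisors.finite_toSet.image
      (fun d : ℕ => if h : d ≠ 0 then @jM K _ d ⟨h⟩ else 0)).subset ?_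
    rintro x ⟨d, hd0, hd, rfl⟩
    refine ⟨d, Finset.mem_coe.2 (Nat.mem_divisors.2 ⟨hd, NeZero.ne N⟩), ?_⟩
    show (if h : d ≠ 0 then @jM K _ d ⟨h⟩ else 0) = _
    rw [dif_pos (NeZero.ne d)]
    rfl
  · rintro x ⟨d, hd0, hd, rfl⟩
    refine goodSub_scale (Γ := ⊤) (h := d) (fun γ hγ => ?_) (jM_mem_goodSub ι ⊤ d)
    obtain ⟨γ', hs⟩ := exists_isScale_of_mem_Gamma0 d (G0_Gamma0_le_of_dvd hd hγ)
    exact ⟨γ', Subgroup.mem_top γ', hs⟩
  · intro g hg
    apply S24.mem_Gamma0_of_kleinJ_mulH_smul_eq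
    intro τ
    rw [← PsiFun_one_jM ι N, ← PsiFun_one_jM ι N]
    exact hg _ ⟨N, inferInstance, dvd_rfl, rfl⟩ τ

variable (M : ℕ) [NeZero M]

/-- `Γ₀(M)` in width `M` (variable `t`, `q = t^M`). -/
theorem genSet_Gamma0_width :
    GenSet ι (CongruenceSubgroup.Gamma0 M) M
      (⇑(ModularCurve.qExpand K M) '' divisorExpansionsC K M) :=
  GenSet.congr_width ι (one_mul M) ((genSet_Gamma0 ι M).qExpand M)

theorem GammaPM_le_Gamma0 : GammaPM M ≤ CongruenceSubgroup.Gamma0 M := by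
  rintro γ (hγ | hγ)
  · rw [CongruenceSubgroup.Gamma_mem] at hγ
    exact hγ.2.2.1
  · rw [CongruenceSubgroup.Gamma_mem] at hγ
    have h1 := hγ.2.2.1
    rw [CongruenceSubgroup.Gamma0_mem]
    rw [Matrix.SpecialLinearGroup.coe_neg, Matrix.neg_apply, Int.cast_neg, neg_eq_zero] at h1
    exact h1

/-- **The fixed field of `Γ₀(M)` in `FFullC K M` is `{y(t^M) : y ∈ F₀(M)}`.**
PROOF. `GenSet.mem_FS_iff_fixed (genSet_full ι M) (stable_full ι M) (genSet_Gamma0_width ι M)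
(GammaPM_le_Gamma0 M) x` and `mem_FS_image_qExpand`: an element of
`FS K (qExpand '' S)` is of the form `qExpand y` (the image of the field `FS K S` under the ring
hom `qExpand` is a field containing `K` and `qExpand '' S`; `IntermediateField.adjoin_le_iff` /
`IntermediateField.adjoin_map`). -/
theorem exists_qExpand_iff_fixed [IsAlgClosed K] (x : FS K (gensC K M)) :
    (∃ y ∈ modularFunctionFieldFullC K M, ModularCurve.qExpand K M y = (x : LaurentSeries K)) ↔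
      ∀ g ∈ CongruenceSubgroup.Gamma0 M, actFull ι M g x = x := by
  have h1 := (genSet_full ι M).mem_FS_iff_fixed (stable_full ι M) (genSet_Gamma0_width ι M)
    (GammaPM_le_Gamma0 M) x
  refine Iff.trans ?_ h1
  constructor
  · rintro ⟨y, hy, hxy⟩
    rw [← hxy]
    exact (mem_FS_image_qExpand M y).2 hy
  · intro hx
    have himg : (⇑(ModularCurve.qExpand K M) '' divisorExpansionsC K M) =
        (⇑(qExpandAlgHomC K M) '' divisorExpansionsC K M) := rfl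
    rw [FS, himg, ← IntermediateField.adjoin_map, IntermediateField.mem_map] at hx
    obtain ⟨y, hy, hxy⟩ := hx
    exact ⟨y, hy, hxy⟩

/-- `Γ₀⁰(M) = {γ : b ≡ c ≡ 0 mod M}`. -/
def Gamma00 (M : ℕ) : Subgroup SL(2, ℤ) where
  carrier := {γ | (M : ℤ) ∣ γ 0 1 ∧ (M : ℤ) ∣ γ 1 0}
  one_mem' := by
    constructor <;> simp
  mul_mem' := by
    rintro a b ⟨ha1, ha2⟩ ⟨hb1, hb2⟩
    constructor
    · rw [Matrix.SpecialLinearGroup.coe_mul, Matrix.mul_apply, Fin.sum_univ_two]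
      exact dvd_add (Dvd.dvd.mul_left hb1 _) (Dvd.dvd.mul_right ha1 _)
    · rw [Matrix.SpecialLinearGroup.coe_mul, Matrix.mul_apply, Fin.sum_univ_two]
      exact dvd_add (Dvd.dvd.mul_right ha2 _) (Dvd.dvd.mul_left hb2 _)
  inv_mem' := by
    rintro a ⟨ha1, ha2⟩
    constructor
    · rw [Matrix.SpecialLinearGroup.coe_inv, Matrix.adjugate_fin_two]
      simpa using ha1
    · rw [Matrix.SpecialLinearGroup.coe_inv, Matrix.adjugate_fin_two]
      simpa using ha2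

theorem mem_Gamma00 {M : ℕ} {γ : SL(2, ℤ)} :
    γ ∈ Gamma00 M ↔ (M : ℤ) ∣ γ 0 1 ∧ (M : ℤ) ∣ γ 1 0 := Iff.rfl

theorem GammaPM_le_Gamma00 : GammaPM M ≤ Gamma00 M := by
  rintro γ (hγ | hγ)
  · rw [CongruenceSubgroup.Gamma_mem] at hγ
    rw [mem_Gamma00, ← ZMod.intCast_zmod_eq_zero_iff_dvd, ← ZMod.intCast_zmod_eq_zero_iff_dvd]
    exact ⟨hγ.2.1, hγ.2.2.1⟩
  · rw [CongruenceSubgroup.Gamma_mem] at hγ
    have h1 := hγ.2.1
    have h2 := hγ.2.2.1
    rw [Matrix.SpecialLinearGroup.coe_neg, Matrix.neg_apply, Int.cast_neg, neg_eq_zero] at h1 h2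
    rw [mem_Gamma00, ← ZMod.intCast_zmod_eq_zero_iff_dvd, ← ZMod.intCast_zmod_eq_zero_iff_dvd]
    exact ⟨h1, h2⟩

instance finiteIndex_Gamma00 : (Gamma00 M).FiniteIndex :=
  Subgroup.finiteIndex_of_le (GammaPM_le_Gamma00 M)

/-- PROOF. `(genSet_Gamma0 ι (M * M)).unscale` (`h = M`): `jM K M ∈ divisorExpansionsC K (M*M)`;
`h1`: for `γ' ∈ Γ₀⁰(M)` take `γ = [a, b/M; cM, d]`; `h2`: `IsScale M γ γ'`, `M² ∣ γ 1 0 = M γ' 1 0`
gives `M ∣ γ' 1 0`, and `γ' 0 1 = M γ 0 1`. -/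
theorem genSet_G00 : GenSet ι (Gamma00 M) M (divisorExpansionsC K (M * M)) := by
  have hM0 : (M : ℤ) ≠ 0 := Nat.cast_ne_zero.2 (NeZero.ne M)
  refine (genSet_Gamma0 ι (M * M)).unscale (h := M) ⟨M, inferInstance, Dvd.intro _ rfl, rfl⟩ ?_ ?_
  · intro γ' hγ'
    obtain ⟨γ, hs⟩ := exists_isScale_of_dvd M hγ'.1
    refine ⟨γ, ?_, hs⟩
    rw [CongruenceSubgroup.Gamma0_mem, ZMod.intCast_zmod_eq_zero_iff_dvd, ← hs.2.2.1]
    push_cast
    exact mul_dvd_mul_left _ hγ'.2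
  · intro γ γ' hs hγ
    rw [CongruenceSubgroup.Gamma0_mem, ZMod.intCast_zmod_eq_zero_iff_dvd, ← hs.2.2.1] at hγ
    push_cast at hγ
    exact ⟨hs.2.1 ▸ Dvd.intro _ rfl, (mul_dvd_mul_iff_left hM0).1 hγ⟩

include ι in
/-- **`E(M²) ≤ FFullC K M`** (both in the variable `t`). -/
theorem fullC_sq_le_FFullC [IsAlgClosed K] : modularFunctionFieldFullC K (M * M) ≤ FFullC K M :=
  (genSet_full ι M).FS_le (genSet_G00 ι M) (GammaPM_le_Gamma00 M)

end Fermat.Agent.S48.Full
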