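import Fermat.Agent.S48.Full.NeatC
import Fermat.Agent.S48.Full.G0

/-!
# S48 / FULL leaf N-B : `FFullC K M / E(M²)` is unramified (neat `M`)
-/

set_option autoImplicit false
set_option linter.unusedSectionVars false

open UpperHalfPlane ModularCurve Polynomial AlgebraicCurve
open scoped MatrixGroups Manifold

noncomputable section

namespace Fermat.Agent.S48.Full

open Fermat.Agent.S24 Fermat.Agent.S24.Degree Fermat.Agent.S24.JLocal Fermat.Agent.GAL

section Generic

variable {K : Type} [Field K] [IsAlgClosed K] [CharZero K] {ι : K →+* ℂ}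
  {Γ Γ' : Subgroup SL(2, ℤ)} [Γ.FiniteIndex] [Γ'.FiniteIndex] {h : ℕ} [NeZero h]
  {S S' : Set (LaurentSeries K)}

/-- **Two neat groups with the same uniform cusp width: the extension of fields is unramified.**
The algebra structure is arbitrary, subject to `halg`.
PROOF. `algebraMap jF' = jF` (`Subtype.ext`, `halg`; both are `jM K h`).  Let `e` be the
ramification index, `v' = v.restrict _`; `Place.ord_restrict : v.ord (algebraMap f) = e * v'.ord f`.
If `v.ord jF < 0`: `v'.ord jF' < 0` and `-w = e * (-w)` by `ord_jF_of_uniformWidth` twice.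
Otherwise there is `c` with `0 < v.ord (jF - c)` (`S24/RH.lean` l.88 `hcases`, `S24/PlaceDeg.lean`;
`jF` is not a constant), then `0 < v'.ord (jF' - c)` and `eJ c = e * eJ c` by
`ord_jF_sub_of_neat` twice (`IsNeat Γ` follows from `IsNeat Γ'` and `Γ ≤ Γ'`). -/
theorem GenSet.ramificationIndex_eq_one (H : GenSet ι Γ h S) (H' : GenSet ι Γ' h S')
    (hΓ : Γ ≤ Γ') (hneat : IsNeat Γ') (hneg : (-1 : SL(2, ℤ)) ∈ Γ) (w : ℕ) [NeZero w]
    (hw : UniformWidth Γ w) (hw' : UniformWidth Γ' w)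
    [Algebra (FS K S') (FS K S)] [IsScalarTower K (FS K S') (FS K S)]
    [Algebra.IsIntegral (FS K S') (FS K S)]
    (halg : ∀ x : FS K S', ((algebraMap (FS K S') (FS K S) x : FS K S) : LaurentSeries K) = x)
    (v : Place K (FS K S)) : v.ramificationIndex (FS K S') = 1 := by
  have hjmap : algebraMap (FS K S') (FS K S) H'.jF = H.jF := Subtype.ext (halg H'.jF)
  have hepos : 0 < v.ramificationIndex (FS K S') := v.ramificationIndex_pos
  have hepos' : (0 : ℤ) < (v.ramificationIndex (FS K S') : ℤ) := by exact_mod_cast hepos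
  have hord : ∀ f : FS K S', v.ord (algebraMap (FS K S') (FS K S) f) =
      v.ramificationIndex (FS K S') * (v.restrict (FS K S')).ord f := v.ord_restrict
  have hfin : ∀ n : ℤ, 0 < n → n = (v.ramificationIndex (FS K S') : ℤ) * n →
      v.ramificationIndex (FS K S') = 1 := by
    intro n hn h1
    have h2 : (v.ramificationIndex (FS K S') : ℤ) = 1 := by
      have h3 : ((v.ramificationIndex (FS K S') : ℤ) - 1) * n = 0 := by linarith
      rcases mul_eq_zero.1 h3 with h4 | h4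
      · linarith
      · omega
    exact_mod_cast h2
  by_cases hpole : v.ord H.jF < 0
  · have h1 := hord H'.jF
    rw [hjmap] at h1
    have h2 : (v.restrict (FS K S')).ord H'.jF < 0 := by
      by_contra hcon
      push Not at hcon
      have := mul_nonneg hepos'.le hcon
      omega
    rw [H.ord_jF_of_uniformWidth w hw v hpole, H'.ord_jF_of_uniformWidth w hw' _ h2] at h1
    have hw0 : (0 : ℤ) < (w : ℤ) := by exact_mod_cast Nat.pos_of_ne_zero (NeZero.ne w)
    exact hfin w hw0 (by linarith)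
  · have := H.finiteDimensional_jF
    have hj0 : H.jF ≠ 0 := fun h0 => H.transcendental_jF (h0 ▸ isAlgebraic_zero)
    obtain ⟨c, hc⟩ := exists_const_of_mem H.jF H.transcendental_jF v H.jF
      (mem_of_ord_nonneg v hj0 (by omega))
    rcases hc with hc | hc
    · exact absurd (hc ▸ isAlgebraic_algebraMap (A := FS K S) c) H.transcendental_jF
    · have hmap : algebraMap (FS K S') (FS K S) (H'.jF - algebraMap K (FS K S') c) =
          H.jF - algebraMap K (FS K S) c := by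
        rw [map_sub, hjmap, ← IsScalarTower.algebraMap_apply]
      have h1 := hord (H'.jF - algebraMap K (FS K S') c)
      rw [hmap] at h1
      have h2 : 0 < (v.restrict (FS K S')).ord (H'.jF - algebraMap K (FS K S') c) := by
        by_contra hcon
        push Not at hcon
        have := mul_nonpos_of_nonneg_of_nonpos hepos'.le hcon
        omega
      have hneatΓ : IsNeat Γ := fun γ hγ τ hτ => hneat γ (hΓ hγ) τ hτ
      rw [H.ord_jF_sub_of_neat hneatΓ hneg v c hc,
        H'.ord_jF_sub_of_neat hneat (hΓ hneg) _ c h2] at h1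
      exact hfin (eJ c) (eJ_pos c) h1

end Generic

/-- an element of `SL₂(ℤ)` with a fixed point in `ℍ` is `± 1` or elliptic. -/
theorem NeatB_fixed_cases (γ : SL(2, ℤ)) (τ₀ : ℍ) (h : γ • τ₀ = τ₀) :
    (γ = 1 ∨ γ = -1) ∨ (γ 0 0 + γ 1 1) ^ 2 < 4 := by
  have hdet : γ 0 0 * γ 1 1 - γ 0 1 * γ 1 0 = 1 := by
    have := γ.det_coe
    rwa [Matrix.det_fin_two] at this
  have h1 : ((γ • τ₀ : ℍ) : ℂ) = (τ₀ : ℂ) := by rw [h]
  rw [UpperHalfPlane.coe_specialLinearGroup_apply] at h1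
  have hden : ((γ 1 0 : ℤ) : ℂ) * (τ₀ : ℂ) + ((γ 1 1 : ℤ) : ℂ) ≠ 0 := by
    have := UpperHalfPlane.denom_ne_zero (γ : GL (Fin 2) ℝ) τ₀
    simpa [UpperHalfPlane.denom] using this
  have h2 : ((γ 0 0 : ℤ) : ℂ) * (τ₀ : ℂ) + ((γ 0 1 : ℤ) : ℂ)
      = (τ₀ : ℂ) * (((γ 1 0 : ℤ) : ℂ) * (τ₀ : ℂ) + ((γ 1 1 : ℤ) : ℂ)) := by
    have h3 := h1
    simp only [algebraMap_int_eq, Int.coe_castRingHom, Complex.ofReal_intCast] at h3
    rw [div_eq_iff hden] at h3
    exact h3
  set a : ℝ := ((γ 0 0 : ℤ) : ℝ) with ha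
  set b : ℝ := ((γ 0 1 : ℤ) : ℝ) with hb
  set c : ℝ := ((γ 1 0 : ℤ) : ℝ) with hc
  set d : ℝ := ((γ 1 1 : ℤ) : ℝ) with hd
  have hy : 0 < τ₀.im := τ₀.im_pos
  set x : ℝ := τ₀.re with hx
  set y : ℝ := τ₀.im with hy'
  have hre := congrArg Complex.re h2
  have him := congrArg Complex.im h2
  simp only [Complex.add_re, Complex.mul_re, Complex.add_im, Complex.mul_im, Complex.intCast_re,
    Complex.intCast_im, UpperHalfPlane.coe_re, UpperHalfPlane.coe_im, zero_mul, sub_zero,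
    add_zero] at hre him
  have hdetR : a * d - b * c = 1 := by
    have := congrArg (Int.cast : ℤ → ℝ) hdet
    push_cast at this
    exact this
  have e1 : d - a = -2 * c * x := by
    have : y * (d - a + 2 * c * x) = 0 := by
      simp only [← ha, ← hc, ← hd, ← hx, ← hy'] at him
      linear_combination -him
    rcases mul_eq_zero.mp this with h0 | h0
    · exact absurd h0 hy.ne'
    · linarith
  have e2 : b = -c * (x ^ 2 + y ^ 2) := by
    simp only [← ha, ← hb, ← hc, ← hd, ← hx, ← hy'] at hre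
    linear_combination hre + x * e1
  have key : (a + d) ^ 2 - 4 = -4 * c ^ 2 * y ^ 2 := by
    have h5 : (a + d) ^ 2 - 4 = (d - a) ^ 2 + 4 * b * c := by
      linear_combination 4 * hdetR
    rw [h5, e1, e2]
    ring
  by_cases hc0 : γ 1 0 = 0
  · left
    have hcR : c = 0 := by rw [hc, hc0]; simp
    have hbR : b = 0 := by rw [e2, hcR]; ring
    have hdaR : d = a := by
      have := e1
      rw [hcR] at this
      linarith
    have hb0 : γ 0 1 = 0 := by
      rw [hb] at hbR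
      exact_mod_cast hbR
    have hda : γ 1 1 = γ 0 0 := by
      rw [hd, ha] at hdaR
      exact_mod_cast hdaR
    rw [hb0, hda] at hdet
    have ha2 : γ 0 0 * γ 0 0 = 1 := by linarith
    rcases Int.eq_one_or_neg_one_of_mul_eq_one ha2 with h1' | h1'
    · left
      ext i j
      fin_cases i <;> fin_cases j <;> simp [h1', hb0, hc0, hda]
    · right
      ext i j
      fin_cases i <;> fin_cases j <;> simp [h1', hb0, hc0, hda]
  · right
    have hcR : c ≠ 0 := by
      rw [hc]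
      exact_mod_cast hc0
    have hlt : (a + d) ^ 2 < 4 := by
      have : 0 < c ^ 2 * y ^ 2 := by positivity
      nlinarith
    have : (((γ 0 0 + γ 1 1 : ℤ) : ℝ)) ^ 2 < 4 := by
      push_cast
      exact hlt
    exact_mod_cast this

/-- the entries of `g Tⁿ g⁻¹`. -/
theorem NeatB_conj_entries (g : SL(2, ℤ)) (n : ℕ) :
    (g * ModularGroup.T ^ n * g⁻¹) 0 0 = 1 - n * g 0 0 * g 1 0 ∧
    (g * ModularGroup.T ^ n * g⁻¹) 0 1 = n * g 0 0 ^ 2 ∧
    (g * ModularGroup.T ^ n * g⁻¹) 1 0 = -(n * g 1 0 ^ 2) ∧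
    (g * ModularGroup.T ^ n * g⁻¹) 1 1 = 1 + n * g 0 0 * g 1 0 := by
  have hdet : g 0 0 * g 1 1 - g 0 1 * g 1 0 = 1 := by
    have := g.det_coe
    rwa [Matrix.det_fin_two] at this
  have hT : ((ModularGroup.T ^ n : SL(2, ℤ)) : Matrix (Fin 2) (Fin 2) ℤ) = !![1, (n : ℤ); 0, 1] := by
    rw [← zpow_natCast, ModularGroup.coe_T_zpow]
  have hmul : ((g * ModularGroup.T ^ n * g⁻¹ : SL(2, ℤ)) : Matrix (Fin 2) (Fin 2) ℤ) =
      (g : Matrix (Fin 2) (Fin 2) ℤ) * !![1, (n : ℤ); 0, 1] *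
        Matrix.adjugate (g : Matrix (Fin 2) (Fin 2) ℤ) := by
    rw [Matrix.SpecialLinearGroup.coe_mul, Matrix.SpecialLinearGroup.coe_mul, hT,
      Matrix.SpecialLinearGroup.coe_inv]
  refine ⟨?_, ?_, ?_, ?_⟩
  · rw [hmul, Matrix.adjugate_fin_two]
    simp [Matrix.mul_apply, Fin.sum_univ_two]
    linear_combination hdet
  · rw [hmul, Matrix.adjugate_fin_two]
    simp [Matrix.mul_apply, Fin.sum_univ_two]
    ring
  · rw [hmul, Matrix.adjugate_fin_two]
    simp [Matrix.mul_apply, Fin.sum_univ_two]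
    ring
  · rw [hmul, Matrix.adjugate_fin_two]
    simp [Matrix.mul_apply, Fin.sum_univ_two]
    linear_combination hdet

theorem NeatB_dvd_of_conj_mem (M : ℕ) (g : SL(2, ℤ)) (n : ℕ)
    (h : g * ModularGroup.T ^ n * g⁻¹ ∈ Gamma00 M) : M ∣ n := by
  obtain ⟨-, h01, h10, -⟩ := NeatB_conj_entries g n
  rw [mem_Gamma00, h01, h10, dvd_neg] at h
  have hdet : g 0 0 * g 1 1 - g 0 1 * g 1 0 = 1 := by
    have := g.det_coe
    rwa [Matrix.det_fin_two] at this
  have hcop : IsCoprime (g 0 0) (g 1 0) := ⟨g 1 1, -g 0 1, by linear_combination hdet⟩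
  obtain ⟨u, v, huv⟩ := (hcop.pow (m := 2) (n := 2))
  have h3 : (M : ℤ) ∣ (n : ℤ) := by
    have h4 : (n : ℤ) = u * (n * g 0 0 ^ 2) + v * (n * g 1 0 ^ 2) := by
      linear_combination -(n : ℤ) * huv
    rw [h4]
    exact dvd_add (Dvd.dvd.mul_left h.1 _) (Dvd.dvd.mul_left h.2 _)
  exact_mod_cast h3

variable (M : ℕ) [NeZero M]

/-- PROOF. `±Γ(M)` is normal, so the condition is `Tⁿ ≡ ± 1 mod M`, i.e. `M ∣ n`
(`mem_GammaPM_iff`, `redSL`; the `0 1` entry of `Tⁿ` is `n`; `ModularGroup.coe_T_zpow`). -/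
theorem uniformWidth_GammaPM : UniformWidth (GammaPM M) M := by
  intro g n
  constructor
  · intro h
    exact NeatB_dvd_of_conj_mem M g n (GammaPM_le_Gamma00 M h)
  · rintro ⟨k, rfl⟩
    obtain ⟨h00, h01, h10, h11⟩ := NeatB_conj_entries g (M * k)
    refine Or.inl ?_
    rw [CongruenceSubgroup.Gamma_mem, h00, h01, h10, h11]
    push_cast
    simp

/-- PROOF. `g Tⁿ g⁻¹ = [1 - n a c, n a²; - n c², 1 + n a c]` for `g = [a b; c d]`; `M ∣ n a²` and
`M ∣ n c²` with `gcd(a², c²) = 1` give `M ∣ n` (`IsCoprime.pow`, `IsCoprime.dvd_of_dvd_mul_right`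
or Bezout: `u a² + v c² = 1`). -/
theorem uniformWidth_Gamma00 : UniformWidth (Gamma00 M) M := by
  intro g n
  constructor
  · exact NeatB_dvd_of_conj_mem M g n
  · rintro ⟨k, rfl⟩
    obtain ⟨-, h01, h10, -⟩ := NeatB_conj_entries g (M * k)
    rw [mem_Gamma00, h01, h10, dvd_neg]
    push_cast
    exact ⟨⟨k * g 0 0 ^ 2, by ring⟩, ⟨k * g 1 0 ^ 2, by ring⟩⟩

/-- PROOF. Let `γ = [a b; c d] ∈ Γ₀⁰(M)` fix `τ`. `Dict.trace_sq_le_four_of_fixed`: `t = a + d`,
`t² ≤ 4`. If `t² = 4` then `γ` is parabolic or `± 1`; a parabolic element has no fixed point in `ℍ`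
(`c τ² + (d - a) τ - b = 0` has discriminant `t² - 4 = 0`, so `τ` real unless `c = d - a = b = 0`).
If `t ∈ {0, 1, -1}`: `a (t - a) = 1 + b c ≡ 1 mod M²`, so `a² - t a + 1 ≡ 0` mod `4` resp. mod `9`:
impossible (`decide` in `ZMod 4`, `ZMod 9`). -/
theorem isNeat_Gamma00 (hM : 4 ∣ M ∨ 9 ∣ M) : IsNeat (Gamma00 M) := by
  intro γ hγ τ hτ
  rcases NeatB_fixed_cases γ τ hτ with h | h
  · exact h
  exfalso
  rw [mem_Gamma00] at hγ
  have hdet : γ 0 0 * γ 1 1 - γ 0 1 * γ 1 0 = 1 := by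
    have := γ.det_coe
    rwa [Matrix.det_fin_two] at this
  obtain ⟨t, ht⟩ : ∃ t : ℤ, t = γ 0 0 + γ 1 1 := ⟨_, rfl⟩
  rw [← ht] at h
  have ht1 : -1 ≤ t ∧ t ≤ 1 := by constructor <;> nlinarith
  have hd : γ 1 1 = t - γ 0 0 := by rw [ht]; ring
  rw [hd] at hdet
  rcases hM with hM | hM
  · have h4 : (4 : ℤ) ∣ γ 0 1 := dvd_trans (by exact_mod_cast hM) hγ.1
    obtain ⟨b', hb'⟩ := h4
    have hz : ((γ 0 0 : ℤ) : ZMod 4) * (((t : ℤ) : ZMod 4) - ((γ 0 0 : ℤ) : ZMod 4)) = 1 := by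
      have h5 : γ 0 0 * (t - γ 0 0) = 1 + 4 * (b' * γ 1 0) := by rw [hb'] at hdet; linarith
      have h6 := congrArg (Int.cast : ℤ → ZMod 4) h5
      push_cast at h6
      rw [h6, show (4 : ZMod 4) = 0 from rfl]
      ring
    generalize ((γ 0 0 : ℤ) : ZMod 4) = x at hz
    have ht3 : t = -1 ∨ t = 0 ∨ t = 1 := by omega
    rcases ht3 with rfl | rfl | rfl <;> revert hz <;> revert x <;> decide
  · have h9 : (9 : ℤ) ∣ γ 0 1 := dvd_trans (by exact_mod_cast hM) hγ.1
    obtain ⟨b', hb'⟩ := h9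
    have hz : ((γ 0 0 : ℤ) : ZMod 9) * (((t : ℤ) : ZMod 9) - ((γ 0 0 : ℤ) : ZMod 9)) = 1 := by
      have h5 : γ 0 0 * (t - γ 0 0) = 1 + 9 * (b' * γ 1 0) := by rw [hb'] at hdet; linarith
      have h6 := congrArg (Int.cast : ℤ → ZMod 9) h5
      push_cast at h6
      rw [h6, show (9 : ZMod 9) = 0 from rfl]
      ring
    generalize ((γ 0 0 : ℤ) : ZMod 9) = x at hz
    have ht3 : t = -1 ∨ t = 0 ∨ t = 1 := by omega
    rcases ht3 with rfl | rfl | rfl <;> revert hz <;> revert x <;> decide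

theorem neg_one_mem_GammaPM : (-1 : SL(2, ℤ)) ∈ GammaPM M := Or.inr (by simp)

variable {K : Type} [Field K] [IsAlgClosed K] [CharZero K] (ι : K →+* ℂ)

include ι in
/-- **`FFullC K M / modularFunctionFieldFullC K (M²)` is unramified everywhere.** -/
theorem ramificationIndex_FFullC (hM : 4 ∣ M ∨ 9 ∣ M)
    [Algebra (modularFunctionFieldFullC K (M * M)) (FFullC K M)]
    [IsScalarTower K (modularFunctionFieldFullC K (M * M)) (FFullC K M)]
    [Algebra.IsIntegral (modularFunctionFieldFullC K (M * M)) (FFullC K M)]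
    (halg : ∀ x : modularFunctionFieldFullC K (M * M),
      ((algebraMap (modularFunctionFieldFullC K (M * M)) (FFullC K M) x : FFullC K M) :
        LaurentSeries K) = x)
    (v : Place K (FFullC K M)) :
    v.ramificationIndex (modularFunctionFieldFullC K (M * M)) = 1 := by
  unfold FFullC modularFunctionFieldFullC at *
  exact GenSet.ramificationIndex_eq_one (genSet_full ι M) (genSet_G00 ι M) (GammaPM_le_Gamma00 M)
    (isNeat_Gamma00 M hM) (neg_one_mem_GammaPM M) M (uniformWidth_GammaPM M)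
    (uniformWidth_Gamma00 M) halg v

end Fermat.Agent.S48.Full
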