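import Fermat.Agent.S48.Full.InjDown
import Fermat.Agent.S48.Full.NeatB
import Fermat.Agent.S48.Full.Conc

/-!
# S48 / FULL : summary of the exports (no `sorry` of its own)

* `F1 L M`, `F1C L M`, `F1_eq`; `genSet_F1 ι M : GenSet ι (Gamma1PM M) 1 (gens1 K M)`;
* `FFullC L M`; `genSet_full ι M : GenSet ι (GammaPM M) M (gensC K M)`, `actFull`;
* `isFF_F1C`, `isFF_F1`, `isFF_FFullC`;
* `injDown : StmtInjFull M → StmtInj1 M`;
* `ramificationIndex_FFullC`.
-/

set_option autoImplicit false
set_option linter.unusedSectionVars false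

open ModularCurve AlgebraicCurve
open scoped MatrixGroups

noncomputable section

namespace Fermat.Agent.S48.Full

variable {K : Type} [Field K] [IsAlgClosed K] [CharZero K] (ι : K →+* ℂ) (M : ℕ) [NeZero M]

include ι in
theorem isFF_F1C : Lib.RR.IsFF K (F1C K M) := (genSet_F1 ι M).isFF

include ι in
theorem isFF_F1 [Algebra ℚ K] : Lib.RR.IsFF K (F1 K M) := by
  rw [F1_eq]; exact isFF_F1C ι M

include ι in
theorem isFF_FFullC : Lib.RR.IsFF K (FFullC K M) := (genSet_full ι M).isFF

/-- The identification of `F1 K M` with `FS K (gens1 K M)`, identity on the underlying series. -/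
def F1equiv [Algebra ℚ K] : F1 K M ≃ₐ[K] FS K (gens1 K M) :=
  IntermediateField.equivOfEq (F1_eq K M)

theorem coe_F1equiv [Algebra ℚ K] (x : F1 K M) :
    ((F1equiv (K := K) M x : FS K (gens1 K M)) : LaurentSeries K) = x := by
  have key : ∀ (S T : IntermediateField K (LaurentSeries K)) (h : S = T) (y : S),
      ((IntermediateField.equivOfEq h y : T) : LaurentSeries K) = y := by
    intro S T h y
    subst h
    rfl
  exact key _ _ _ x

instance : Lib.RR.IsFF (AlgebraicClosure ℚ) (F1 (AlgebraicClosure ℚ) M) := isFF_F1 S24.iota M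

instance : Lib.RR.IsFF (AlgebraicClosure ℚ) (FFullC (AlgebraicClosure ℚ) M) :=
  isFF_FFullC S24.iota M

instance : Lib.RR.IsFF ℂ (F1 ℂ M) := isFF_F1 (RingHom.id ℂ) M

end Fermat.Agent.S48.Full
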