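import Fermat.Agent.S48.Full.GenSet

/-!
# S48 / FULL : the compositum of two fields of the generic layer is the field of `Γ₁ ⊓ Γ₂`
-/

set_option autoImplicit false
set_option linter.unusedSectionVars false

open UpperHalfPlane ModularCurve
open scoped MatrixGroups Manifold

noncomputable section

namespace Fermat.Agent.S48.Full

variable {K : Type} [Field K] {ι : K →+* ℂ} {Γ₁ Γ₂ : Subgroup SL(2, ℤ)} {h : ℕ} [NeZero h]
  {S₁ S₂ : Set (LaurentSeries K)}

/-- `K(S₁ ∪ S₂)` is the field of `Γ₁ ⊓ Γ₂`. -/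
theorem GenSet.union (H₁ : GenSet ι Γ₁ h S₁) (H₂ : GenSet ι Γ₂ h S₂) :
    GenSet ι (Γ₁ ⊓ Γ₂) h (S₁ ∪ S₂) where
  fin := H₁.fin.union H₂.fin
  good := by
    rintro s (hs | hs)
    · exact goodSub_mono ι h inf_le_left (H₁.good hs)
    · exact goodSub_mono ι h inf_le_right (H₂.good hs)
  jmem := Or.inl H₁.jmem
  sep := fun g hg =>
    ⟨H₁.sep g fun s hs => hg s (Or.inl hs), H₂.sep g fun s hs => hg s (Or.inr hs)⟩

end Fermat.Agent.S48.Full
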