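import Fermat.Agent.S48.Full.MerS

/-!
# S48 / FULL : the action of `SL₂(ℤ)` on `K(S)` when `S` is stable under translation

`act g x` corresponds to the function `τ ↦ x (g⁻¹ τ)`.
-/

set_option autoImplicit false
set_option linter.unusedSectionVars false

open UpperHalfPlane ModularCurve Polynomial AlgebraicCurve
open scoped MatrixGroups Manifold

noncomputable section

namespace Fermat.Agent.S48.Full

open Fermat.Agent.S24 Fermat.Agent.GAL Fermat.Agent.GAL.Tors

variable {K : Type} [Field K] {ι : K →+* ℂ} {Γ : Subgroup SL(2, ℤ)}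
  {h : ℕ} [NeZero h] {S : Set (LaurentSeries K)}

/-- The set of sums of the elements of `S` is stable under `SL₂(ℤ)`. -/
def Stable (ι : K →+* ℂ) (h : ℕ) (S : Set (LaurentSeries K)) : Prop :=
  ∀ g : SL(2, ℤ), ∀ s ∈ S, ∃ s' ∈ S, ∀ τ, PsiFun ι h s' τ = PsiFun ι h s (g • τ)

namespace GenSet

variable (H : GenSet ι Γ h S) (hst : Stable ι h S)

include hst in
/-- (A1) stability passes to `K[S]`. -/
theorem exists_translate (g : SL(2, ℤ)) (a : AS K S) :
    ∃ a' : AS K S, ∀ τ, H.PsiA a' τ = H.PsiA a (g • τ) := by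
  have key : ∀ s ∈ Algebra.adjoin K S, ∃ s' ∈ Algebra.adjoin K S,
      ∀ τ, PsiFun ι h s' τ = PsiFun ι h s (g • τ) := by
    intro s hs
    induction hs using Algebra.adjoin_induction with
    | mem x hx =>
      obtain ⟨s', hs', h'⟩ := hst g x hx
      exact ⟨s', Algebra.subset_adjoin hs', h'⟩
    | algebraMap c =>
      exact ⟨algebraMap K _ c, Subalgebra.algebraMap_mem _ c, fun τ => by
        rw [PsiFun_algebraMap, PsiFun_algebraMap]⟩
    | add x y hx hy ihx ihy =>
      obtain ⟨x', hx', h1⟩ := ihx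
      obtain ⟨y', hy', h2⟩ := ihy
      refine ⟨x' + y', add_mem hx' hy', fun τ => ?_⟩
      rw [PsiFun_add (H.adjoin_le hx').1 (H.adjoin_le hy').1,
        PsiFun_add (H.adjoin_le hx).1 (H.adjoin_le hy).1, h1, h2]
    | mul x y hx hy ihx ihy =>
      obtain ⟨x', hx', h1⟩ := ihx
      obtain ⟨y', hy', h2⟩ := ihy
      refine ⟨x' * y', mul_mem hx' hy', fun τ => ?_⟩
      rw [PsiFun_mul (H.adjoin_le hx').1 (H.adjoin_le hy').1,
        PsiFun_mul (H.adjoin_le hx).1 (H.adjoin_le hy).1, h1, h2]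
  obtain ⟨s', hs', h'⟩ := key _ a.2
  exact ⟨⟨⟨s', IntermediateField.algebra_adjoin_le_adjoin K S hs'⟩, hs'⟩, h'⟩

/-- a translate in `K[S]` is a translate in `Mer`. -/
theorem Act_PsiMer_translate (g : SL(2, ℤ)) (a a' : AS K S)
    (haa : ∀ τ, H.PsiA a' τ = H.PsiA a (g • τ)) :
    H.PsiMer (a' : FS K S) = compSL g (H.PsiMer (a : FS K S)) := by
  rw [PsiMer_coe, PsiMer_coe, compSL_ofHolo_apply]
  congr 1
  apply Subtype.ext
  funext τ
  rw [holoComp_apply, PsiH_apply, PsiH_apply]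
  exact haa τ

include hst in
/-- stability passes to `K(S)`. -/
theorem Act_exists_mer (g : SL(2, ℤ)) (x : FS K S) :
    ∃ y : FS K S, H.PsiMer y = compSL g (H.PsiMer x) := by
  obtain ⟨a, ha, s, hs, _, hx⟩ := exists_div_AS S x
  obtain ⟨a', ha'⟩ := H.exists_translate hst g ⟨a, ha⟩
  obtain ⟨s', hs'⟩ := H.exists_translate hst g ⟨s, hs⟩
  refine ⟨(a' : FS K S) / (s' : FS K S), ?_⟩
  rw [hx, map_div₀, map_div₀, map_div₀, H.Act_PsiMer_translate g ⟨a, ha⟩ a' ha',
    H.Act_PsiMer_translate g ⟨s, hs⟩ s' hs']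

/-- the translate of `x` by `g⁻¹`. -/
def ActFun (g : SL(2, ℤ)) (x : FS K S) : FS K S := (H.Act_exists_mer hst g⁻¹ x).choose

theorem Act_PsiMer_ActFun (g : SL(2, ℤ)) (x : FS K S) :
    H.PsiMer (H.ActFun hst g x) = compSL g⁻¹ (H.PsiMer x) :=
  (H.Act_exists_mer hst g⁻¹ x).choose_spec

theorem Act_ActFun_inv (g : SL(2, ℤ)) (x : FS K S) :
    H.ActFun hst g⁻¹ (H.ActFun hst g x) = x := by
  apply H.PsiMer_injective
  rw [Act_PsiMer_ActFun, Act_PsiMer_ActFun, ← compSL_mul, mul_inv_cancel, compSL_one]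

/-- the translation by `g⁻¹`, as an automorphism of `K(S)`. -/
def ActEquiv (g : SL(2, ℤ)) : FS K S ≃ₐ[K] FS K S where
  toFun := H.ActFun hst g
  invFun := H.ActFun hst g⁻¹
  left_inv := H.Act_ActFun_inv hst g
  right_inv x := by
    have := H.Act_ActFun_inv hst g⁻¹ x
    rwa [inv_inv] at this
  map_mul' x y := by
    apply H.PsiMer_injective
    rw [map_mul, Act_PsiMer_ActFun, Act_PsiMer_ActFun, Act_PsiMer_ActFun, map_mul, map_mul]
  map_add' x y := by
    apply H.PsiMer_injective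
    rw [map_add, Act_PsiMer_ActFun, Act_PsiMer_ActFun, Act_PsiMer_ActFun, map_add, map_add]
  commutes' c := by
    apply H.PsiMer_injective
    rw [Act_PsiMer_ActFun, PsiMer_algebraMap]
    exact compGL_algebraMap _ _ _

theorem Act_ActEquiv_apply (g : SL(2, ℤ)) (x : FS K S) :
    H.ActEquiv hst g x = H.ActFun hst g x := rfl

include hst in
/-- (A2) existence of the action. -/
theorem exists_act : ∃ act : SL(2, ℤ) →* (FS K S ≃ₐ[K] FS K S),
    ∀ g x, H.PsiMer (act g x) = compSL g⁻¹ (H.PsiMer x) := by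
  refine ⟨{ toFun := H.ActEquiv hst, map_one' := ?_, map_mul' := ?_ }, fun g x => ?_⟩
  · refine AlgEquiv.ext fun x => ?_
    apply H.PsiMer_injective
    rw [Act_ActEquiv_apply, Act_PsiMer_ActFun, inv_one, compSL_one]
    rfl
  · intro g g'
    refine AlgEquiv.ext fun x => ?_
    apply H.PsiMer_injective
    rw [AlgEquiv.mul_apply, Act_ActEquiv_apply, Act_ActEquiv_apply, Act_ActEquiv_apply,
      Act_PsiMer_ActFun, Act_PsiMer_ActFun, Act_PsiMer_ActFun, mul_inv_rev, compSL_mul]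
  · exact H.Act_PsiMer_ActFun hst g x

/-- **The action of `SL₂(ℤ)`** on `K(S)`: `act g x = x ∘ g⁻¹`. -/
def act : SL(2, ℤ) →* (FS K S ≃ₐ[K] FS K S) := (H.exists_act hst).choose

theorem PsiMer_act (g : SL(2, ℤ)) (x : FS K S) :
    H.PsiMer (H.act hst g x) = compSL g⁻¹ (H.PsiMer x) := (H.exists_act hst).choose_spec g x

end GenSet

end Fermat.Agent.S48.Full
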