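import Mathlib
import Fermat.Agent.S28.Interface
import Fermat.Agent.GAL.Model

/-!
# S48 / FULL : the function field of `X(M)` (full level `Γ(M)`) by `t`-expansions, `t = q^{1/M}`

Block lead: helper24.  All series are Laurent series in the variable `t = q^{1/M} = e^{2πiτ/M}`.

* `wFac Λ = E₄²/Δ` (in the variable `q`), `jM Λ M = j(t^M)`;
* `eSer Λ M a w` (`a : ZMod M`, `w` an `M`-th root of unity): the `t`-expansion of the level `M`
  Eisenstein series `G₄^{(a,b)}(τ) = ∑_{(m,n) ≡ (a,b)} (mτ+n)⁻⁴`, `w = ζ^b`, divided by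
  `(2πi)⁴/(3! M⁴)`:
  `δ_{a=0} w(1+4w+w²)/(1-w)⁴ + ∑_{m ≡ a} ∑_r r³ w^r t^{mr} + ∑_{m ≡ -a} ∑_r r³ w^{-r} t^{mr}`;
* `hSer Λ M a w = eSer · (E₄²/Δ)(t^M)` : weight `0`, holomorphic on `ℍ`;
* `FFullC L M = L(j(t^M), hSer a w : (a,w) ≠ (0,1))` : any field `L` (think: `M ≠ 0` in `L`,
  `L` algebraically closed);
* `hFou M a c` (`a ≠ 0`): the finite Fourier transforms, with coefficients in `ℤ ⊆ ℚ`;
  `FFull₀ M = ℚ(j(t^M), hFou a c : a ≠ 0)`, `FFull L M = laurentBaseChange L (FFull₀ M)`: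
  the form needed for the Prelude's `arithmeticGalois`, for `GAL.instGaloisKV` and for `GAL.Desc`.
* `GammaPM M = ± Γ(M)`.
-/

set_option autoImplicit false

noncomputable section

namespace Fermat.Agent.S48.Full

open ModularCurve
open scoped MatrixGroups

section Series

variable (Λ : Type*) [CommRing Λ] (M : ℕ) [NeZero M]

/-- `E₄² / Δ` as a Laurent series in `q` over `Λ`. -/
def wFac : LaurentSeries Λ :=
  HahnSeries.ofPowerSeries ℤ Λ ((eisenstein4 ^ 2).map (Int.castRingHom Λ)) * S28.DlLinv Λ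

/-- `j(t^M)`. -/
def jM : LaurentSeries Λ := qExpand Λ M (jqModC Λ)

/-- The coefficient of `t^n` (`n ≥ 1`) of `eSer`. -/
def eCoeff (a : ZMod M) (w : Λˣ) (n : ℕ) : Λ :=
  ∑ r ∈ n.divisors,
    ((if ((n / r : ℕ) : ZMod M) = a then (r : Λ) ^ 3 * ((w ^ r : Λˣ) : Λ) else 0) +
     (if ((n / r : ℕ) : ZMod M) = -a then (r : Λ) ^ 3 * ((w⁻¹ ^ r : Λˣ) : Λ) else 0))

/-- The constant term of `eSer`. -/
def eConst (a : ZMod M) (w : Λˣ) : Λ :=
  if a = 0 then (w : Λ) * (1 + 4 * (w : Λ) + (w : Λ) ^ 2) * Ring.inverse (1 - (w : Λ)) ^ 4 else 0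

/-- The normalised `t`-expansion of the Eisenstein series `G₄^{(a,b)}`, `w = ζ^b`. -/
def eSer (a : ZMod M) (w : Λˣ) : PowerSeries Λ :=
  PowerSeries.mk fun n => if n = 0 then eConst Λ M a w else eCoeff Λ M a w n

/-- The weight zero function `G₄^{(a,b)} E₄² / Δ` (normalised), as a series in `t`. -/
def hSer (a : ZMod M) (w : Λˣ) : LaurentSeries Λ :=
  HahnSeries.ofPowerSeries ℤ Λ (eSer Λ M a w) * qExpand Λ M (wFac Λ)

/-- The generator attached to a vector `v = (a, b)` and a root of unity `ζ`. -/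
def hVec (ζ : Λˣ) (v : Fin 2 → ZMod M) : LaurentSeries Λ := hSer Λ M (v 0) (ζ ^ (v 1).val)

end Series

section Field

variable (L : Type*) [Field L] (M : ℕ) [NeZero M]

/-- The generators of the function field of `X(M)` over `L`. -/
def gensC : Set (LaurentSeries L) :=
  {x | x = jM L M ∨ ∃ (a : ZMod M) (w : Lˣ), w ^ M = 1 ∧ (a ≠ 0 ∨ w ≠ 1) ∧ x = hSer L M a w}

/-- **The function field of `X(M)` over `L`**, inside `L((t))`. -/
def FFullC : IntermediateField L (LaurentSeries L) := IntermediateField.adjoin L (gensC L M)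

theorem jM_mem_FFullC : jM L M ∈ FFullC L M :=
  IntermediateField.subset_adjoin L _ (Or.inl rfl)

theorem hSer_mem_FFullC {a : ZMod M} {w : Lˣ} (hw : w ^ M = 1) (h : a ≠ 0 ∨ w ≠ 1) :
    hSer L M a w ∈ FFullC L M :=
  IntermediateField.subset_adjoin L _ (Or.inr ⟨a, w, hw, h, rfl⟩)

end Field

section Rational

variable (M : ℕ) [NeZero M]

/-- The coefficient of `t^n` of `fSer`. -/
def fCoeff (a c : ZMod M) (n : ℕ) : ℚ :=
  ∑ r ∈ n.divisors,
    ((if ((n / r : ℕ) : ZMod M) = a ∧ (r : ZMod M) = c then (r : ℚ) ^ 3 else 0) +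
     (if ((n / r : ℕ) : ZMod M) = -a ∧ (r : ZMod M) = -c then (r : ℚ) ^ 3 else 0))

/-- `∑_{m ≡ a, r ≡ c} r³ t^{mr} + ∑_{m ≡ -a, r ≡ -c} r³ t^{mr}`. -/
def fSer (a c : ZMod M) : PowerSeries ℚ := PowerSeries.mk (fCoeff M a c)

/-- The finite Fourier transform (in `b`) of the generators. -/
def hFou (a c : ZMod M) : LaurentSeries ℚ :=
  HahnSeries.ofPowerSeries ℤ ℚ (fSer M a c) * qExpand ℚ M (wFac ℚ)

/-- Rational generators. -/
def gens₀ : Set (LaurentSeries ℚ) :=
  {x | x = jM ℚ M ∨ ∃ a c : ZMod M, a ≠ 0 ∧ x = hFou M a c}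

/-- The `ℚ`-structure of the function field of `X(M)` in which the cusp `∞` is rational. -/
def FFull₀ : IntermediateField ℚ (LaurentSeries ℚ) := IntermediateField.adjoin ℚ (gens₀ M)

/-- **The function field of `X(M)`** over a field `L` of characteristic zero. -/
abbrev FFull (L : Type*) [Field L] [Algebra ℚ L] : IntermediateField L (LaurentSeries L) :=
  laurentBaseChange L (FFull₀ M)

end Rational

/-- `± Γ(M)`. -/
def GammaPM (M : ℕ) : Subgroup SL(2, ℤ) where
  carrier := {γ | γ ∈ CongruenceSubgroup.Gamma M ∨ -γ ∈ CongruenceSubgroup.Gamma M}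
  one_mem' := Or.inl (one_mem _)
  mul_mem' := by
    rintro a b (ha | ha) (hb | hb)
    · exact Or.inl (mul_mem ha hb)
    · exact Or.inr (by simpa using mul_mem ha hb)
    · exact Or.inr (by simpa using mul_mem ha hb)
    · exact Or.inl (by simpa using mul_mem ha hb)
  inv_mem' := by
    rintro a (ha | ha)
    · exact Or.inl (inv_mem ha)
    · refine Or.inr ?_
      have := inv_mem ha
      have e : (-a)⁻¹ = -a⁻¹ := by
        rw [inv_eq_iff_mul_eq_one]; simp
      rwa [e] at this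

theorem mem_GammaPM {M : ℕ} {γ : SL(2, ℤ)} :
    γ ∈ GammaPM M ↔ γ ∈ CongruenceSubgroup.Gamma M ∨ -γ ∈ CongruenceSubgroup.Gamma M := Iff.rfl

theorem Gamma_le_GammaPM (M : ℕ) : CongruenceSubgroup.Gamma M ≤ GammaPM M := fun _ h => Or.inl h

end Fermat.Agent.S48.Full
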