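import Fermat.Agent.S48.Full.Defs

/-!
# S48 / FULL leaf S2 : the generators are pairwise distinct, in every characteristic prime to `M`

`L` a field, `ζ` a primitive `M`-th root of unity of `L`, `v, v' ≠ 0` in `(ℤ/M)²`:
`hVec ζ v = hVec ζ v' ↔ v' = v ∨ v' = -v`.

Proof of `→`.  Cancel the non zero factor `qExpand M (wFac L)`: `eSer a w = eSer a' w'`.
For `a : ZMod M` put `μ(a) = min(a.val, M - a.val)` if `a ≠ 0`, `μ(0) = M`.  For `1 ≤ n ≤ M` the
coefficient of `t^n` is `∑_{r ∣ n} ([n/r ≡ a] r³ w^r + [n/r ≡ -a] r³ w^{-r})`; it vanishes for `n < μ(a)`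
and for `n = μ(a)` only `r = 1` contributes: it is `w` (if `a.val = μ < M - a.val`), `w⁻¹`
(if `M - a.val = μ < a.val`), `w + w⁻¹` (if `a = -a`, i.e. `a = 0` or `2 a.val = M`).
* `μ(a) = μ(a')`: then `a' = ± a`; replacing `(a', w')` by `(-a', w'⁻¹)` (same series) `a' = a`; compare
  the coefficient of `t^μ`: `w = w'`, or (`a = -a`) `w + w⁻¹ = w' + w'⁻¹`, i.e. `(w - w')(1 - (w w')⁻¹) = 0`.
* `μ(a) < μ(a')`: the coefficient of `t^{μ(a)}` of the second series vanishes, so `a = -a ≠ 0`,
  `2 a.val = M`, `w² = -1`, and `μ(a') > M/2` forces `a' = 0`.  Constant terms: `0 = eConst 0 w'`, so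
  `w' + w'⁻¹ = -4`; coefficients of `t^M`: first series `m = M/2, r = 2`: `8 (w² + w⁻²) = -16`
  (`r = 1, m = M ≢ M/2`; other `r ∣ M` have `M/r ≡ M/2` only for `r = 2`), second series: `w' + w'⁻¹`
  (`r = 1` only).  So `12 = 0` in `L`; `2 ≠ 0` because `M` is even and invertible (there is a
  primitive `M`-th root of unity), so `3 = 0`, `w' + w'⁻¹ = -4 = 2`, `(w' - 1)² = 0`, `w' = 1`: `v' = 0`.
-/

set_option autoImplicit false
set_option linter.unusedSectionVars false

open ModularCurve

noncomputable section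

namespace Fermat.Agent.S48.Full

variable (L : Type*) [Field L] (M : ℕ) [NeZero M]

/-! ### the factor `E₄²/Δ` does not vanish -/

theorem Distinct_ofPowerSeries_ne_zero {P : PowerSeries ℤ} (hP : PowerSeries.constantCoeff P = 1) :
    HahnSeries.ofPowerSeries ℤ L (P.map (Int.castRingHom L)) ≠ 0 := by
  intro h
  have h1 : P.map (Int.castRingHom L) = 0 :=
    HahnSeries.ofPowerSeries_injective (h.trans (map_zero _).symm)
  have h2 := congrArg (PowerSeries.coeff 0) h1
  rw [PowerSeries.coeff_map, PowerSeries.coeff_zero_eq_constantCoeff_apply, hP] at h2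
  simp at h2

theorem Distinct_wFac_ne_zero : wFac L ≠ 0 := by
  unfold wFac S28.DlLinv
  refine mul_ne_zero (Distinct_ofPowerSeries_ne_zero L ?_)
    (mul_ne_zero (HahnSeries.single_ne_zero one_ne_zero)
      (Distinct_ofPowerSeries_ne_zero L constantCoeff_dedekindEtaUnitInv))
  rw [map_pow, constantCoeff_eisenstein4, one_pow]

theorem hSer_injective {a a' : ZMod M} {w w' : Lˣ} (h : hSer L M a w = hSer L M a' w') :
    eSer L M a w = eSer L M a' w' := by
  unfold hSer at h
  have h0 : qExpand L M (wFac L) ≠ 0 := (map_ne_zero _).mpr (Distinct_wFac_ne_zero L)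
  exact HahnSeries.ofPowerSeries_injective (mul_right_cancel₀ h0 h)

/-! ### the least positive integer `≡ ± a` -/

/-- the least positive integer `≡ ± a mod M`. -/
def Distinct_mu (a : ZMod M) : ℕ := if a = 0 then M else min a.val (M - a.val)

variable {M}

theorem Distinct_val_pos {a : ZMod M} (ha : a ≠ 0) : 0 < a.val :=
  Nat.pos_of_ne_zero fun h => ha ((ZMod.val_eq_zero a).mp h)

theorem Distinct_mu_pos (a : ZMod M) : 0 < Distinct_mu M a := by
  unfold Distinct_mu
  split_ifs with ha
  · exact NeZero.pos M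
  · have h1 := Distinct_val_pos ha
    have h2 := ZMod.val_lt a
    omega

theorem Distinct_mu_le (a : ZMod M) : Distinct_mu M a ≤ M := by
  unfold Distinct_mu
  split_ifs with ha
  · exact le_rfl
  · have h2 := ZMod.val_lt a
    omega

theorem Distinct_mu_le_of_cast {a : ZMod M} {m : ℕ} (hm : 0 < m)
    (h : (m : ZMod M) = a ∨ (m : ZMod M) = -a) : Distinct_mu M a ≤ m := by
  unfold Distinct_mu
  split_ifs with ha
  · subst ha
    rw [neg_zero, or_self] at h
    exact Nat.le_of_dvd hm ((ZMod.natCast_eq_zero_iff m M).mp h)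
  · rcases h with h | h
    · have h1 : a.val = m % M := by rw [← h, ZMod.val_natCast]
      have h2 := Nat.mod_le m M
      omega
    · have h1 : (-a).val = m % M := by rw [← h, ZMod.val_natCast]
      rw [ZMod.neg_val, if_neg ha] at h1
      have h2 := Nat.mod_le m M
      omega

theorem Distinct_mu_cast (a : ZMod M) :
    ((Distinct_mu M a : ℕ) : ZMod M) = a ∨ ((Distinct_mu M a : ℕ) : ZMod M) = -a := by
  unfold Distinct_mu
  split_ifs with ha
  · left
    rw [ZMod.natCast_self, ha]
  · rcases le_total a.val (M - a.val) with h | h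
    · left
      rw [min_eq_left h, ZMod.natCast_zmod_val]
    · right
      rw [min_eq_right h, Nat.cast_sub (ZMod.val_lt a).le, ZMod.natCast_self, zero_sub,
        ZMod.natCast_zmod_val]

theorem Distinct_eq_or_of_mu_eq {a a' : ZMod M} (h : Distinct_mu M a = Distinct_mu M a') :
    a' = a ∨ a' = -a := by
  have h1 := Distinct_mu_cast a
  have h2 := Distinct_mu_cast a'
  rw [← h] at h2
  rcases h1 with h1 | h1 <;> rcases h2 with h2 | h2
  · exact Or.inl (h2.symm.trans h1)
  · right
    rw [← h1, h2, neg_neg]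
  · exact Or.inr (h2.symm.trans h1)
  · left
    exact neg_injective (h2.symm.trans h1)

/-! ### the low coefficients -/

variable {L}

theorem Distinct_coeff (a : ZMod M) (w : Lˣ) {n : ℕ} (hn : n ≠ 0) :
    PowerSeries.coeff n (eSer L M a w) = eCoeff L M a w n := by
  unfold eSer
  rw [PowerSeries.coeff_mk, if_neg hn]

theorem Distinct_coeff_zero (a : ZMod M) (w : Lˣ) :
    PowerSeries.coeff 0 (eSer L M a w) = eConst L M a w := by
  unfold eSer
  rw [PowerSeries.coeff_mk, if_pos rfl]

theorem Distinct_eCoeff_eq_zero (a : ZMod M) (w : Lˣ) {n : ℕ} (hn : 0 < n)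
    (hlt : n < Distinct_mu M a) : eCoeff L M a w n = 0 := by
  unfold eCoeff
  refine Finset.sum_eq_zero fun r hr => ?_
  have hr' : r ∣ n := Nat.dvd_of_mem_divisors hr
  have h1 : 0 < n / r := Nat.div_pos (Nat.le_of_dvd hn hr') (Nat.pos_of_dvd_of_pos hr' hn)
  have h2 : n / r ≤ n := Nat.div_le_self n r
  rw [if_neg, if_neg, add_zero]
  · intro h
    have := Distinct_mu_le_of_cast h1 (Or.inr h)
    omega
  · intro h
    have := Distinct_mu_le_of_cast h1 (Or.inl h)
    omega

theorem Distinct_eCoeff_single (a : ZMod M) (w : Lˣ) {n r₀ : ℕ} (hr₀ : r₀ ∈ n.divisors)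
    (H : ∀ r ∈ n.divisors, r ≠ r₀ →
      ((n / r : ℕ) : ZMod M) ≠ a ∧ ((n / r : ℕ) : ZMod M) ≠ -a) :
    eCoeff L M a w n =
      (if ((n / r₀ : ℕ) : ZMod M) = a then (r₀ : L) ^ 3 * ((w ^ r₀ : Lˣ) : L) else 0) +
      (if ((n / r₀ : ℕ) : ZMod M) = -a then (r₀ : L) ^ 3 * ((w⁻¹ ^ r₀ : Lˣ) : L) else 0) := by
  unfold eCoeff
  refine Finset.sum_eq_single r₀ (fun r hr hne => ?_) (fun h => absurd hr₀ h)
  rw [if_neg (H r hr hne).1, if_neg (H r hr hne).2, add_zero]

theorem Distinct_eCoeff_mu (a : ZMod M) (w : Lˣ) :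
    eCoeff L M a w (Distinct_mu M a) =
      (if ((Distinct_mu M a : ℕ) : ZMod M) = a then (w : L) else 0) +
      (if ((Distinct_mu M a : ℕ) : ZMod M) = -a then ((w⁻¹ : Lˣ) : L) else 0) := by
  have hpos := Distinct_mu_pos a
  rw [Distinct_eCoeff_single a w (r₀ := 1) (Nat.one_mem_divisors.mpr hpos.ne')]
  · simp
  · intro r hr hne
    have hr' : r ∣ Distinct_mu M a := Nat.dvd_of_mem_divisors hr
    have hr0 : 0 < r := Nat.pos_of_dvd_of_pos hr' hpos
    have h1 : 0 < Distinct_mu M a / r := Nat.div_pos (Nat.le_of_dvd hpos hr') hr0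
    have h2 : Distinct_mu M a / r < Distinct_mu M a := Nat.div_lt_self hpos (by omega)
    constructor
    · intro h
      have := Distinct_mu_le_of_cast h1 (Or.inl h)
      omega
    · intro h
      have := Distinct_mu_le_of_cast h1 (Or.inr h)
      omega

/-! ### symmetry -/

theorem Distinct_eConst_neg (a : ZMod M) (w : Lˣ) :
    eConst L M (-a) w⁻¹ = eConst L M a w := by
  unfold eConst
  by_cases ha : a = 0
  · rw [if_pos ha, if_pos (by rw [ha, neg_zero])]
    have hw0 : (w : L) ≠ 0 := w.ne_zero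
    rw [Ring.inverse_eq_inv', Units.val_inv_eq_inv_val]
    by_cases hw1 : (w : L) = 1
    · rw [hw1]
      simp
    · have h1 : 1 - (w : L) ≠ 0 := sub_ne_zero.mpr (Ne.symm hw1)
      have h2 : 1 - (w : L)⁻¹ ≠ 0 := by
        intro h
        apply hw1
        have h3 : (w : L)⁻¹ = 1 := (sub_eq_zero.mp h).symm
        rw [← inv_inv (w : L), h3, inv_one]
      have h3 : 1 - (w : L)⁻¹ = -(1 - (w : L)) * (w : L)⁻¹ := by
        field_simp
        ring
      rw [h3]
      field_simp
      ring
  · rw [if_neg ha, if_neg (by rwa [neg_eq_zero])]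

theorem Distinct_eCoeff_neg (a : ZMod M) (w : Lˣ) (n : ℕ) :
    eCoeff L M (-a) w⁻¹ n = eCoeff L M a w n := by
  unfold eCoeff
  refine Finset.sum_congr rfl fun r _ => ?_
  rw [neg_neg, inv_inv, add_comm]

theorem Distinct_eSer_neg (a : ZMod M) (w : Lˣ) : eSer L M (-a) w⁻¹ = eSer L M a w := by
  ext n
  by_cases hn : n = 0
  · subst hn
    rw [Distinct_coeff_zero, Distinct_coeff_zero, Distinct_eConst_neg]
  · rw [Distinct_coeff _ _ hn, Distinct_coeff _ _ hn, Distinct_eCoeff_neg]

/-! ### comparison -/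

theorem Distinct_same {a : ZMod M} {w w' : Lˣ} (h : eSer L M a w = eSer L M a w') :
    w' = w ∨ (a = -a ∧ w' = w⁻¹) := by
  have hpos := Distinct_mu_pos a
  have hc := congrArg (PowerSeries.coeff (Distinct_mu M a)) h
  rw [Distinct_coeff _ _ hpos.ne', Distinct_coeff _ _ hpos.ne', Distinct_eCoeff_mu,
    Distinct_eCoeff_mu] at hc
  by_cases h1 : ((Distinct_mu M a : ℕ) : ZMod M) = a <;>
    by_cases h2 : ((Distinct_mu M a : ℕ) : ZMod M) = -a
  · rw [if_pos h1, if_pos h2, if_pos h1, if_pos h2, Units.val_inv_eq_inv_val,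
      Units.val_inv_eq_inv_val] at hc
    have hx : (w : L) ≠ 0 := w.ne_zero
    have hy : (w' : L) ≠ 0 := w'.ne_zero
    have h3 : ((w : L) - w') * ((w : L) * w' - 1) = 0 := by
      field_simp at hc
      linear_combination hc
    rcases mul_eq_zero.mp h3 with h4 | h4
    · left
      exact Units.ext (sub_eq_zero.mp h4).symm
    · right
      refine ⟨h1.symm.trans h2, ?_⟩
      apply Units.ext
      rw [Units.val_inv_eq_inv_val]
      exact eq_inv_of_mul_eq_one_right (sub_eq_zero.mp h4)
  · rw [if_pos h1, if_neg h2, if_pos h1, if_neg h2, add_zero, add_zero] at hc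
    exact Or.inl (Units.ext hc.symm)
  · rw [if_neg h1, if_pos h2, if_neg h1, if_pos h2, zero_add, zero_add] at hc
    exact Or.inl (inv_injective (Units.ext hc.symm))
  · exact absurd (Distinct_mu_cast a) (by tauto)

theorem Distinct_strict {ζ : Lˣ} (hζ : IsPrimitiveRoot ζ M) {a a' : ZMod M} {w w' : Lˣ}
    (h' : a' ≠ 0 ∨ w' ≠ 1) (hlt : Distinct_mu M a < Distinct_mu M a')
    (h : eSer L M a w = eSer L M a' w') : False := by
  have hpos := Distinct_mu_pos a
  have hc := congrArg (PowerSeries.coeff (Distinct_mu M a)) h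
  rw [Distinct_coeff _ _ hpos.ne', Distinct_coeff _ _ hpos.ne', Distinct_eCoeff_mu,
    Distinct_eCoeff_eq_zero a' w' hpos hlt] at hc
  have hx : (w : L) ≠ 0 := w.ne_zero
  have hy : (w' : L) ≠ 0 := w'.ne_zero
  by_cases h1 : ((Distinct_mu M a : ℕ) : ZMod M) = a <;>
    by_cases h2 : ((Distinct_mu M a : ℕ) : ZMod M) = -a
  · rw [if_pos h1, if_pos h2, Units.val_inv_eq_inv_val] at hc
    have haa : a = -a := h1.symm.trans h2
    have ha0 : a ≠ 0 := by
      intro ha
      have h3 : Distinct_mu M a = M := by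
        unfold Distinct_mu
        rw [if_pos ha]
      have := Distinct_mu_le a'
      omega
    have hvpos := Distinct_val_pos ha0
    have hval : 2 * a.val = M := by
      have h3 := congrArg ZMod.val haa
      rw [ZMod.neg_val, if_neg ha0] at h3
      have := ZMod.val_lt a
      omega
    have hμ : Distinct_mu M a = a.val := by
      unfold Distinct_mu
      rw [if_neg ha0]
      omega
    have ha'0 : a' = 0 := by
      by_contra hne
      have h3 : Distinct_mu M a' = min a'.val (M - a'.val) := by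
        unfold Distinct_mu
        rw [if_neg hne]
      omega
    subst ha'0
    have hw'1 : w' ≠ 1 := h'.resolve_left (fun h => h rfl)
    have hy1 : (w' : L) ≠ 1 := fun h => hw'1 (Units.ext h)
    -- constant terms
    have hc0 : 1 + 4 * (w' : L) + (w' : L) ^ 2 = 0 := by
      have h3 := congrArg (PowerSeries.coeff 0) h
      rw [Distinct_coeff_zero, Distinct_coeff_zero] at h3
      unfold eConst at h3
      rw [if_neg ha0, if_pos rfl, Ring.inverse_eq_inv'] at h3
      have h4 : (1 - (w' : L))⁻¹ ^ 4 ≠ 0 :=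
        pow_ne_zero _ (inv_ne_zero (sub_ne_zero.mpr (Ne.symm hy1)))
      rcases mul_eq_zero.mp h3.symm with h5 | h5
      · exact (mul_eq_zero.mp h5).resolve_left hy
      · exact absurd h5 h4
    -- the coefficient of `t ^ M`
    have hM0 : M ≠ 0 := NeZero.ne M
    have hμ0 : Distinct_mu M (0 : ZMod M) = M := by
      unfold Distinct_mu
      rw [if_pos rfl]
    have hR : eCoeff L M (0 : ZMod M) w' M = (w' : L) + (w' : L)⁻¹ := by
      have h3 := Distinct_eCoeff_mu (0 : ZMod M) w'
      rw [hμ0, neg_zero, if_pos (ZMod.natCast_self M), if_pos (ZMod.natCast_self M),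
        Units.val_inv_eq_inv_val] at h3
      exact h3
    have h2M : 2 ∈ M.divisors := Nat.mem_divisors.mpr ⟨⟨a.val, hval.symm⟩, hM0⟩
    have hM2 : M / 2 = a.val := by omega
    have hLc : eCoeff L M a w M = 2 ^ 3 * (w : L) ^ 2 + 2 ^ 3 * (w : L)⁻¹ ^ 2 := by
      rw [Distinct_eCoeff_single a w h2M]
      · rw [hM2, ZMod.natCast_zmod_val, if_pos rfl, if_pos haa]
        simp
      · intro r hr hne
        have hr' : r ∣ M := Nat.dvd_of_mem_divisors hr
        have hr0 : 0 < r := Nat.pos_of_dvd_of_pos hr' (NeZero.pos M)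
        have key : ((M / r : ℕ) : ZMod M) ≠ a := by
          intro h3
          have h4 : a.val = (M / r) % M := by rw [← h3, ZMod.val_natCast]
          rcases Nat.lt_or_ge r 2 with h5 | h5
          · have h6 : r = 1 := by omega
            rw [h6, Nat.div_one, Nat.mod_self] at h4
            omega
          · have h6 : M / r < M := Nat.div_lt_self (NeZero.pos M) h5
            rw [Nat.mod_eq_of_lt h6] at h4
            have h7 : r * (M / r) = M := Nat.mul_div_cancel' hr'
            have h8 : r * a.val = 2 * a.val := by rw [hval, h4]; exact h7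
            exact hne (Nat.eq_of_mul_eq_mul_right hvpos h8)
        exact ⟨key, fun h3 => key (h3.trans haa.symm)⟩
    have hMc := congrArg (PowerSeries.coeff M) h
    rw [Distinct_coeff _ _ hM0, Distinct_coeff _ _ hM0, hR, hLc] at hMc
    -- `2 ≠ 0`
    have hne : NeZero ((M : ℕ) : L) := (IsPrimitiveRoot.coe_units_iff.mpr hζ).neZero'
    have h20 : (2 : L) ≠ 0 := by
      intro h3
      apply hne.out
      rw [← hval]
      push_cast
      rw [h3, zero_mul]
    -- algebra
    have hxi : (w : L)⁻¹ = -(w : L) := by linear_combination hc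
    have hx2 : (w : L) ^ 2 = -1 := by
      have h3 : (w : L) * (w : L)⁻¹ = 1 := mul_inv_cancel₀ hx
      rw [hxi] at h3
      linear_combination -h3
    have hyy : (w' : L) + (w' : L)⁻¹ = -4 := by
      field_simp
      linear_combination hc0
    rw [hxi, hyy] at hMc
    have h12 : (12 : L) = 0 := by linear_combination (-1) * hMc + 16 * hx2
    have h3 : (3 : L) = 0 := by
      have h4 : (2 : L) * (2 * 3) = 0 := by linear_combination h12
      exact (mul_eq_zero.mp ((mul_eq_zero.mp h4).resolve_left h20)).resolve_left h20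
    have h5 : ((w' : L) - 1) ^ 2 = 0 := by linear_combination hc0 - 2 * (w' : L) * h3
    exact hy1 (sub_eq_zero.mp (pow_eq_zero_iff (two_ne_zero)|>.mp h5))
  · rw [if_pos h1, if_neg h2, add_zero] at hc
    exact hx hc
  · rw [if_neg h1, if_pos h2, zero_add] at hc
    exact (w⁻¹).ne_zero hc
  · exact absurd (Distinct_mu_cast a) (by tauto)

variable (L M)

theorem eSer_eq_iff {ζ : Lˣ} (hζ : IsPrimitiveRoot ζ M) {a a' : ZMod M} {w w' : Lˣ}
    (hw : w ^ M = 1) (hw' : w' ^ M = 1) (h : a ≠ 0 ∨ w ≠ 1) (h' : a' ≠ 0 ∨ w' ≠ 1) :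
    eSer L M a w = eSer L M a' w' ↔ (a' = a ∧ w' = w) ∨ (a' = -a ∧ w' = w⁻¹) := by
  constructor
  · intro E
    rcases lt_trichotomy (Distinct_mu M a) (Distinct_mu M a') with hlt | heq | hgt
    · exact (Distinct_strict hζ h' hlt E).elim
    · rcases Distinct_eq_or_of_mu_eq heq with rfl | rfl
      · rcases Distinct_same E with h1 | ⟨h1, h2⟩
        · exact Or.inl ⟨rfl, h1⟩
        · exact Or.inr ⟨h1, h2⟩
      · have E' : eSer L M a w = eSer L M a w'⁻¹ := by
          rw [E, ← Distinct_eSer_neg (-a) w', neg_neg]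
        rcases Distinct_same E' with h1 | ⟨h1, h2⟩
        · exact Or.inr ⟨rfl, by rw [← h1, inv_inv]⟩
        · exact Or.inl ⟨h1.symm, inv_injective h2⟩
    · exact (Distinct_strict hζ h hgt E.symm).elim
  · rintro (⟨rfl, rfl⟩ | ⟨rfl, rfl⟩)
    · rfl
    · exact (Distinct_eSer_neg a w).symm

/-- **The generators are pairwise distinct up to sign.** -/
theorem hVec_eq_iff {ζ : Lˣ} (hζ : IsPrimitiveRoot ζ M) {v v' : Fin 2 → ZMod M} (hv : v ≠ 0)
    (hv' : v' ≠ 0) : hVec L M ζ v = hVec L M ζ v' ↔ v' = v ∨ v' = -v := by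
  have hpow : ∀ b : ZMod M, (ζ ^ b.val) ^ M = 1 := by
    intro b
    rw [← pow_mul, mul_comm, pow_mul, hζ.pow_eq_one, one_pow]
  have hne : ∀ u : Fin 2 → ZMod M, u ≠ 0 → u 0 ≠ 0 ∨ ζ ^ (u 1).val ≠ 1 := by
    intro u hu
    by_cases h0 : u 0 = 0
    · right
      have h1 : u 1 ≠ 0 := by
        intro h1
        apply hu
        funext i
        fin_cases i
        · exact h0
        · exact h1
      exact hζ.pow_ne_one_of_pos_of_lt (Distinct_val_pos h1).ne' (ZMod.val_lt _)
    · exact Or.inl h0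
  have hinj : ∀ b b' : ZMod M, ζ ^ b'.val = ζ ^ b.val ↔ b' = b := by
    intro b b'
    constructor
    · intro h
      exact ZMod.val_injective M (hζ.pow_inj (ZMod.val_lt _) (ZMod.val_lt _) h)
    · rintro rfl
      rfl
  have hinv : ∀ b b' : ZMod M, ζ ^ b'.val = (ζ ^ b.val)⁻¹ ↔ b' = -b := by
    intro b b'
    rw [eq_inv_iff_mul_eq_one, ← pow_add, hζ.pow_eq_one_iff_dvd, ← ZMod.natCast_eq_zero_iff,
      Nat.cast_add, ZMod.natCast_zmod_val, ZMod.natCast_zmod_val, eq_neg_iff_add_eq_zero]
  have h1 : hVec L M ζ v = hVec L M ζ v' ↔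
      eSer L M (v 0) (ζ ^ (v 1).val) = eSer L M (v' 0) (ζ ^ (v' 1).val) := by
    constructor
    · exact hSer_injective L M
    · intro h
      unfold hVec hSer
      rw [h]
  rw [h1, eSer_eq_iff L M hζ (hpow _) (hpow _) (hne v hv) (hne v' hv'), hinj, hinv]
  constructor
  · rintro (⟨h2, h3⟩ | ⟨h2, h3⟩)
    · left
      funext i
      fin_cases i
      · exact h2
      · exact h3
    · right
      funext i
      fin_cases i
      · exact h2
      · exact h3
  · rintro (rfl | rfl)
    · exact Or.inl ⟨rfl, rfl⟩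
    · exact Or.inr ⟨rfl, rfl⟩

end Fermat.Agent.S48.Full
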