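import Fermat.Agent.S48.Full.Eis4Defs

/-!
# S48 / FULL leaf E3 : the `t`-expansion of `G₄^v` as a power series

Start from `WT1.G_eq M (k := 4) a b z` (with `v = ![a, b]`) and `WT1.Zc_four`:
`G₄ = [a=0] C₄ Ecl4(w) + C₄ (∑_{c ≡ a} Ek 4 (w t^c) + ∑_{c ≡ -a} Ek 4 (w⁻¹ t^c))`, `w = stdAddChar b`,
`Ek 4 x = ∑ n³ xⁿ`.  Bridges: `coe_zetaC_pow`, `tq_eq`.  Then reorganise the double series
`∑_{c>0, c ≡ a} ∑_r r³ w^r t^{cr}` as `∑_n (∑_{r ∣ n, n/r ≡ a} r³ w^r) t^n`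
(`sigmaAntidiagonalEquivProd` / `Nat.divisorsAntidiagonal`, as in Mathlib's proof of the q-expansion of
`E_k`: `tsum_sigma_eqn`, `EisensteinSeries.tsum_prod_pow_eq_tsum_sigma`; summability: `|r³ w^r t^{cr}| ≤ r³ |t|^{cr}`).
-/

set_option autoImplicit false
set_option linter.unusedSectionVars false

open UpperHalfPlane ModularCurve Matrix ModularForm EisensteinSeries
open scoped MatrixGroups Manifold Real

noncomputable section

namespace Fermat.Agent.S48.Full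

open Fermat.Agent.S24 Fermat.Agent.S24.Degree Fermat.Agent.GAL.Tors.TwistedEis

local notation "Δ" => ModularForm.discriminant

variable (M : ℕ) [NeZero M]

theorem tq_eq (τ : ℍ) : tq M τ = WT1.tq M τ := by
  unfold tq WT1.tq Function.Periodic.qParam
  rw [Complex.ofReal_natCast]

theorem coe_zetaC_pow (b : ZMod M) : (((zetaC M ^ b.val : ℂˣ)) : ℂ) = ZMod.stdAddChar b := by
  have hb : (((b.val : ℕ) : ℤ) : ZMod M) = b := by simp
  rw [Units.val_pow_eq_pow_val, coe_zetaC, ← hb, ZMod.stdAddChar_coe, ← Complex.exp_nat_mul, hb]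
  congr 1
  push_cast
  ring

theorem isPrimitiveRoot_zetaC : IsPrimitiveRoot (zetaC M) M := by
  rw [← IsPrimitiveRoot.coe_units_iff, coe_zetaC]
  exact Complex.isPrimitiveRoot_exp M (NeZero.ne M)

theorem eConst_zetaC (b : ZMod M) : eConst ℂ M 0 (zetaC M ^ b.val) = WT1.Ecl4 (ZMod.stdAddChar b) := by
  unfold eConst WT1.Ecl4
  rw [if_pos rfl, coe_zetaC_pow, Ring.inverse_eq_inv', div_eq_mul_inv, inv_pow]

/-- the summand of the double series. -/
def Eis4Exp_F (a : ZMod M) (w t : ℂ) (x : ℕ+ × ℕ+) : ℂ :=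
  if (((x.1 : ℕ) : ℕ) : ZMod M) = a then
    ((x.2 : ℕ) : ℂ) ^ 3 * w ^ (x.2 : ℕ) * t ^ ((x.1 : ℕ) * (x.2 : ℕ)) else 0

theorem Eis4Exp_summable (a : ZMod M) (w t : ℂ) (hw : ‖w‖ = 1) (ht : ‖t‖ < 1) :
    Summable (Eis4Exp_F M a w t) := by
  refine Summable.of_norm_bounded (summable_prod_mul_pow (𝕜 := ℂ) 3 ht).norm fun x => ?_
  unfold Eis4Exp_F
  split_ifs
  · rw [norm_mul, norm_mul, norm_mul, norm_pow w, hw, one_pow, mul_one]
  · rw [norm_zero]
    exact norm_nonneg _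

theorem Eis4Exp_inner (a : ZMod M) (w t : ℂ) (c : ℕ+) :
    ∑' r : ℕ+, Eis4Exp_F M a w t (c, r) =
      if (((c : ℕ) : ℕ) : ZMod M) = a then WT1.Ek 4 (w * t ^ (c : ℕ)) else 0 := by
  unfold Eis4Exp_F
  by_cases h : (((c : ℕ) : ℕ) : ZMod M) = a
  · simp only [if_pos h]
    unfold WT1.Ek
    rw [← PNat.coe_injective.tsum_eq (f := fun n : ℕ => (n : ℂ) ^ (4 - 1) * (w * t ^ (c : ℕ)) ^ n)]
    · refine tsum_congr fun r => ?_
      rw [mul_pow, ← pow_mul, mul_assoc]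
    · intro n hn
      rw [Function.mem_support] at hn
      have hn0 : n ≠ 0 := by
        rintro rfl
        apply hn
        simp
      exact ⟨⟨n, Nat.pos_of_ne_zero hn0⟩, rfl⟩
  · simp only [if_neg h, tsum_zero]

theorem Eis4Exp_fiber (a : ZMod M) (w t : ℂ) (n : ℕ+) :
    ∑ x : Nat.divisorsAntidiagonal (n : ℕ), Eis4Exp_F M a w t (sigmaAntidiagonalEquivProd ⟨n, x⟩) =
      (∑ r ∈ (n : ℕ).divisors,
        if (((n : ℕ) / r : ℕ) : ZMod M) = a then (r : ℂ) ^ 3 * w ^ r else 0) * t ^ (n : ℕ) := by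
  have h1 : ∀ x : Nat.divisorsAntidiagonal (n : ℕ),
      Eis4Exp_F M a w t (sigmaAntidiagonalEquivProd ⟨n, x⟩) =
      (fun y : ℕ × ℕ => if ((y.1 : ℕ) : ZMod M) = a then
        (y.2 : ℂ) ^ 3 * w ^ y.2 * t ^ (y.1 * y.2) else 0) x.1 := fun x => rfl
  simp only [h1]
  rw [Finset.sum_coe_sort (Nat.divisorsAntidiagonal (n : ℕ)) (fun y : ℕ × ℕ =>
    if ((y.1 : ℕ) : ZMod M) = a then (y.2 : ℂ) ^ 3 * w ^ y.2 * t ^ (y.1 * y.2) else 0),
    Nat.sum_divisorsAntidiagonal' (fun y1 y2 : ℕ =>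
    if ((y1 : ℕ) : ZMod M) = a then (y2 : ℂ) ^ 3 * w ^ y2 * t ^ (y1 * y2) else 0), Finset.sum_mul]
  refine Finset.sum_congr rfl fun r hr => ?_
  rw [Nat.div_mul_cancel (Nat.dvd_of_mem_divisors hr), ite_mul, zero_mul]

/-- reorganisation of the double series. -/
theorem hasSum_divisor_sum (a : ZMod M) (w : ℂ) (hw : ‖w‖ = 1) (τ : ℍ) :
    HasSum (fun n : ℕ => (∑ r ∈ n.divisors,
        if ((n / r : ℕ) : ZMod M) = a then (r : ℂ) ^ 3 * w ^ r else 0) * tq M τ ^ n)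
      (∑' c : ℕ+, if (((c : ℕ) : ℕ) : ZMod M) = a then WT1.Ek 4 (w * tq M τ ^ (c : ℕ)) else 0) := by
  have ht := norm_tq_lt_one M τ
  have hs := Eis4Exp_summable M a w (tq M τ) hw ht
  have h1 : ∑' x, Eis4Exp_F M a w (tq M τ) x =
      ∑' c : ℕ+, if (((c : ℕ) : ℕ) : ZMod M) = a then WT1.Ek 4 (w * tq M τ ^ (c : ℕ)) else 0 := by
    rw [hs.tsum_prod]
    exact tsum_congr fun c => Eis4Exp_inner M a w (tq M τ) c
  rw [← h1]
  have h2 : HasSum (Eis4Exp_F M a w (tq M τ) ∘ sigmaAntidiagonalEquivProd)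
      (∑' x, Eis4Exp_F M a w (tq M τ) x) :=
    (Equiv.hasSum_iff sigmaAntidiagonalEquivProd).mpr hs.hasSum
  have h3 := h2.sigma (g := fun n : ℕ+ => (∑ r ∈ (n : ℕ).divisors,
        if (((n : ℕ) / r : ℕ) : ZMod M) = a then (r : ℂ) ^ 3 * w ^ r else 0) * tq M τ ^ (n : ℕ))
    (fun n => by
      rw [← Eis4Exp_fiber]
      exact hasSum_fintype _)
  refine (PNat.coe_injective.hasSum_iff ?_).mp h3
  intro n hn
  have hn0 : n = 0 := by
    by_contra h0
    exact hn ⟨⟨n, Nat.pos_of_ne_zero h0⟩, rfl⟩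
  rw [hn0]
  simp

/-- **The `t`-expansion of the level `M` Eisenstein series.** -/
theorem hasSum_G4 (v : Fin 2 → ZMod M) (hv : v ≠ 0) (τ : ℍ) :
    HasSum (fun n : ℕ =>
      PowerSeries.coeff n (eSer ℂ M (v 0) (zetaC M ^ (v 1).val)) * tq M τ ^ n)
      (G4 M v τ / cM M) := by
  set a := v 0 with ha
  set b := v 1 with hb
  have hv' : v = ![a, b] := by
    funext i
    fin_cases i <;> rfl
  set w : ℂ := ZMod.stdAddChar b with hw
  have hwn : ‖w‖ = 1 := AddChar.norm_apply _ _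
  have hwinv : (ZMod.stdAddChar (-b) : ℂ) = w⁻¹ := AddChar.map_neg_eq_inv _ _
  have hwn' : ‖w⁻¹‖ = 1 := by rw [norm_inv, hwn, inv_one]
  have hc : cM M ≠ 0 := cM_ne_zero M
  -- the value
  have hG : G4 M v τ / cM M = (if a = 0 then WT1.Ecl4 w else 0) +
      ((∑' c : ℕ+, if (((c : ℕ) : ℕ) : ZMod M) = a then WT1.Ek 4 (w * tq M τ ^ (c : ℕ)) else 0) +
       ∑' c : ℕ+, if (((c : ℕ) : ℕ) : ZMod M) = -a
          then WT1.Ek 4 (w⁻¹ * tq M τ ^ (c : ℕ)) else 0) := by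
    have h := WT1.G_eq M (k := 4) (by norm_num) a b τ
    have hG4 : G4 M v τ = WT1.G M ((4 : ℕ) : ℤ) ![a, b] τ := by
      rw [hv']
      rfl
    rw [hG4, h, hwinv, ← tq_eq]
    have hZ : (if a = 0 then WT1.Zc M 4 b else 0) = cM M * (if a = 0 then WT1.Ecl4 w else 0) := by
      by_cases ha0 : a = 0
      · have hb0 : b ≠ 0 := by
          intro hb0
          apply hv
          rw [hv', ha0, hb0]
          funext i
          fin_cases i <;> rfl
        rw [if_pos ha0, if_pos ha0, WT1.Zc_four M hb0]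
      · rw [if_neg ha0, if_neg ha0, mul_zero]
    rw [hZ]
    have h4 : ((-1 : ℂ)) ^ 4 = 1 := by norm_num
    rw [h4, one_mul]
    change (cM M * _ + cM M * _) / cM M = _
    rw [← mul_add, mul_div_cancel_left₀ _ hc]
  rw [hG]
  have h0 : HasSum (fun n : ℕ => if n = 0 then (if a = 0 then WT1.Ecl4 w else 0) else 0)
      (if a = 0 then WT1.Ecl4 w else 0) := hasSum_ite_eq 0 _
  have h1 := hasSum_divisor_sum M a w hwn τ
  have h2 := hasSum_divisor_sum M (-a) w⁻¹ hwn' τ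
  have hfun : (fun n : ℕ =>
      PowerSeries.coeff n (eSer ℂ M a (zetaC M ^ b.val)) * tq M τ ^ n) =
      fun n : ℕ => (if n = 0 then (if a = 0 then WT1.Ecl4 w else 0) else 0) +
        ((∑ r ∈ n.divisors,
          if ((n / r : ℕ) : ZMod M) = a then (r : ℂ) ^ 3 * w ^ r else 0) * tq M τ ^ n +
        (∑ r ∈ n.divisors,
          if ((n / r : ℕ) : ZMod M) = -a then (r : ℂ) ^ 3 * w⁻¹ ^ r else 0) * tq M τ ^ n) := by
    funext n
    unfold eSer
    rw [PowerSeries.coeff_mk]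
    by_cases hn : n = 0
    · subst hn
      rw [if_pos rfl, if_pos rfl, Nat.divisors_zero, Finset.sum_empty, Finset.sum_empty, zero_mul,
        add_zero, add_zero, pow_zero, mul_one]
      by_cases ha0 : a = 0
      · rw [if_pos ha0, ha0, eConst_zetaC]
      · rw [if_neg ha0]
        unfold eConst
        rw [if_neg ha0]
    · rw [if_neg hn, if_neg hn, zero_add, ← add_mul, ← Finset.sum_add_distrib]
      unfold eCoeff
      congr 1
      refine Finset.sum_congr rfl fun r _ => ?_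
      have e1 : (((zetaC M ^ b.val) ^ r : ℂˣ) : ℂ) = w ^ r := by
        rw [Units.val_pow_eq_pow_val, coe_zetaC_pow]
      have e2 : ((((zetaC M ^ b.val)⁻¹) ^ r : ℂˣ) : ℂ) = w⁻¹ ^ r := by
        rw [Units.val_pow_eq_pow_val, Units.val_inv_eq_inv_val, coe_zetaC_pow]
      rw [e1, e2]
  rw [hfun]
  exact h0.add (h1.add h2)

end Fermat.Agent.S48.Full
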