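import Fermat.Agent.S48.Full.Eis4Defs

/-!
# S48 / FULL leaf E4 : modularity, holomorphy and growth of `hA M v = G₄^v E₄² / Δ`

`G4_smul` from `WT1.G_slash` (`ModularForm.SL_slash_apply`).
`E₄ (γ τ) = denom⁴ E₄ τ`, `Δ (γ τ) = denom¹² Δ τ`: `SlashInvariantForm.slash_action_eqn''` (see how
`S24.JLocal.kleinJ_smul` is proved).  Growth: `WT1.G_bdd`, `E₄` bounded,
`1/Δ = O(e^{2π y})`: `GAL.Tors.Dict.Eis_isBigO_inv_discriminant`.  `WT1.redSL_mul`, `WT1.redSL_one` exist.
-/

set_option autoImplicit false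
set_option linter.unusedSectionVars false

open UpperHalfPlane ModularCurve Matrix ModularForm EisensteinSeries
open scoped MatrixGroups Manifold Real

noncomputable section

namespace Fermat.Agent.S48.Full

open Fermat.Agent.S24 Fermat.Agent.S24.Degree Fermat.Agent.GAL.Tors.TwistedEis

local notation "Δ" => ModularForm.discriminant

variable (M : ℕ) [NeZero M]

theorem G4_smul (v : Fin 2 → ZMod M) (γ : SL(2, ℤ)) (τ : ℍ) :
    G4 M v (γ • τ) = denom γ τ ^ (4 : ℤ) * G4 M (v ᵥ* redSL M γ) τ := by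
  have h := congrFun (WT1.G_slash M 4 v γ) τ
  rw [ModularForm.SL_slash_apply] at h
  have hd : denom γ τ ≠ 0 := denom_ne_zero _ τ
  show WT1.G M 4 v (γ • τ) = denom γ τ ^ (4 : ℤ) * WT1.G M 4 (v ᵥ* WT1.redSL M γ) τ
  rw [← h, _root_.zpow_neg]
  field_simp

theorem Eis4Mod_E₄_smul (γ : SL(2, ℤ)) (τ : ℍ) :
    ModularForm.E₄ (γ • τ) = denom γ τ ^ (4 : ℤ) * ModularForm.E₄ τ := by
  have : SlashInvariantFormClass (ModularForm 𝒮ℒ 4) (CongruenceSubgroup.Gamma 1) 4 :=
    CongruenceSubgroup.Gamma_one_coe_eq_SL ▸ inferInstance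
  exact SlashInvariantForm.slash_action_eqn_SL'' ModularForm.E₄
    (CongruenceSubgroup.mem_Gamma_one γ) τ

theorem Eis4Mod_isBigO_inv_discriminant :
    (fun τ : ℍ => (ModularForm.discriminant τ)⁻¹) =O[atImInfty]
      fun τ : ℍ => Real.exp (2 * π * τ.im) := by
  have hΔ : (fun τ : ℍ => (ModularForm.discriminant τ)⁻¹) =O[atImInfty]
      fun τ : ℍ => (Real.exp (-2 * Real.pi * τ.im))⁻¹ := by
    refine ModularForm.exp_isBigO_discriminant.inv_rev ?_
    exact Filter.Eventually.of_forall fun τ h => absurd h (Real.exp_pos _).ne'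
  refine hΔ.congr_right fun τ => ?_
  rw [← Real.exp_neg]
  congr 1
  ring

theorem hA_smul (v : Fin 2 → ZMod M) (γ : SL(2, ℤ)) (τ : ℍ) :
    hA M v (γ • τ) = hA M (v ᵥ* redSL M γ) τ := by
  have hd : denom γ τ ≠ 0 := denom_ne_zero _ τ
  have hΔ : Δ τ ≠ 0 := ModularForm.discriminant_ne_zero τ
  have hc := cM_ne_zero M
  have e : ∀ (u : ℂ) (k : ℕ), u ^ (k : ℤ) = u ^ k := fun u k => zpow_natCast u k
  have e4 : denom γ τ ^ (4 : ℤ) = denom γ τ ^ (4 : ℕ) := e _ 4
  have e12 : denom γ τ ^ (12 : ℤ) = denom γ τ ^ (12 : ℕ) := e _ 12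
  rw [hA, hA, G4_smul, Eis4Mod_E₄_smul, JInvariant.discriminant_smul, e4, e12]
  field_simp

theorem mdifferentiable_hA (v : Fin 2 → ZMod M) : MDiff (hA M v) := by
  have h1 : MDiff (G4 M v) := WT1.G_mdiff M (by norm_num) v
  have h2 : MDiff (fun _ : ℍ => cM M) := mdifferentiable_const
  have h3 : MDiff (⇑ModularForm.E₄) := ModularFormClass.holo ModularForm.E₄
  exact (h1.div h2 (fun _ => cM_ne_zero M)).mul
    ((h3.pow 2).div JLocal.mdifferentiable_Δ ModularForm.discriminant_ne_zero)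

theorem hA_mem_niceSubring (v : Fin 2 → ZMod M) : hA M v ∈ niceSubring := by
  refine ⟨mdifferentiable_hA M v, 1, ?_⟩
  have hb1 : (G4 M v) =O[atImInfty] fun _ : ℍ => (1 : ℝ) := by
    have := WT1.G_bdd M (k := 4) (by norm_num) v
    rw [IsBoundedAtImInfty, Filter.BoundedAtFilter] at this
    exact this
  have hb2 : (⇑ModularForm.E₄) =O[atImInfty] fun _ : ℍ => (1 : ℝ) := by
    have := ModularFormClass.bdd_at_infty ModularForm.E₄
    rw [IsBoundedAtImInfty, Filter.BoundedAtFilter] at this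
    exact this
  have h1 := ((hb1.const_mul_left (cM M)⁻¹).mul (hb2.pow 2)).mul Eis4Mod_isBigO_inv_discriminant
  refine h1.congr (fun τ => ?_) (fun τ => ?_)
  · rw [hA]
    simp only [div_eq_mul_inv]
    ring
  · simp

theorem redSL_eq_one_iff (γ : SL(2, ℤ)) : redSL M γ = 1 ↔ γ ∈ CongruenceSubgroup.Gamma M := by
  rw [CongruenceSubgroup.Gamma_mem]
  constructor
  · intro h
    have h' := fun i j => congrFun (congrFun h i) j
    refine ⟨?_, ?_, ?_, ?_⟩
    · simpa [WT1.redSL] using h' 0 0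
    · simpa [WT1.redSL] using h' 0 1
    · simpa [WT1.redSL] using h' 1 0
    · simpa [WT1.redSL] using h' 1 1
  · rintro ⟨h1, h2, h3, h4⟩
    ext i j
    fin_cases i <;> fin_cases j <;> simpa [WT1.redSL]

theorem Eis4Mod_redSL_neg (γ : SL(2, ℤ)) : redSL M (-γ) = - redSL M γ := by
  ext i j
  simp [WT1.redSL]

theorem mem_GammaPM_iff (γ : SL(2, ℤ)) : γ ∈ GammaPM M ↔ redSL M γ = 1 ∨ redSL M γ = -1 := by
  rw [mem_GammaPM, ← redSL_eq_one_iff, ← redSL_eq_one_iff, Eis4Mod_redSL_neg, neg_eq_iff_eq_neg]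

/-- an element of `SL₂(ℤ)` which maps every vector `v` with `v 0 ≠ 0` to `± v` is `± 1` mod `M`
(`e₁ γ = ε₁ e₁`, `(e₁ + e₂) γ = ε (e₁ + e₂)`, `det = ε₁ ε = 1`; `M = 1` is trivial). -/
theorem mem_GammaPM_of_forall (γ : SL(2, ℤ))
    (h : ∀ v : Fin 2 → ZMod M, v 0 ≠ 0 → v ᵥ* redSL M γ = v ∨ v ᵥ* redSL M γ = -v) :
    γ ∈ GammaPM M := by
  rw [mem_GammaPM_iff]
  rcases subsingleton_or_nontrivial (ZMod M) with hs | hn
  · left
    ext i j
    exact Subsingleton.elim _ _
  have hdet : redSL M γ 0 0 * redSL M γ 1 1 - redSL M γ 0 1 * redSL M γ 1 0 = 1 := by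
    have h1 := Matrix.SpecialLinearGroup.det_coe γ
    rw [Matrix.det_fin_two] at h1
    have h2 := congrArg (fun x : ℤ => (x : ZMod M)) h1
    simpa [WT1.redSL] using h2
  have h1 := h ![1, 0] (by simp)
  have h2 := h ![1, 1] (by simp)
  have e1 : ∀ j, (![1, 0] ᵥ* redSL M γ) j = redSL M γ 0 j := by
    intro j
    simp [vecMul, dotProduct, Fin.sum_univ_two]
  have e2 : ∀ j, (![1, 1] ᵥ* redSL M γ) j = redSL M γ 0 j + redSL M γ 1 j := by
    intro j
    simp [vecMul, dotProduct, Fin.sum_univ_two]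
  generalize redSL M γ = R at *
  have key : ∀ a b c d : ZMod M, R 0 0 = a → R 0 1 = b → R 1 0 = c → R 1 1 = d →
      R = !![a, b; c, d] := by
    intro a b c d ha hb hc hd
    ext i j
    fin_cases i <;> fin_cases j <;> simpa
  rcases h1 with h1 | h1 <;> rcases h2 with h2 | h2
  · left
    have a0 := (e1 0).symm.trans (congrFun h1 0)
    have a1 := (e1 1).symm.trans (congrFun h1 1)
    have b0 := (e2 0).symm.trans (congrFun h2 0)
    have b1 := (e2 1).symm.trans (congrFun h2 1)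
    simp at a0 a1 b0 b1
    rw [a0] at b0
    rw [a1] at b1
    rw [key 1 0 0 1 a0 a1 (by simpa using b0) (by simpa using b1)]
    exact Matrix.one_fin_two.symm
  · left
    have a0 := (e1 0).symm.trans (congrFun h1 0)
    have a1 := (e1 1).symm.trans (congrFun h1 1)
    have b0 := (e2 0).symm.trans (congrFun h2 0)
    have b1 := (e2 1).symm.trans (congrFun h2 1)
    simp at a0 a1 b0 b1
    rw [a0] at b0
    rw [a1, zero_add] at b1
    rw [a0, a1, b1] at hdet
    have h11 : (-1 : ZMod M) = 1 := by simpa using hdet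
    rw [key 1 0 0 1 a0 a1 (by rw [h11] at b0; simpa using b0) (by rw [b1, h11])]
    exact Matrix.one_fin_two.symm
  · left
    have a0 := (e1 0).symm.trans (congrFun h1 0)
    have a1 := (e1 1).symm.trans (congrFun h1 1)
    have b0 := (e2 0).symm.trans (congrFun h2 0)
    have b1 := (e2 1).symm.trans (congrFun h2 1)
    simp at a0 a1 b0 b1
    rw [a0] at b0
    rw [a1, zero_add] at b1
    rw [a0, a1, b1] at hdet
    have h11 : (-1 : ZMod M) = 1 := by simpa using hdet
    rw [key 1 0 0 1 (by rw [a0, h11]) a1 (by rw [h11] at b0; simpa using b0) b1]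
    exact Matrix.one_fin_two.symm
  · right
    have a0 := (e1 0).symm.trans (congrFun h1 0)
    have a1 := (e1 1).symm.trans (congrFun h1 1)
    have b0 := (e2 0).symm.trans (congrFun h2 0)
    have b1 := (e2 1).symm.trans (congrFun h2 1)
    simp at a0 a1 b0 b1
    rw [a0] at b0
    rw [a1, zero_add] at b1
    rw [key (-1) 0 0 (-1) a0 a1 (by simpa using b0) b1, Matrix.one_fin_two]
    ext i j
    fin_cases i <;> fin_cases j <;> simp

instance finiteIndex_GammaPM : (GammaPM M).FiniteIndex :=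
  Subgroup.finiteIndex_of_le (Gamma_le_GammaPM M)

theorem conj_T_pow_mem_GammaPM (g : SL(2, ℤ)) : g * ModularGroup.T ^ M * g⁻¹ ∈ GammaPM M := by
  apply Gamma_le_GammaPM M
  refine (CongruenceSubgroup.Gamma_normal M).conj_mem _ ?_ g
  rw [CongruenceSubgroup.Gamma_mem, ← zpow_natCast, ModularGroup.coe_T_zpow]
  simp

end Fermat.Agent.S48.Full
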