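import Fermat.Agent.S48.Full.Good

/-!
# S48 / FULL leaf G2 : every good series satisfies a monic relation of degree `[SL₂(ℤ) : Γ]` over `K[j]`

Port of `GAL.Tors.Dict.degree_exists_relation` (`GAL/Tors/Dict/Degree.lean`, lines 71-116):
`S24.exists_norm_relation Γ (PsiFun ι h a) ...` is already generic in `Γ`;
`JInvariant.exists_poly_of_invariant`, `S24.descent_relation` are used verbatim with `jK := jM K h`;
replace `qq_ne_zero, norm_qq_lt_one, exists_qq_eq` by `tq_ne_zero, norm_tq_lt_one, exists_tq_eq`.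
-/

set_option autoImplicit false
set_option linter.unusedSectionVars false

open UpperHalfPlane ModularCurve Polynomial Filter Asymptotics
open scoped MatrixGroups Manifold

noncomputable section

namespace Fermat.Agent.S48.Full

open Fermat.Agent.S24 Fermat.Agent.S24.Degree Fermat.Agent.S24.JLocal Fermat.Agent.GAL

variable {K : Type} [Field K] (ι : K →+* ℂ) (Γ : Subgroup SL(2, ℤ)) (h : ℕ) [NeZero h]

/-- (G2) Main relation: every good series is a root of a monic polynomial of degree `[SL₂(ℤ) : Γ]`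
over `K[j]`. -/
theorem exists_relation [Γ.FiniteIndex] (a : LaurentSeries K) (ha : a ∈ goodSub K ι Γ h) :
    ∃ p' : Fin (Nat.card (SL(2, ℤ) ⧸ Γ)) → K[X],
      a ^ (Nat.card (SL(2, ℤ) ⧸ Γ)) + ∑ i, aeval (jM K h) (p' i) * a ^ (i : ℕ) = 0 := by
  obtain ⟨ha1, ha2, ha3⟩ := ha
  have hj1 : IsConv (coeffMap ι (jM K h)) := isConv_jM ι h
  have hj2 : ∀ τ : ℍ, PsiFun ι h (jM K h) τ = kleinJ τ := PsiFun_jM ι h
  have hfin : Finite (SL(2, ℤ) ⧸ Γ) := Subgroup.finite_quotient_of_finiteIndex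
  obtain ⟨r, hr1, hr2, hr3⟩ := exists_norm_relation Γ (PsiFun ι h a) ha2 niceSubring ha3
  have hp : ∀ i, ∃ P : ℂ[X], ∀ τ : ℍ, r i τ = P.eval (kleinJ τ) := by
    intro i
    obtain ⟨hmd, m, hm⟩ := hr1 i
    obtain ⟨P, -, hP⟩ := JInvariant.exists_poly_of_invariant (r i) m hmd (hr2 i)
      (JInvariant.isBoundedAtImInfty_mul_discriminant_pow (r i) m hm)
    exact ⟨P, hP⟩
  choose p hp using hp
  apply descent_relation (ι := ι) (jM K h) a p
  have hc : ∀ i : Fin (Nat.card (SL(2, ℤ) ⧸ Γ)),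
      IsConv (aeval (coeffMap ι (jM K h)) (p i) * coeffMap ι a ^ (i : ℕ)) :=
    fun i => (isConv_aeval hj1 (p i)).1.mul (ha1.pow _)
  have hsum : ∀ s : Finset (Fin (Nat.card (SL(2, ℤ) ⧸ Γ))),
      IsConv (∑ i ∈ s, aeval (coeffMap ι (jM K h)) (p i) * coeffMap ι a ^ (i : ℕ)) ∧
      ∀ τ : ℍ, evalAt (tq h τ)
          (∑ i ∈ s, aeval (coeffMap ι (jM K h)) (p i) * coeffMap ι a ^ (i : ℕ))
        = ∑ i ∈ s, r i τ * PsiFun ι h a τ ^ (i : ℕ) := by
    intro s
    induction s using Finset.induction_on with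
    | empty => exact ⟨by simpa using isConv_zero, fun τ => by simp [evalAt_zero]⟩
    | insert i s hi ih =>
      rw [Finset.sum_insert hi]
      refine ⟨(hc i).add ih.1, fun τ => ?_⟩
      rw [evalAt_add (hc i) ih.1 (tq_ne_zero h τ) (norm_tq_lt_one h τ), ih.2 τ,
        Finset.sum_insert hi,
        evalAt_mul (isConv_aeval hj1 (p i)).1 (ha1.pow _) (tq_ne_zero h τ) (norm_tq_lt_one h τ),
        (isConv_aeval hj1 (p i)).2 _ (tq_ne_zero h τ) (norm_tq_lt_one h τ),
        evalAt_pow ha1 (tq_ne_zero h τ) (norm_tq_lt_one h τ), hp i τ, ← hj2 τ]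
      rfl
  refine eq_zero_of_evalAt_eq_zero ((ha1.pow _).add (hsum _).1) fun q hq hq1 => ?_
  obtain ⟨τ, rfl⟩ := exists_tq_eq h hq hq1
  rw [evalAt_add (ha1.pow _) (hsum _).1 (tq_ne_zero h τ) (norm_tq_lt_one h τ), (hsum _).2 τ,
    evalAt_pow ha1 (tq_ne_zero h τ) (norm_tq_lt_one h τ)]
  have := congrFun hr3 τ
  simp only [Pi.add_apply, Pi.pow_apply, Finset.sum_apply, Pi.mul_apply, Pi.zero_apply] at this
  exact this

end Fermat.Agent.S48.Full
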