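import Fermat.Agent.S48.Full.GenSet
import Fermat.Agent.S48.Full.GoodRel

/-!
# S48 / FULL leaves GS2, GS3 : `[K(S) : K(j)] = [SL₂(ℤ) : Γ]`, good series lie in `K(S)`

Port of `GAL/Tors/Dict/Degree.lean` lines 160-342 (`degree_finiteDimensional_and_finrank_le`,
`finrank_jF`, `goodSub_le`; the abstract lemmas `degree_finrank_eq_relfinrank`,
`degree_relfinrank_adjoin_le`, `S24.finrank_le_of_relations`, `S24.relation_lift`,
`S24.card_le_finrank_of_ringHoms` can be used as they are), with
`gens K N ↦ S`, `FF K N ↦ FS K S`, `AK K N ↦ AS K S`, `degree_exists_relation ↦ exists_relation`,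
`realisation K ι N ↦ H.realisation`.  `CharZero K` follows from `ι` (`(RingHom.charZero_iff ι.injective).2`).
-/

set_option autoImplicit false
set_option linter.unusedSectionVars false

open UpperHalfPlane ModularCurve Polynomial AlgebraicCurve
open scoped MatrixGroups Manifold

noncomputable section

namespace Fermat.Agent.S48.Full

open Fermat.Agent.S24 Fermat.Agent.S24.Degree Fermat.Agent.S24.JLocal Fermat.Agent.GAL
  Fermat.Agent.S24.EmbedPoint Fermat.Agent.GAL.Tors

variable {K : Type} [Field K] {ι : K →+* ℂ} {Γ : Subgroup SL(2, ℤ)} {h : ℕ} [NeZero h]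
  {S : Set (LaurentSeries K)}

namespace GenSet

variable (H : GenSet ι Γ h S)
include H

theorem GenDeg_charZero : CharZero K := (RingHom.charZero_iff ι.injective).2 inferInstance

theorem GenDeg_finrank_le [Γ.FiniteIndex] :
    Module.finrank (IntermediateField.adjoin K {H.jF}) (FS K S) ≤ Nat.card (SL(2, ℤ) ⧸ Γ) ∧
      Module.finrank (IntermediateField.adjoin K {H.jF}) (FS K S) ≠ 0 := by
  have : CharZero K := H.GenDeg_charZero
  obtain ⟨h1, h2⟩ := Dict.degree_relfinrank_adjoin_le (k := K) S H.fin (jM K h)
    (Algebra.subset_adjoin H.jmem) (Nat.card (SL(2, ℤ) ⧸ Γ))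
    (fun a ha => exists_relation ι Γ h a (H.adjoin_le ha))
  rw [Dict.degree_finrank_eq_relfinrank (FS K S) H.jF]
  exact ⟨h1, h2⟩

/-- (GS2) -/
theorem finiteDimensional_jF [Γ.FiniteIndex] :
    FiniteDimensional (IntermediateField.adjoin K {H.jF}) (FS K S) :=
  Module.finite_of_finrank_pos (Nat.pos_of_ne_zero H.GenDeg_finrank_le.2)

/-- (GS2) `[K(S) : K(j)] = [SL₂(ℤ) : Γ]`. -/
theorem finrank_jF [Γ.FiniteIndex] [IsAlgClosed K] :
    Module.finrank (IntermediateField.adjoin K {H.jF}) (FS K S) = Nat.card (SL(2, ℤ) ⧸ Γ) := by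
  have := H.finiteDimensional_jF
  refine le_antisymm H.GenDeg_finrank_le.1 ?_
  obtain ⟨fam⟩ := EmbedPoint.nonempty_localFamily_zero (F := FS K S) H.realisation
  refine card_le_finrank_of_ringHoms (k := K) H.jF fam.σ fam.inj fam.const fun i i' => ?_
  have h := fam.agree i i'
  rw [map_sub, map_sub, fam.const i i' 0] at h
  exact sub_left_injective h

/-- (GS3) **good series lie in the function field.** -/
theorem goodSub_le [Γ.FiniteIndex] [IsAlgClosed K] :
    goodSub K ι Γ h ≤ (FS K S).toSubalgebra := by
  intro a ha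
  have : CharZero K := H.GenDeg_charZero
  set n := Nat.card (SL(2, ℤ) ⧸ Γ) with hn
  set j : LaurentSeries K := jM K h with hj
  have hSle : Algebra.adjoin K (S ∪ {a}) ≤ goodSub K ι Γ h := by
    rw [Algebra.adjoin_le_iff]
    rintro y (hy | hy)
    · exact H.good hy
    · rw [Set.mem_singleton_iff] at hy
      rw [hy]
      exact ha
  obtain ⟨h1, h2⟩ := Dict.degree_relfinrank_adjoin_le (k := K) (S ∪ {a})
    (H.fin.union (Set.finite_singleton a)) j
    (Algebra.subset_adjoin (Or.inl H.jmem)) n (fun b hb => exists_relation ι Γ h b (hSle hb))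
  set E := IntermediateField.adjoin K (S ∪ {a}) with hE
  have hFE : FS K S ≤ E := IntermediateField.adjoin.mono K _ _ Set.subset_union_left
  have hJF : IntermediateField.adjoin K {j} ≤ FS K S := by
    rw [IntermediateField.adjoin_simple_le_iff]
    exact IntermediateField.subset_adjoin K S H.jmem
  have h3 : IntermediateField.relfinrank (IntermediateField.adjoin K {j}) (FS K S) = n := by
    have h := H.finrank_jF
    rw [Dict.degree_finrank_eq_relfinrank (FS K S) H.jF] at h
    exact h
  have h4 := IntermediateField.relfinrank_mul_relfinrank hJF hFE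
  rw [h3] at h4
  have h5 : IntermediateField.relfinrank (FS K S) E = 1 := by
    have hpos : IntermediateField.relfinrank (FS K S) E ≠ 0 := by
      intro h0
      rw [h0, mul_zero] at h4
      exact h2 h4.symm
    have hnpos : 0 < n := by
      rcases Nat.eq_zero_or_pos n with h0 | h0
      · rw [h0, zero_mul] at h4
        exact absurd h4.symm h2
      · exact h0
    have : n * IntermediateField.relfinrank (FS K S) E ≤ n * 1 := by
      rw [h4, mul_one]; exact h1
    have := Nat.le_of_mul_le_mul_left this hnpos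
    omega
  rw [IntermediateField.relfinrank_eq_one_iff] at h5
  exact h5 (IntermediateField.subset_adjoin K _ (Or.inr rfl))

/-- The function field does not depend on the generating set. -/
theorem FS_eq [Γ.FiniteIndex] [IsAlgClosed K] {S' : Set (LaurentSeries K)}
    (H' : GenSet ι Γ h S') : FS K S = FS K S' := by
  apply le_antisymm
  · rw [IntermediateField.adjoin_le_iff]
    exact fun s hs => H'.goodSub_le (H.good hs)
  · rw [IntermediateField.adjoin_le_iff]
    exact fun s hs => H.goodSub_le (H'.good hs)

/-- monotonicity in the group. -/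
theorem FS_le [Γ.FiniteIndex] [IsAlgClosed K] {Γ' : Subgroup SL(2, ℤ)}
    {S' : Set (LaurentSeries K)} (H' : GenSet ι Γ' h S') (hΓ : Γ ≤ Γ') : FS K S' ≤ FS K S := by
  rw [IntermediateField.adjoin_le_iff]
  exact fun s hs => H.goodSub_le (goodSub_mono ι h hΓ (H'.good hs))

end GenSet

end Fermat.Agent.S48.Full
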