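import Fermat.Agent.S48.Full.Defs
import Fermat.Agent.S28.BSeries
import Fermat.Prelude.Thm_ModularCurve_coeffMap_qExpand

/-!
# S48 / FULL leaf S1 : formal properties of the generating series (any commutative ring)

Base change along a ring homomorphism, the substitution `t ↦ ζ t`, the symmetry `v ↦ -v`.
All proofs are coefficientwise (`HahnSeries.ext`, `PowerSeries.ext`); for products use that
`coeffMap φ`, `S28.twist c`, `qExpand` are ring homomorphisms.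
-/

set_option autoImplicit false
set_option linter.unusedSectionVars false

open ModularCurve

noncomputable section

namespace Fermat.Agent.S48.Full

variable {Λ Λ' : Type*} [CommRing Λ] [CommRing Λ'] (φ : Λ →+* Λ') (M : ℕ) [NeZero M]

theorem coeffMap_wFac : coeffMap φ (wFac Λ) = wFac Λ' := by
  rw [wFac, wFac, map_mul, S28.coeffMap_DlLinv, coeffMap_ofPowerSeries,
    ← RingHom.comp_apply (PowerSeries.map φ) (PowerSeries.map (Int.castRingHom Λ)),
    ← PowerSeries.map_comp, RingHom.ext_int (φ.comp (Int.castRingHom Λ)) (Int.castRingHom Λ')]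

theorem coeffMap_jM : coeffMap φ (jM Λ M) = jM Λ' M := by
  rw [jM, jM, coeffMap_qExpand, coeffMap_jqModC]

theorem map_eCoeff (a : ZMod M) (w : Λˣ) (n : ℕ) :
    φ (eCoeff Λ M a w n) = eCoeff Λ' M a (Units.map (φ : Λ →* Λ') w) n := by
  unfold eCoeff
  rw [map_sum]
  refine Finset.sum_congr rfl fun r _ => ?_
  rw [map_add]
  congr 1
  · split_ifs
    · rw [map_mul, map_pow, map_natCast, ← map_pow (Units.map (φ : Λ →* Λ')) w r, Units.coe_map]
      rfl
    · exact map_zero φ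
  · split_ifs
    · rw [map_mul, map_pow, map_natCast, ← map_inv (Units.map (φ : Λ →* Λ')) w,
        ← map_pow (Units.map (φ : Λ →* Λ')) w⁻¹ r, Units.coe_map]
      rfl
    · exact map_zero φ

theorem map_eConst (a : ZMod M) (w : Λˣ) (h : a ≠ 0 ∨ IsUnit (1 - (w : Λ))) :
    φ (eConst Λ M a w) = eConst Λ' M a (Units.map (φ : Λ →* Λ') w) := by
  unfold eConst
  by_cases ha : a = 0
  · rw [if_pos ha, if_pos ha]
    obtain ⟨u, hu⟩ := h.resolve_left (not_not.mpr ha)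
    have hw : ((Units.map (φ : Λ →* Λ') w : Λ'ˣ) : Λ') = φ (w : Λ) := rfl
    have h1 : (1 - φ (w : Λ)) = ((Units.map (φ : Λ →* Λ') u : Λ'ˣ) : Λ') := by
      rw [Units.coe_map, hu]
      simp
    rw [hw, h1, ← hu, Ring.inverse_unit, Ring.inverse_unit, ← map_inv, Units.coe_map]
    simp only [map_mul, map_add, map_pow, map_one, map_ofNat, MonoidHom.coe_coe]
  · rw [if_neg ha, if_neg ha, map_zero]

theorem SeriesBC_map_eSer (a : ZMod M) (w : Λˣ) (h : a ≠ 0 ∨ IsUnit (1 - (w : Λ))) :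
    (eSer Λ M a w).map φ = eSer Λ' M a (Units.map (φ : Λ →* Λ') w) := by
  ext n
  rw [PowerSeries.coeff_map, eSer, eSer, PowerSeries.coeff_mk, PowerSeries.coeff_mk]
  split_ifs
  · exact map_eConst φ M a w h
  · exact map_eCoeff φ M a w n

/-- **base change of the generators.** -/
theorem coeffMap_hSer (a : ZMod M) (w : Λˣ) (h : a ≠ 0 ∨ IsUnit (1 - (w : Λ))) :
    coeffMap φ (hSer Λ M a w) = hSer Λ' M a (Units.map (φ : Λ →* Λ') w) := by
  rw [hSer, hSer, map_mul, coeffMap_ofPowerSeries, coeffMap_qExpand, coeffMap_wFac,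
    SeriesBC_map_eSer φ M a w h]

theorem coeffMap_hVec (ζ : Λˣ) (v : Fin 2 → ZMod M)
    (h : v 0 ≠ 0 ∨ IsUnit (1 - ((ζ ^ (v 1).val : Λˣ) : Λ))) :
    coeffMap φ (hVec Λ M ζ v) = hVec Λ' M (Units.map (φ : Λ →* Λ') ζ) v := by
  rw [hVec, hVec, coeffMap_hSer φ M _ _ h, map_pow]

theorem SeriesBC_eCoeff_neg (a : ZMod M) (w : Λˣ) (n : ℕ) :
    eCoeff Λ M (-a) w⁻¹ n = eCoeff Λ M a w n := by
  unfold eCoeff
  refine Finset.sum_congr rfl fun r _ => ?_
  rw [neg_neg, inv_inv, add_comm]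

theorem SeriesBC_eConst_neg (a : ZMod M) (w : Λˣ) (h : a ≠ 0 ∨ IsUnit (1 - (w : Λ))) :
    eConst Λ M (-a) w⁻¹ = eConst Λ M a w := by
  unfold eConst
  by_cases ha : a = 0
  · rw [if_pos ha, if_pos (by rw [ha, neg_zero])]
    obtain ⟨u, hu⟩ := h.resolve_left (not_not.mpr ha)
    have h1 : (1 - ((w⁻¹ : Λˣ) : Λ)) = ((-(w⁻¹ * u) : Λˣ) : Λ) := by
      rw [Units.val_neg, Units.val_mul, hu, mul_sub, mul_one, Units.inv_mul]
      ring
    rw [h1, ← hu, Ring.inverse_unit, Ring.inverse_unit]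
    have h2 : ((-(w⁻¹ * u))⁻¹ : Λˣ) = -(w * u⁻¹) := by
      rw [inv_neg, mul_inv, inv_inv]
    rw [h2, Units.val_neg, Units.val_mul]
    have h3 : ((w⁻¹ : Λˣ) : Λ) * (w : Λ) = 1 := Units.inv_mul w
    linear_combination ((u⁻¹ : Λˣ) : Λ) ^ 4 * ((w : Λ) ^ 3 + 4 * (w : Λ) ^ 2 * (1 + ((w⁻¹ : Λˣ) : Λ) * (w : Λ)) + (w : Λ) * (1 + ((w⁻¹ : Λˣ) : Λ) * (w : Λ) + (((w⁻¹ : Λˣ) : Λ) * (w : Λ)) ^ 2)) * h3
  · rw [if_neg ha, if_neg (by rwa [neg_eq_zero])]

/-- symmetry `(a, w) ↦ (-a, w⁻¹)`. -/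
theorem hSer_neg (a : ZMod M) (w : Λˣ) (h : a ≠ 0 ∨ IsUnit (1 - (w : Λ))) :
    hSer Λ M (-a) w⁻¹ = hSer Λ M a w := by
  have h1 : eSer Λ M (-a) w⁻¹ = eSer Λ M a w := by
    ext n
    rw [eSer, eSer, PowerSeries.coeff_mk, PowerSeries.coeff_mk, SeriesBC_eCoeff_neg,
      SeriesBC_eConst_neg M a w h]
  rw [hSer, hSer, h1]

/-- `t ↦ c t` with `c^M = 1` fixes series in `t^M`. -/
theorem twist_qExpand (c : Λˣ) (hc : c ^ M = 1) (x : LaurentSeries Λ) :
    S28.twist c (qExpand Λ M x) = qExpand Λ M x := by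
  ext n
  rw [S28.twist_coeff]
  by_cases hn : (M : ℤ) ∣ n
  · obtain ⟨k, rfl⟩ := hn
    rw [zpow_mul, zpow_natCast, hc, one_zpow, Units.val_one, one_mul]
  · rw [qExpand_coeff_of_not_dvd M _ hn, mul_zero]

theorem SeriesBC_pow_eq (c : Λˣ) (hc : c ^ M = 1) (a : ZMod M) (n : ℕ) (hn : (n : ZMod M) = a) :
    c ^ n = c ^ a.val := by
  rw [← hn, ZMod.val_natCast, ← pow_eq_pow_mod n hc]

theorem SeriesBC_pow_eq_neg (c : Λˣ) (hc : c ^ M = 1) (a : ZMod M) (n : ℕ)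
    (hn : (n : ZMod M) = -a) : c ^ n = (c ^ a.val)⁻¹ := by
  rw [eq_inv_iff_mul_eq_one, ← pow_add]
  have h1 : ((n + a.val : ℕ) : ZMod M) = 0 := by
    rw [Nat.cast_add, hn, ZMod.natCast_zmod_val, neg_add_cancel]
  obtain ⟨k, hk⟩ := (ZMod.natCast_eq_zero_iff _ _).mp h1
  rw [hk, pow_mul, hc, one_pow]

theorem SeriesBC_twist_eCoeff (c : Λˣ) (hc : c ^ M = 1) (a : ZMod M) (w : Λˣ) (n : ℕ) :
    ((c ^ n : Λˣ) : Λ) * eCoeff Λ M a w n = eCoeff Λ M a (w * c ^ a.val) n := by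
  unfold eCoeff
  rw [Finset.mul_sum]
  refine Finset.sum_congr rfl fun r hr => ?_
  have hk : n = (n / r) * r := (Nat.div_mul_cancel (Nat.dvd_of_mem_divisors hr)).symm
  rw [mul_add]
  congr 1
  · split_ifs with hP
    · have h1 : c ^ n * w ^ r = (w * c ^ a.val) ^ r := by
        conv_lhs => rw [hk]
        rw [pow_mul, SeriesBC_pow_eq M c hc a _ hP, mul_pow, mul_comm]
      rw [← h1, Units.val_mul]
      ring
    · rw [mul_zero]
  · split_ifs with hP
    · have h1 : c ^ n * w⁻¹ ^ r = (w * c ^ a.val)⁻¹ ^ r := by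
        conv_lhs => rw [hk]
        rw [pow_mul, SeriesBC_pow_eq_neg M c hc a _ hP, mul_inv, mul_pow, mul_comm]
      rw [← h1, Units.val_mul]
      ring
    · rw [mul_zero]

theorem SeriesBC_eConst_twist (c : Λˣ) (a : ZMod M) (w : Λˣ) :
    eConst Λ M a (w * c ^ a.val) = eConst Λ M a w := by
  unfold eConst
  by_cases ha : a = 0
  · rw [if_pos ha, if_pos ha, ha, ZMod.val_zero, pow_zero, mul_one]
  · rw [if_neg ha, if_neg ha]

/-- the substitution `t ↦ c t`, `c^M = 1`: `(a, w) ↦ (a, w c^a)`, i.e. `v ↦ v T`. -/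
theorem twist_hSer (c : Λˣ) (hc : c ^ M = 1) (a : ZMod M) (w : Λˣ) :
    S28.twist c (hSer Λ M a w) = hSer Λ M a (w * c ^ a.val) := by
  have h1 : S28.twist c (HahnSeries.ofPowerSeries ℤ Λ (eSer Λ M a w)) =
      HahnSeries.ofPowerSeries ℤ Λ (eSer Λ M a (w * c ^ a.val)) := by
    ext k
    rw [S28.twist_coeff]
    rcases le_or_gt 0 k with hk | hk
    · lift k to ℕ using hk
      rw [HahnSeries.ofPowerSeries_apply_coeff, HahnSeries.ofPowerSeries_apply_coeff, eSer, eSer,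
        PowerSeries.coeff_mk, PowerSeries.coeff_mk, zpow_natCast]
      split_ifs with h0
      · rw [h0, pow_zero, Units.val_one, one_mul, SeriesBC_eConst_twist]
      · exact SeriesBC_twist_eCoeff M c hc a w k
    · rw [ofPowerSeries_coeff_of_neg _ hk, ofPowerSeries_coeff_of_neg _ hk, mul_zero]
  rw [hSer, hSer, map_mul, h1, twist_qExpand M c hc]

theorem twist_jM (c : Λˣ) (hc : c ^ M = 1) : S28.twist c (jM Λ M) = jM Λ M :=
  twist_qExpand M c hc _

/-- `hSer` only depends on `w` through ... (periodicity of the exponent). -/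
theorem hVec_eq (ζ : Λˣ) (hζ : ζ ^ M = 1) (v : Fin 2 → ZMod M) (n : ℕ) (hn : (n : ZMod M) = v 1) :
    hVec Λ M ζ v = hSer Λ M (v 0) (ζ ^ n) := by
  rw [hVec, SeriesBC_pow_eq M ζ hζ (v 1) n hn]

end Fermat.Agent.S48.Full
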