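import Fermat.Agent.S48.Full.HVecC
import Fermat.Agent.S48.Full.Eis4Mod
import Fermat.Agent.S48.Full.SeriesBC
import Fermat.Agent.S48.Full.Distinct
import Fermat.Agent.S48.Full.GenDeg

/-!
# S48 / FULL leaf I-A : the generators `hVec K M ζ v` are good series for `(± Γ(M), M)`

`K` a field with `ι : K →+* ℂ`, `ζ ∈ Kˣ` with `ι ζ = e^{2πi/M}`.
Black boxes: `HVecC.lean` (`isConv_hVecC`, `evalAt_hVecC`), `Eis4Mod.lean` (`hA_smul`,
`hA_mem_niceSubring`, `mem_GammaPM_iff`), `SeriesBC.lean` (`coeffMap_hVec`), `Distinct.lean`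
(`hVec_eq_iff`), `Eis4Exp.lean` (`isPrimitiveRoot_zetaC`).
-/

set_option autoImplicit false
set_option linter.unusedSectionVars false

open UpperHalfPlane ModularCurve Matrix
open scoped MatrixGroups Manifold

noncomputable section

namespace Fermat.Agent.S48.Full

open Fermat.Agent.S24 Fermat.Agent.S24.Degree Fermat.Agent.S24.JLocal Fermat.Agent.GAL

variable {K : Type} [Field K] (ι : K →+* ℂ) (M : ℕ) [NeZero M]

/-- `ζ ∈ Kˣ` is the root of unity `e^{2πi/M}`. -/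
def IsZeta (ζ : Kˣ) : Prop := ι (ζ : K) = ((zetaC M : ℂˣ) : ℂ)

/-- PROOF. `X^M - 1` splits in `K`; `ι` maps the `M` roots in `K` (distinct, char 0) injectively to
the `M` roots in `ℂ`, hence bijectively.  (Or: `IsAlgClosed.exists_pow_nat_eq`/
`HasEnoughRootsOfUnity`: take a primitive root `ξ` of `K`; `ι ξ` is primitive in `ℂ`, so
`zetaC = (ι ξ)^i` by `IsPrimitiveRoot.eq_pow_of_pow_eq_one`.) -/
theorem exists_isZeta [IsAlgClosed K] : ∃ ζ : Kˣ, IsZeta ι M ζ := by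
  have hchar : CharZero K := (RingHom.charZero_iff ι.injective).mpr inferInstance
  have hM : NeZero (M : K) := ⟨by exact_mod_cast NeZero.ne M⟩
  obtain ⟨ξ, hξ⟩ := HasEnoughRootsOfUnity.exists_primitiveRoot K M
  have hξ' : IsPrimitiveRoot (ι ξ) M := hξ.map_of_injective ι.injective
  have hz : ((zetaC M : ℂˣ) : ℂ) ^ M = 1 := by
    have := congrArg Units.val (isPrimitiveRoot_zetaC M).pow_eq_one
    rwa [Units.val_pow_eq_pow_val, Units.val_one] at this
  obtain ⟨i, _, hi⟩ := hξ'.eq_pow_of_pow_eq_one hz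
  have hξ0 : ξ ≠ 0 := hξ.ne_zero (NeZero.ne M)
  refine ⟨Units.mk0 (ξ ^ i) (pow_ne_zero _ hξ0), ?_⟩
  show ι (ξ ^ i) = _
  rw [map_pow, hi]

variable {ι M}

theorem IsZeta.map_eq {ζ : Kˣ} (hζ : IsZeta ι M ζ) :
    Units.map (ι : K →* ℂ) ζ = zetaC M := Units.ext hζ

theorem IsZeta.isPrimitiveRoot {ζ : Kˣ} (hζ : IsZeta ι M ζ) : IsPrimitiveRoot ζ M := by
  have hinj : Function.Injective (Units.map (ι : K →* ℂ)) := Units.map_injective ι.injective
  refine IsPrimitiveRoot.of_map_of_injective (f := Units.map (ι : K →* ℂ)) ?_ hinj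
  rw [hζ.map_eq]
  exact isPrimitiveRoot_zetaC M

theorem InstA_pow_val_ne_one {L : Type*} [Field L] {ζ : Lˣ} (hζ : IsPrimitiveRoot ζ M)
    {b : ZMod M} (hb : b ≠ 0) : ζ ^ b.val ≠ 1 :=
  hζ.pow_ne_one_of_pos_of_lt ((ZMod.val_ne_zero b).mpr hb) (ZMod.val_lt b)

theorem InstA_ne_zero_or {v : Fin 2 → ZMod M} (hv : v ≠ 0) : v 0 ≠ 0 ∨ v 1 ≠ 0 := by
  by_contra hcon
  rw [not_or, not_not, not_not] at hcon
  apply hv
  funext i
  fin_cases i
  · exact hcon.1
  · exact hcon.2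

/-- For `v ≠ 0` the hypothesis of `coeffMap_hVec` holds. -/
theorem isUnit_of_ne_zero {L : Type*} [Field L] {ζ : Lˣ} (hζ : IsPrimitiveRoot ζ M)
    {v : Fin 2 → ZMod M} (hv : v ≠ 0) :
    v 0 ≠ 0 ∨ IsUnit (1 - ((ζ ^ (v 1).val : Lˣ) : L)) := by
  rcases InstA_ne_zero_or hv with h0 | h1
  · exact Or.inl h0
  · right
    rw [isUnit_iff_ne_zero, sub_ne_zero]
    intro h
    apply InstA_pow_val_ne_one hζ h1
    exact Units.ext h.symm

/-- The generating set in terms of vectors. -/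
theorem gensC_eq {L : Type*} [Field L] {ζ : Lˣ} (hζ : IsPrimitiveRoot ζ M) :
    gensC L M = {x | x = jM L M ∨ ∃ v : Fin 2 → ZMod M, v ≠ 0 ∧ x = hVec L M ζ v} := by
  ext x
  constructor
  · rintro (hx | ⟨a, w, hw, haw, hx⟩)
    · exact Or.inl hx
    · right
      obtain ⟨i, hi, hiw⟩ := hζ.eq_pow_of_mem_rootsOfUnity ((mem_rootsOfUnity _ _).mpr hw)
      refine ⟨![a, (i : ZMod M)], ?_, ?_⟩
      · intro h0
        have h00 : a = 0 := by simpa using congrFun h0 0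
        have h01 : (i : ZMod M) = 0 := by simpa using congrFun h0 1
        rcases haw with ha | hw1
        · exact ha h00
        · apply hw1
          have hi0 : i = 0 := by
            have := congrArg ZMod.val h01
            rwa [ZMod.val_natCast_of_lt hi, ZMod.val_zero] at this
          rw [← hiw, hi0, pow_zero]
      · rw [hx, hVec]
        simp only [Matrix.cons_val_zero, Matrix.cons_val_one, Matrix.cons_val_fin_one]
        rw [ZMod.val_natCast_of_lt hi, hiw]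
  · rintro (hx | ⟨v, hv, hx⟩)
    · exact Or.inl hx
    · right
      refine ⟨v 0, ζ ^ (v 1).val, ?_, ?_, hx⟩
      · rw [← pow_mul, mul_comm, pow_mul, hζ.pow_eq_one, one_pow]
      · rcases InstA_ne_zero_or hv with h0 | h1
        · exact Or.inl h0
        · exact Or.inr (InstA_pow_val_ne_one hζ h1)

theorem hVec_mem_gensC {L : Type*} [Field L] {ζ : Lˣ} (hζ : IsPrimitiveRoot ζ M)
    {v : Fin 2 → ZMod M} (hv : v ≠ 0) : hVec L M ζ v ∈ gensC L M := by
  rw [gensC_eq hζ]; exact Or.inr ⟨v, hv, rfl⟩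

theorem finite_gensC (L : Type*) [Field L] : (gensC L M).Finite := by
  have hfin : (Set.range fun p : ZMod M × rootsOfUnity M L => hSer L M p.1 (p.2 : Lˣ)).Finite :=
    Set.finite_range _
  refine ((Set.finite_singleton (jM L M)).union hfin).subset ?_
  rintro x (hx | ⟨a, w, hw, _, hx⟩)
  · exact Or.inl hx
  · exact Or.inr ⟨(a, ⟨w, (mem_rootsOfUnity _ _).mpr hw⟩), hx.symm⟩

theorem coeffMap_hVec_of_isZeta {ζ : Kˣ} (hζ : IsZeta ι M ζ) {v : Fin 2 → ZMod M} (hv : v ≠ 0) :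
    coeffMap ι (hVec K M ζ v) = hVec ℂ M (zetaC M) v := by
  rw [coeffMap_hVec ι M ζ v (isUnit_of_ne_zero hζ.isPrimitiveRoot hv), hζ.map_eq]

theorem PsiFun_hVec {ζ : Kˣ} (hζ : IsZeta ι M ζ) {v : Fin 2 → ZMod M} (hv : v ≠ 0) (τ : ℍ) :
    PsiFun ι M (hVec K M ζ v) τ = hA M v τ := by
  rw [PsiFun, coeffMap_hVec_of_isZeta hζ hv, evalAt_hVecC M v hv]

/-- `hA M (-v) = hA M v` (`hA_smul` with `γ = -1`, which acts trivially on `ℍ`). -/
theorem hA_neg (v : Fin 2 → ZMod M) (τ : ℍ) : hA M (-v) τ = hA M v τ := by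
  have h := hA_smul M v (-1) τ
  have h1 : redSL M 1 = 1 := WT1.redSL_one M
  rw [ModularGroup.SL_neg_smul, one_smul, Eis4Mod_redSL_neg, h1, Matrix.vecMul_neg,
    Matrix.vecMul_one] at h
  exact h.symm

/-- `v ↦ v · γ` preserves `v ≠ 0`. -/
theorem vecMul_redSL_ne_zero {v : Fin 2 → ZMod M} (hv : v ≠ 0) (γ : SL(2, ℤ)) :
    v ᵥ* redSL M γ ≠ 0 := by
  intro h
  apply hv
  have h1 : redSL M γ * redSL M γ⁻¹ = 1 := by
    have := WT1.redSL_mul M γ γ⁻¹
    rw [mul_inv_cancel, WT1.redSL_one] at this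
    exact this.symm
  have h2 : (v ᵥ* redSL M γ) ᵥ* redSL M γ⁻¹ = v := by
    rw [Matrix.vecMul_vecMul, h1, Matrix.vecMul_one]
  rw [← h2, h, Matrix.zero_vecMul]

/-- PROOF. (→) by `evalAt_hVecC`, `isConv_hVecC` and `eq_of_PsiFun_eq (RingHom.id ℂ)` (or
`S24`'s identity theorem for convergent series) the series `hVec ℂ M (zetaC M) v` and `... v'`
coincide; `hVec_eq_iff ℂ M (isPrimitiveRoot_zetaC M)`. (←) `hA_neg`. -/
theorem hA_eq_iff {v v' : Fin 2 → ZMod M} (hv : v ≠ 0) (hv' : v' ≠ 0) :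
    (∀ τ, hA M v τ = hA M v' τ) ↔ v' = v ∨ v' = -v := by
  constructor
  · intro h
    rw [← hVec_eq_iff ℂ M (isPrimitiveRoot_zetaC M) hv hv']
    refine eq_of_evalAt_eq (isConv_hVecC M v hv) (isConv_hVecC M v' hv') fun q hq hq1 => ?_
    obtain ⟨τ, rfl⟩ := exists_tq_eq M hq hq1
    rw [evalAt_hVecC M v hv, evalAt_hVecC M v' hv', h τ]
  · rintro (rfl | rfl) τ
    · rfl
    · exact (hA_neg v τ).symm

theorem hVec_mem_goodSub {ζ : Kˣ} (hζ : IsZeta ι M ζ) {v : Fin 2 → ZMod M} (hv : v ≠ 0) :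
    hVec K M ζ v ∈ goodSub K ι (GammaPM M) M := by
  refine ⟨?_, fun γ hγ τ => ?_, fun g => ?_⟩
  · rw [coeffMap_hVec_of_isZeta hζ hv]
    exact isConv_hVecC M v hv
  · rw [PsiFun_hVec hζ hv, PsiFun_hVec hζ hv, hA_smul]
    rcases (mem_GammaPM_iff M γ).mp hγ with h1 | h1
    · rw [h1, Matrix.vecMul_one]
    · rw [h1, Matrix.vecMul_neg, Matrix.vecMul_one, hA_neg]
  · have : (fun τ => PsiFun ι M (hVec K M ζ v) (g • τ)) = hA M (v ᵥ* redSL M g) := by
      funext τ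
      rw [PsiFun_hVec hζ hv, hA_smul]
    rw [this]
    exact hA_mem_niceSubring M _

end Fermat.Agent.S48.Full
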