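import Fermat.Agent.S48.Full.ScaleA2

/-!
# S48 / FULL leaf SC-B : the same field read in width `h` and in width `1`

`Γ` (width `h`, variable `t = e^{2πiτ/h}`) and `Γ' = δ⁻¹ Γ δ ∩ SL₂(ℤ)`, `δ = [h 0; 0 1]`
(width `1`): `PsiFun ι 1 a τ = PsiFun ι h a (hτ)`.
All analytic ingredients are in `ScaleA.lean`, `ScaleA2.lean` (black boxes).
-/

set_option autoImplicit false
set_option linter.unusedSectionVars false

open UpperHalfPlane ModularCurve Polynomial Filter Asymptotics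
open scoped MatrixGroups Manifold

noncomputable section

namespace Fermat.Agent.S48.Full

open Fermat.Agent.S24 Fermat.Agent.S24.Degree Fermat.Agent.S24.JLocal Fermat.Agent.GAL

variable {K : Type} [Field K] {ι : K →+* ℂ} {Γ Γ' : Subgroup SL(2, ℤ)} {h : ℕ} [NeZero h]
  {S : Set (LaurentSeries K)}

/-- PROOF. convergence: same. Invariance: `PsiFun ι 1 a (γ • τ) = PsiFun ι h a (mulH h (γ • τ))
= PsiFun ι h a (γ' • mulH h τ)` (`PsiFun_mulH`, `IsScale.mulH_smul`).  Translates: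
`exists_smul_affPt_mulH` and `comp_affPt_mem_niceSubring` applied to
`τ ↦ PsiFun ι h a (γ' • τ)`. -/
theorem goodSub_scale (h1 : ∀ γ ∈ Γ', ∃ γ' ∈ Γ, IsScale h γ γ') {a : LaurentSeries K}
    (ha : a ∈ goodSub K ι Γ h) : a ∈ goodSub K ι Γ' 1 := by
  obtain ⟨hc, hinv, htr⟩ := ha
  refine ⟨hc, fun γ hγ τ => ?_, fun g => ?_⟩
  · obtain ⟨γ', hγ', hs⟩ := h1 γ hγ
    rw [← PsiFun_mulH ι h, ← PsiFun_mulH ι h, hs.mulH_smul, hinv γ' hγ']
  · obtain ⟨γ', a', e, b, ha', he, -, hτ⟩ := exists_smul_affPt_mulH h g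
    have h2 := comp_affPt_mem_niceSubring (htr γ') a' e b ha' he
    convert h2 using 1
    funext τ
    rw [← PsiFun_mulH ι h, hτ]

/-- PROOF. As `goodSub_scale` with `PsiFun_divH`, `IsScale.divH_smul`,
`exists_smul_affPt_divH`. -/
theorem goodSub_unscale (h1 : ∀ γ' ∈ Γ, ∃ γ ∈ Γ', IsScale h γ γ') {a : LaurentSeries K}
    (ha : a ∈ goodSub K ι Γ' 1) : a ∈ goodSub K ι Γ h := by
  obtain ⟨hc, hinv, htr⟩ := ha
  refine ⟨hc, fun γ' hγ' τ => ?_, fun g => ?_⟩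
  · obtain ⟨γ, hγ, hs⟩ := h1 γ' hγ'
    rw [← PsiFun_divH ι h, ← PsiFun_divH ι h, hs.divH_smul, hinv γ hγ]
  · obtain ⟨γ', a', e, b, ha', he, -, hτ⟩ := exists_smul_affPt_divH h g
    have h2 := comp_affPt_mem_niceSubring (htr γ') a' e b ha' he
    convert h2 using 1
    funext τ
    rw [← PsiFun_divH ι h, hτ]

/-- **From width `h` to width `1`.**
PROOF. `fin`: `Set.Finite.insert`. `good`: `goodSub_scale`, `jM_mem_goodSub`. `jmem`: `mem_insert`.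
`sep`: let `g` fix all sums. `jM K h ∈ S` (`H.jmem`) and `PsiFun_one_jM` give
`g ∈ Γ₀(h)` (`S24.mem_Gamma0_of_kleinJ_mulH_smul_eq`); take `g'` with `IsScale h g g'`
(`exists_isScale_of_mem_Gamma0`).  For `s ∈ S` and `τ' = mulH h (divH h τ')`:
`PsiFun ι h s (g' • τ') = PsiFun ι 1 s (g • divH h τ') = PsiFun ι 1 s (divH h τ') = PsiFun ι h s τ'`.
So `g' ∈ Γ` by `H.sep` and `g ∈ Γ'` by `h2`. -/
theorem GenSet.scale (H : GenSet ι Γ h S) (h1 : ∀ γ ∈ Γ', ∃ γ' ∈ Γ, IsScale h γ γ')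
    (h2 : ∀ γ γ', IsScale h γ γ' → γ' ∈ Γ → γ ∈ Γ') :
    GenSet ι Γ' 1 (insert (jM K 1) S) := by
  refine ⟨H.fin.insert _, ?_, Set.mem_insert _ _, ?_⟩
  · rintro s (rfl | hs)
    · exact jM_mem_goodSub ι Γ' 1
    · exact goodSub_scale h1 (H.good hs)
  · intro g hg
    have hg0 : g ∈ CongruenceSubgroup.Gamma0 h := by
      apply S24.mem_Gamma0_of_kleinJ_mulH_smul_eq
      intro τ
      rw [← PsiFun_one_jM ι h, ← PsiFun_one_jM ι h]
      exact hg _ (Set.mem_insert_of_mem _ H.jmem) τ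
    obtain ⟨g', hs⟩ := exists_isScale_of_mem_Gamma0 h hg0
    refine h2 g g' hs (H.sep g' fun s hsS τ' => ?_)
    have e1 : g' • τ' = mulH h (g • divH h τ') := by
      rw [hs.mulH_smul, mulH_divH]
    rw [e1, PsiFun_mulH, hg s (Set.mem_insert_of_mem _ hsS), PsiFun_divH]

/-- **From width `1` to width `h`.**
PROOF. Symmetric: `jM K 1 ∈ S` (`H.jmem`), `PsiFun_jM_one`, `dvd_of_kleinJ_divH_smul_eq`,
`exists_isScale_of_dvd`. -/
theorem GenSet.unscale (H : GenSet ι Γ' 1 S) (hj : jM K h ∈ S)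
    (h1 : ∀ γ' ∈ Γ, ∃ γ ∈ Γ', IsScale h γ γ')
    (h2 : ∀ γ γ', IsScale h γ γ' → γ ∈ Γ' → γ' ∈ Γ) :
    GenSet ι Γ h S := by
  refine ⟨H.fin, fun s hs => goodSub_unscale h1 (H.good hs), hj, ?_⟩
  intro g' hg'
  have hd : (h : ℤ) ∣ g' 0 1 := by
    apply dvd_of_kleinJ_divH_smul_eq h
    intro τ
    rw [← PsiFun_jM_one ι h, ← PsiFun_jM_one ι h]
    exact hg' _ H.jmem τ
  obtain ⟨g, hs⟩ := exists_isScale_of_dvd h hd
  refine h2 g g' hs (H.sep g fun s hsS τ => ?_)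
  have e1 : g • τ = divH h (g' • mulH h τ) := by
    rw [hs.divH_smul, divH_mulH]
  rw [e1, PsiFun_divH, hg' s hsS, PsiFun_mulH]

/-- `j(t)` is good for `(Γ, h)` as soon as `Γ ≤ Γ⁰(h)`.
PROOF. `goodSub_unscale` with `Γ' = ⊤` applied to `jM_mem_goodSub ι ⊤ 1`
(`exists_isScale_of_dvd`). -/
theorem jM_one_mem_goodSub (hΓ : ∀ γ ∈ Γ, (h : ℤ) ∣ γ 0 1) : jM K 1 ∈ goodSub K ι Γ h := by
  refine goodSub_unscale (Γ' := ⊤) (fun γ' hγ' => ?_) (jM_mem_goodSub ι ⊤ 1)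
  obtain ⟨γ, hs⟩ := exists_isScale_of_dvd h (hΓ γ' hγ')
  exact ⟨γ, Subgroup.mem_top γ, hs⟩

/-- Adding `j(t)` to the generators does not change the field. -/
theorem GenSet.FS_insert [Γ.FiniteIndex] [IsAlgClosed K] (H : GenSet ι Γ h S)
    (hΓ : ∀ γ ∈ Γ, (h : ℤ) ∣ γ 0 1) : FS K (insert (jM K 1) S) = FS K S := by
  apply le_antisymm
  · rw [IntermediateField.adjoin_le_iff]
    rintro s (rfl | hs)
    · exact H.goodSub_le (jM_one_mem_goodSub hΓ)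
    · exact IntermediateField.subset_adjoin K S hs
  · exact IntermediateField.adjoin.mono K _ _ (Set.subset_insert _ _)

end Fermat.Agent.S48.Full
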