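import Fermat.Agent.S48.Full.F1Defs
import Fermat.Agent.S48.Full.InstA
import Fermat.Agent.S48.Full.ScaleB

/-!
# S48 / FULL leaf F1-A : `F1C K M` is the field of `± Γ₁(M)` (width `1`, variable `q`)

`gensUp K M = {j(t^M), hSer K M a 1}` generates the field of `± Γ¹(M)` in width `M`
(`PsiFun ι M (hSer K M a 1) = hA M ![a, 0]`), and `GenSet.scale` turns it into the field of
`± Γ₁(M)` in width `1`.
-/

set_option autoImplicit false
set_option linter.unusedSectionVars false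

open UpperHalfPlane ModularCurve Matrix
open scoped MatrixGroups Manifold

noncomputable section

namespace Fermat.Agent.S48.Full

open Fermat.Agent.S24 Fermat.Agent.S24.Degree Fermat.Agent.S24.JLocal Fermat.Agent.GAL

theorem F1A_det_zmod (M : ℕ) (γ : SL(2, ℤ)) :
    ((γ 0 0 : ℤ) : ZMod M) * ((γ 1 1 : ℤ) : ZMod M) -
      ((γ 0 1 : ℤ) : ZMod M) * ((γ 1 0 : ℤ) : ZMod M) = 1 := by
  have h := γ.det_coe
  rw [Matrix.det_fin_two] at h
  have h' := congrArg (fun x : ℤ => (x : ZMod M)) h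
  simpa using h'

/-- `± Γ¹(M) = {γ : (1,0) γ ≡ ± (1,0) mod M}`. -/
def Gamma1up (M : ℕ) : Subgroup SL(2, ℤ) where
  carrier := {γ | ((γ 0 1 : ℤ) : ZMod M) = 0 ∧
    (((γ 0 0 : ℤ) : ZMod M) = 1 ∨ ((γ 0 0 : ℤ) : ZMod M) = -1)}
  one_mem' := by
    refine ⟨by simp, Or.inl (by simp)⟩
  mul_mem' := by
    rintro x y ⟨hx1, hx0⟩ ⟨hy1, hy0⟩
    have e1 : (((x * y) 0 1 : ℤ) : ZMod M) = ((x 0 0 : ℤ) : ZMod M) * ((y 0 1 : ℤ) : ZMod M) +
        ((x 0 1 : ℤ) : ZMod M) * ((y 1 1 : ℤ) : ZMod M) := by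
      rw [Matrix.SpecialLinearGroup.coe_mul, Matrix.mul_apply, Fin.sum_univ_two]
      push_cast
      rfl
    have e0 : (((x * y) 0 0 : ℤ) : ZMod M) = ((x 0 0 : ℤ) : ZMod M) * ((y 0 0 : ℤ) : ZMod M) +
        ((x 0 1 : ℤ) : ZMod M) * ((y 1 0 : ℤ) : ZMod M) := by
      rw [Matrix.SpecialLinearGroup.coe_mul, Matrix.mul_apply, Fin.sum_univ_two]
      push_cast
      rfl
    refine ⟨by rw [e1, hy1, hx1]; ring, ?_⟩
    rw [e0, hx1]
    rcases hx0 with h | h <;> rcases hy0 with h' | h' <;> rw [h, h']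
    · left; ring
    · right; ring
    · right; ring
    · left; ring
  inv_mem' := by
    rintro x ⟨hx1, hx0⟩
    have hdet := F1A_det_zmod M x
    rw [hx1, zero_mul, sub_zero] at hdet
    have e1 : ((x⁻¹ 0 1 : ℤ) : ZMod M) = -((x 0 1 : ℤ) : ZMod M) := by
      rw [Matrix.SpecialLinearGroup.SL2_inv_expl]
      simp
    have e0 : ((x⁻¹ 0 0 : ℤ) : ZMod M) = ((x 1 1 : ℤ) : ZMod M) := by
      rw [Matrix.SpecialLinearGroup.SL2_inv_expl]
      simp
    refine ⟨by rw [e1, hx1, neg_zero], ?_⟩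
    rw [e0]
    rcases hx0 with h | h
    · left
      rw [h, one_mul] at hdet
      exact hdet
    · right
      rw [h] at hdet
      linear_combination -hdet

theorem mem_Gamma1up {M : ℕ} {γ : SL(2, ℤ)} : γ ∈ Gamma1up M ↔ ((γ 0 1 : ℤ) : ZMod M) = 0 ∧
    (((γ 0 0 : ℤ) : ZMod M) = 1 ∨ ((γ 0 0 : ℤ) : ZMod M) = -1) := Iff.rfl

variable {K : Type} [Field K] (ι : K →+* ℂ) (M : ℕ) [NeZero M]

theorem GammaPM_le_Gamma1up : GammaPM M ≤ Gamma1up M := by
  rintro γ (h | h)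
  · rw [CongruenceSubgroup.Gamma_mem] at h
    exact ⟨h.2.1, Or.inl h.1⟩
  · rw [CongruenceSubgroup.Gamma_mem] at h
    obtain ⟨h0, h1, -, -⟩ := h
    simp only [Matrix.SpecialLinearGroup.coe_neg, Matrix.neg_apply, Int.cast_neg] at h0 h1
    exact ⟨neg_eq_zero.1 h1, Or.inr (by rw [← h0, neg_neg])⟩

instance finiteIndex_Gamma1up : (Gamma1up M).FiniteIndex := by
  exact Subgroup.finiteIndex_of_le (GammaPM_le_Gamma1up M)

theorem F1A_GammaPM_le_Gamma1PM : GammaPM M ≤ Gamma1PM M := by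
  have hle : CongruenceSubgroup.Gamma M ≤ CongruenceSubgroup.Gamma1 M := by
    intro γ h
    rw [CongruenceSubgroup.Gamma_mem] at h
    rw [CongruenceSubgroup.Gamma1_mem]
    exact ⟨h.1, h.2.2.2, h.2.2.1⟩
  rintro γ (h | h)
  · exact Or.inl (hle h)
  · exact Or.inr (hle h)

instance finiteIndex_Gamma1PM : (Gamma1PM M).FiniteIndex := by
  exact Subgroup.finiteIndex_of_le (F1A_GammaPM_le_Gamma1PM M)

theorem conj_T_pow_mem_Gamma1PM (g : SL(2, ℤ)) : g * ModularGroup.T ^ M * g⁻¹ ∈ Gamma1PM M := by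
  exact F1A_GammaPM_le_Gamma1PM M (conj_T_pow_mem_GammaPM M g)

theorem neg_one_mem_Gamma1PM : (-1 : SL(2, ℤ)) ∈ Gamma1PM M := by
  refine Or.inr ?_
  rw [neg_neg]
  exact one_mem _

theorem F1A_vecMul (a : ZMod M) (γ : SL(2, ℤ)) :
    (![a, 0] : Fin 2 → ZMod M) ᵥ* redSL M γ =
      ![a * ((γ 0 0 : ℤ) : ZMod M), a * ((γ 0 1 : ℤ) : ZMod M)] := by
  ext i
  fin_cases i <;> simp [WT1.redSL, Matrix.vecMul, dotProduct, Fin.sum_univ_two]

/-- `γ ∈ ± Γ¹(M) ↔ (1,0) γ = ± (1,0)`. -/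
theorem mem_Gamma1up_iff_vecMul (γ : SL(2, ℤ)) : γ ∈ Gamma1up M ↔
    (![1, 0] : Fin 2 → ZMod M) ᵥ* redSL M γ = ![1, 0] ∨
      (![1, 0] : Fin 2 → ZMod M) ᵥ* redSL M γ = -![1, 0] := by
  rw [F1A_vecMul, mem_Gamma1up, one_mul, one_mul]
  constructor
  · rintro ⟨h1, h0 | h0⟩
    · left
      rw [h1, h0]
    · right
      rw [h1, h0]
      ext i
      fin_cases i <;> simp
  · rintro (h | h)
    · have h0 := congrFun h 0
      have h1 := congrFun h 1
      simp only [Matrix.cons_val_zero, Matrix.cons_val_one] at h0 h1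
      exact ⟨h1, Or.inl h0⟩
    · have h0 := congrFun h 0
      have h1 := congrFun h 1
      simp only [Matrix.cons_val_zero, Matrix.cons_val_one, Pi.neg_apply, neg_zero] at h0 h1
      exact ⟨h1, Or.inr h0⟩

theorem F1A_vec_ne_zero {a : ZMod M} (ha : a ≠ 0) : (![a, 0] : Fin 2 → ZMod M) ≠ 0 := by
  intro h
  exact ha (by simpa using congrFun h 0)

theorem F1A_coeffMap_hSer_one {a : ZMod M} (ha : a ≠ 0) :
    coeffMap ι (hSer K M a 1) = hVec ℂ M (zetaC M) ![a, 0] := by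
  rw [coeffMap_hSer ι M a 1 (Or.inl ha), map_one, hVec]
  simp

/-- PROOF. `hSer K M a 1 = hVec K M ζ ![a, 0]` for every `ζ` (`(![a,0] 1).val = 0`, `ζ^0 = 1`);
`coeffMap_hSer ι M a 1 (Or.inl ha)`, `Units.map _ 1 = 1`; `evalAt_hVecC`. -/
theorem PsiFun_hSer_one {a : ZMod M} (ha : a ≠ 0) (τ : ℍ) :
    PsiFun ι M (hSer K M a 1) τ = hA M ![a, 0] τ := by
  rw [PsiFun, F1A_coeffMap_hSer_one ι M ha, evalAt_hVecC M _ (F1A_vec_ne_zero M ha)]

theorem isConv_hSer_one {a : ZMod M} (ha : a ≠ 0) : IsConv (coeffMap ι (hSer K M a 1)) := by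
  rw [F1A_coeffMap_hSer_one ι M ha]
  exact isConv_hVecC M _ (F1A_vec_ne_zero M ha)

/-- PROOF. `fin`: image of the finite type `ZMod M`. `good`: `hA_smul`, for `γ ∈ ± Γ¹(M)`:
`![a,0] ᵥ* redSL M γ = ± ![a,0]`, `hA_neg`; translates: `hA_mem_niceSubring`.
`sep`: if `M = 1` every `γ` is in `Gamma1up 1` (`ZMod 1` is trivial). Otherwise `a = 1 ≠ 0`:
`hA_smul`, `hA_eq_iff`, `mem_Gamma1up_iff_vecMul`. -/
theorem genSet_up : GenSet ι (Gamma1up M) M (gensUp K M) := by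
  refine ⟨?_, ?_, Or.inl rfl, ?_⟩
  · refine Set.Finite.subset
      ((Set.finite_range (fun a : ZMod M => hSer K M a 1)).insert (jM K M)) ?_
    rintro x (rfl | ⟨a, -, rfl⟩)
    · exact Set.mem_insert _ _
    · exact Set.mem_insert_of_mem _ ⟨a, rfl⟩
  · rintro x (rfl | ⟨a, ha, rfl⟩)
    · exact jM_mem_goodSub ι _ M
    · refine ⟨isConv_hSer_one ι M ha, fun γ hγ τ => ?_, fun g => ?_⟩
      · rw [PsiFun_hSer_one ι M ha, PsiFun_hSer_one ι M ha, hA_smul, F1A_vecMul]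
        obtain ⟨h1, h0 | h0⟩ := hγ
        · rw [h1, h0, mul_one, mul_zero]
        · rw [h1, h0, mul_zero]
          have e : (![a * -1, 0] : Fin 2 → ZMod M) = -![a, 0] := by
            ext i
            fin_cases i <;> simp
          rw [e, hA_neg]
      · have e : (fun τ => PsiFun ι M (hSer K M a 1) (g • τ)) =
            hA M ((![a, 0] : Fin 2 → ZMod M) ᵥ* redSL M g) := by
          funext τ
          rw [PsiFun_hSer_one ι M ha, hA_smul]
        rw [e]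
        exact hA_mem_niceSubring M _
  · intro g hg
    by_cases hM : M = 1
    · subst hM
      exact ⟨Subsingleton.elim _ _, Or.inl (Subsingleton.elim _ _)⟩
    · have hM1 : 1 < M := by
        have := NeZero.ne M
        omega
      have : Fact (1 < M) := ⟨hM1⟩
      have h1 : (1 : ZMod M) ≠ 0 := one_ne_zero
      have hfix := hg (hSer K M 1 1) (Or.inr ⟨1, h1, rfl⟩)
      rw [mem_Gamma1up_iff_vecMul]
      refine (hA_eq_iff (F1A_vec_ne_zero M h1)
        (vecMul_redSL_ne_zero (F1A_vec_ne_zero M h1) g)).1 fun τ => ?_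
      have := hfix τ
      rw [PsiFun_hSer_one ι M h1, PsiFun_hSer_one ι M h1, hA_smul] at this
      exact this.symm

/-- scaling `± Γ₁(M)` to `± Γ¹(M)`. -/
theorem exists_isScale_of_mem_Gamma1PM {γ : SL(2, ℤ)} (hγ : γ ∈ Gamma1PM M) :
    ∃ γ' ∈ Gamma1up M, IsScale M γ γ' := by
  have h0 : γ ∈ CongruenceSubgroup.Gamma0 M := by
    rw [CongruenceSubgroup.Gamma0_mem]
    rcases hγ with h | h
    · rw [CongruenceSubgroup.Gamma1_mem] at h
      exact h.2.2
    · rw [CongruenceSubgroup.Gamma1_mem] at h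
      have h2 := h.2.2
      simp only [Matrix.SpecialLinearGroup.coe_neg, Matrix.neg_apply, Int.cast_neg] at h2
      exact neg_eq_zero.1 h2
  obtain ⟨γ', hs⟩ := exists_isScale_of_mem_Gamma0 M h0
  refine ⟨γ', ⟨?_, ?_⟩, hs⟩
  · rw [hs.2.1]
    simp
  · rw [hs.1]
    rcases hγ with h | h
    · rw [CongruenceSubgroup.Gamma1_mem] at h
      exact Or.inl h.1
    · rw [CongruenceSubgroup.Gamma1_mem] at h
      have h2 := h.1
      simp only [Matrix.SpecialLinearGroup.coe_neg, Matrix.neg_apply, Int.cast_neg] at h2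
      exact Or.inr (by rw [← h2, neg_neg])

theorem mem_Gamma1PM_of_isScale {γ γ' : SL(2, ℤ)} (hs : IsScale M γ γ')
    (hγ' : γ' ∈ Gamma1up M) : γ ∈ Gamma1PM M := by
  obtain ⟨-, h00⟩ := hγ'
  rw [hs.1] at h00
  have h10 : ((γ 1 0 : ℤ) : ZMod M) = 0 := by
    rw [← hs.2.2.1]
    simp
  have hdet := F1A_det_zmod M γ
  rw [h10, mul_zero, sub_zero] at hdet
  rcases h00 with h | h
  · left
    rw [CongruenceSubgroup.Gamma1_mem]
    rw [h, one_mul] at hdet
    exact ⟨h, hdet, h10⟩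
  · right
    rw [CongruenceSubgroup.Gamma1_mem]
    simp only [Matrix.SpecialLinearGroup.coe_neg, Matrix.neg_apply, Int.cast_neg]
    rw [h] at hdet
    exact ⟨by rw [h, neg_neg], by linear_combination hdet, by rw [h10, neg_zero]⟩

/-- **`F1C K M = FS K (gens1 K M)` is the function field of `± Γ₁(M)`, variable `q`.** -/
theorem genSet_F1 : GenSet ι (Gamma1PM M) 1 (gens1 K M) := by
  rw [gens1_eq_insert]
  exact (genSet_up ι M).scale (fun _ hγ => exists_isScale_of_mem_Gamma1PM M hγ)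
    (fun _ _ hs hγ' => mem_Gamma1PM_of_isScale M hs hγ')

/-- In width `1`: `hSer K M a 1` is `τ ↦ h_{(a,0)}(Mτ)`. -/
theorem PsiFun_one_hSer_one {a : ZMod M} (ha : a ≠ 0) (τ : ℍ) :
    PsiFun ι 1 (hSer K M a 1) τ = hA M ![a, 0] (mulH M τ) := by
  rw [← PsiFun_mulH ι M, PsiFun_hSer_one ι M ha]

end Fermat.Agent.S48.Full
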