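import Fermat.Agent.S48.Full.Good
import Fermat.Agent.GAL.Tors.Mer

/-!
# S48 / FULL : function fields generated by a finite set of good series (generic layer)

`GenSet ι Γ h S` : `S` is a finite set of good series for `(Γ, h)`, containing `j(t^h)`, which
separates `Γ` (an element of `SL₂(ℤ)` fixing the sums of all elements of `S` lies in `Γ`).

* `FS K S = K(S)`, `AS K S = K[S]` (as a subalgebra of `FS K S`), `PsiA H : AS K S →+* (ℍ → ℂ)`;
* `realisation H : S24.EmbedPoint.Realisation K (AS K S) Γ`: all the abstract layers of S24 and of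
  `GAL/Tors/Dict` apply.
-/

set_option autoImplicit false
set_option linter.unusedSectionVars false

open UpperHalfPlane ModularCurve Polynomial AlgebraicCurve
open scoped MatrixGroups Manifold

noncomputable section

namespace Fermat.Agent.S48.Full

open Fermat.Agent.S24 Fermat.Agent.S24.Degree Fermat.Agent.S24.JLocal Fermat.Agent.GAL
  Fermat.Agent.S24.EmbedPoint Fermat.Agent.GAL.Tors

variable {K : Type} [Field K] (ι : K →+* ℂ) (Γ : Subgroup SL(2, ℤ)) (h : ℕ) [NeZero h]
  (S : Set (LaurentSeries K))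

/-- A finite generating set of good series, separating `Γ`. -/
structure GenSet : Prop where
  fin : S.Finite
  good : S ⊆ goodSub K ι Γ h
  jmem : jM K h ∈ S
  sep : ∀ g : SL(2, ℤ), (∀ s ∈ S, ∀ τ, PsiFun ι h s (g • τ) = PsiFun ι h s τ) → g ∈ Γ

variable (K) in
/-- `K(S)`. -/
abbrev FS : IntermediateField K (LaurentSeries K) := IntermediateField.adjoin K S

variable (K) in
/-- `K[S]`, as a subalgebra of `K(S)`. -/
def AS : Subalgebra K (FS K S) := (Algebra.adjoin K S).comap (FS K S).val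

theorem mem_AS {x : FS K S} : x ∈ AS K S ↔ (x : LaurentSeries K) ∈ Algebra.adjoin K S := Iff.rfl

theorem exists_div_AS (x : FS K S) : ∃ a ∈ AS K S, ∃ s ∈ AS K S, s ≠ 0 ∧ x = a / s := by
  have hle : Algebra.adjoin K S ≤ (FS K S).toSubalgebra :=
    IntermediateField.algebra_adjoin_le_adjoin K S
  have hx : (x : LaurentSeries K) ∈ IntermediateField.adjoin K S := x.2
  rw [IntermediateField.mem_adjoin_iff_div] at hx
  obtain ⟨a, ha, b, hb, hxab⟩ := hx
  by_cases h0 : b = 0
  · refine ⟨0, zero_mem _, 1, one_mem _, one_ne_zero, ?_⟩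
    apply Subtype.ext
    rw [hxab, h0]
    simp
  · refine ⟨⟨a, hle ha⟩, ha, ⟨b, hle hb⟩, hb, ?_, ?_⟩
    · intro h
      exact h0 (congrArg Subtype.val h)
    · apply Subtype.ext
      rw [hxab]
      rfl

instance isFractionRing_AS : IsFractionRing (AS K S) (FS K S) := by
  refine IsFractionRing.of_field (AS K S) (FS K S) fun x => ?_
  obtain ⟨a, ha, s, hs, _, hx⟩ := exists_div_AS S x
  exact ⟨⟨a, ha⟩, ⟨s, hs⟩, hx⟩

variable {ι Γ h S}

namespace GenSet

variable (H : GenSet ι Γ h S)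
include H

theorem adjoin_le : Algebra.adjoin K S ≤ goodSub K ι Γ h := Algebra.adjoin_le H.good

theorem good_coe (x : AS K S) : ((x : FS K S) : LaurentSeries K) ∈ goodSub K ι Γ h :=
  H.adjoin_le x.2

theorem isConv_coe (x : AS K S) : IsConv (coeffMap ι ((x : FS K S) : LaurentSeries K)) :=
  (H.good_coe x).1

/-- The realisation of `K[S]` by holomorphic functions. -/
def PsiA : AS K S →+* (ℍ → ℂ) where
  toFun x := PsiFun ι h ((x : FS K S) : LaurentSeries K)
  map_one' := by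
    funext τ
    have := PsiFun_algebraMap ι h (1 : K) τ
    simpa using this
  map_mul' x y := by
    funext τ
    exact PsiFun_mul (H.isConv_coe x) (H.isConv_coe y) τ
  map_zero' := by
    funext τ
    have := PsiFun_algebraMap ι h (0 : K) τ
    simpa using this
  map_add' x y := by
    funext τ
    exact PsiFun_add (H.isConv_coe x) (H.isConv_coe y) τ

theorem PsiA_apply (x : AS K S) (τ : ℍ) :
    H.PsiA x τ = PsiFun ι h ((x : FS K S) : LaurentSeries K) τ := rfl

theorem PsiA_injective : Function.Injective H.PsiA := by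
  intro x y hxy
  apply Subtype.ext
  apply Subtype.ext
  exact eq_of_PsiFun_eq ι h (H.isConv_coe x) (H.isConv_coe y) fun τ => congrFun hxy τ

theorem PsiA_algebraMap (c : K) (τ : ℍ) : H.PsiA (algebraMap K (AS K S) c) τ = ι c :=
  PsiFun_algebraMap ι h c τ

theorem mdifferentiable_PsiA (x : AS K S) : MDiff (H.PsiA x) :=
  mdifferentiable_PsiFun ι h (H.isConv_coe x)

theorem PsiA_smul (γ : SL(2, ℤ)) (hγ : γ ∈ Γ) (x : AS K S) (τ : ℍ) :
    H.PsiA x (γ • τ) = H.PsiA x τ := (H.good_coe x).2.1 γ hγ τ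

/-- `j` as an element of `K(S)`. -/
def jF : FS K S := ⟨jM K h, IntermediateField.subset_adjoin K S H.jmem⟩

/-- `j` as an element of `K[S]`. -/
def jA : AS K S := ⟨H.jF, Algebra.subset_adjoin H.jmem⟩

theorem PsiA_jA (τ : ℍ) : H.PsiA H.jA τ = kleinJ τ := PsiFun_jM ι h τ

/-- the subspace of the elements of `K[S]` fixed by `g`. -/
def GenSet_fixSub (g : SL(2, ℤ)) : Submodule K (AS K S) where
  carrier := {a | ∀ τ, H.PsiA a (g • τ) = H.PsiA a τ}
  add_mem' := by
    intro a b ha hb τ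
    rw [map_add, Pi.add_apply, Pi.add_apply, ha τ, hb τ]
  zero_mem' := by
    intro τ
    rw [map_zero]
    rfl
  smul_mem' := by
    intro c a ha τ
    rw [Algebra.smul_def, map_mul, Pi.mul_apply, Pi.mul_apply, H.PsiA_algebraMap,
      H.PsiA_algebraMap, ha τ]

theorem GenSet_mem_fixSub {g : SL(2, ℤ)} {a : AS K S} :
    a ∈ H.GenSet_fixSub g ↔ ∀ τ, H.PsiA a (g • τ) = H.PsiA a τ := Iff.rfl

theorem GenSet_fixSub_mul {γ : SL(2, ℤ)} (hγ : γ ∈ Γ) (g : SL(2, ℤ)) :
    H.GenSet_fixSub (γ * g) = H.GenSet_fixSub g := by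
  ext a
  rw [GenSet_mem_fixSub, GenSet_mem_fixSub]
  refine forall_congr' fun τ => ?_
  rw [mul_smul, H.PsiA_smul γ hγ]

theorem GenSet_mem_of_fixSub_eq_top {g : SL(2, ℤ)} (hg : H.GenSet_fixSub g = ⊤) : g ∈ Γ := by
  apply H.sep g
  intro s hs τ
  have hmem : (⟨⟨s, IntermediateField.subset_adjoin K S hs⟩, Algebra.subset_adjoin hs⟩ : AS K S) ∈
      H.GenSet_fixSub g := by
    rw [hg]; trivial
  exact hmem τ

/-- (GS1) a single element of `K[S]` separates `Γ` (finite union of proper subspaces). -/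
theorem exists_sep [Γ.FiniteIndex] :
    ∃ a : AS K S, ∀ g : SL(2, ℤ), (∀ τ, H.PsiA a (g • τ) = H.PsiA a τ) → g ∈ Γ := by
  have : CharZero K := ι.charZero
  let f : SL(2, ℤ) ⧸ Γ → Submodule K (AS K S) := fun q => H.GenSet_fixSub (Quotient.out q)⁻¹
  have hf : ∀ g : SL(2, ℤ), H.GenSet_fixSub g = f (QuotientGroup.mk g⁻¹) := by
    intro g
    obtain ⟨γ, hγ⟩ := QuotientGroup.mk_out_eq_mul Γ g⁻¹
    show _ = H.GenSet_fixSub (Quotient.out (QuotientGroup.mk g⁻¹ : SL(2, ℤ) ⧸ Γ))⁻¹
    rw [hγ, mul_inv_rev, inv_inv, H.GenSet_fixSub_mul (Γ.inv_mem γ.2)]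
  have hne : ⋃ i : {q : SL(2, ℤ) ⧸ Γ // f q ≠ ⊤}, ((f i.1 : Submodule K (AS K S)) : Set (AS K S)) ≠
      Set.univ := by
    intro hcov
    obtain ⟨i, hi⟩ := Subspace.exists_eq_top_of_iUnion_eq_univ
      (p := fun i : {q : SL(2, ℤ) ⧸ Γ // f q ≠ ⊤} => f i.1) hcov
    exact i.2 hi
  obtain ⟨a, ha⟩ := (Set.ne_univ_iff_exists_notMem _).mp hne
  refine ⟨a, fun g hg => ?_⟩
  by_contra hgΓ
  apply ha
  have htop : f (QuotientGroup.mk g⁻¹) ≠ ⊤ := by
    rw [← hf g]
    exact fun h => hgΓ (H.GenSet_mem_of_fixSub_eq_top h)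
  refine Set.mem_iUnion.mpr ⟨⟨_, htop⟩, ?_⟩
  show a ∈ f (QuotientGroup.mk g⁻¹)
  rw [← hf g]
  exact hg

/-- **The realisation.** -/
def realisation [Γ.FiniteIndex] : Realisation K (AS K S) Γ where
  Ψ := H.PsiA
  inj := H.PsiA_injective
  inv γ hγ a τ := H.PsiA_smul γ hγ a τ
  hol := H.mdifferentiable_PsiA
  ι := ι
  const := H.PsiA_algebraMap
  jA := H.jA
  hjA := H.PsiA_jA
  aN := H.exists_sep.choose
  haN := H.exists_sep.choose_spec

theorem transcendental_jF : Transcendental K H.jF := by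
  intro hh
  exact transcendental_jM h (hh.algebraMap (A := LaurentSeries K))

end GenSet

end Fermat.Agent.S48.Full
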