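import Fermat.Agent.S48.Full.Defs
import Fermat.Agent.GAL.Tors.Dict.Conc
import Fermat.Prelude.Sol.S_ModularCurve_coeff_jqModC_neg_one

/-!
# S48 / FULL : "good series" for a general group `Γ ≤ SL₂(ℤ)` and a general width `h`

Generic version (group `Γ`, local parameter `t = e^{2πiτ/h}`) of `GAL/Tors/Dict/{Psi,Degree}`
(which is the case `Γ = Γ₀(N)`, `h = 1`).  Every proof is a port of the corresponding proof there:
replace `𝕢 τ = Periodic.qParam 1 τ` by `tq h τ = Periodic.qParam h τ` and `Gamma0 N` by `Γ`.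
-/

set_option autoImplicit false
set_option linter.unusedSectionVars false

open UpperHalfPlane ModularCurve Polynomial Filter Asymptotics
open scoped MatrixGroups Manifold

noncomputable section

namespace Fermat.Agent.S48.Full

open Fermat.Agent.S24 Fermat.Agent.S24.Degree Fermat.Agent.S24.JLocal Fermat.Agent.GAL

/-- The local parameter `t = e^{2πiτ/h}`. -/
def tq (h : ℕ) (τ : ℍ) : ℂ := Function.Periodic.qParam (h : ℝ) (τ : ℂ)

theorem tq_ne_zero (h : ℕ) (τ : ℍ) : tq h τ ≠ 0 := Function.Periodic.qParam_ne_zero _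

theorem norm_tq_lt_one (h : ℕ) [NeZero h] (τ : ℍ) : ‖tq h τ‖ < 1 :=
  Function.Periodic.norm_qParam_lt_one (by exact_mod_cast (NeZero.pos h)) τ.im_pos

theorem exists_tq_eq (h : ℕ) [NeZero h] {q : ℂ} (hq : q ≠ 0) (hq1 : ‖q‖ < 1) :
    ∃ τ : ℍ, tq h τ = q := by
  have hh : (0 : ℝ) < (h : ℝ) := by exact_mod_cast (NeZero.pos h)
  exact ⟨⟨Function.Periodic.invQParam h q,
    Function.Periodic.im_invQParam_pos_of_norm_lt_one hh hq1 hq⟩,
    Function.Periodic.qParam_right_inv hh.ne' hq⟩

theorem tq_pow (h : ℕ) [NeZero h] (τ : ℍ) : tq h τ ^ h = Function.Periodic.qParam 1 (τ : ℂ) := by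
  have hh : (h : ℂ) ≠ 0 := by exact_mod_cast (NeZero.ne h)
  simp only [tq, Function.Periodic.qParam]
  rw [← Complex.exp_nat_mul]
  congr 1
  simp only [Complex.ofReal_one, div_one, Complex.ofReal_natCast]
  field_simp

variable {K : Type} [Field K] (ι : K →+* ℂ) (Γ : Subgroup SL(2, ℤ)) (h : ℕ) [NeZero h]

/-- The analytic function attached to a formal series in `t` with coefficients in `K`. -/
def PsiFun (a : LaurentSeries K) (τ : ℍ) : ℂ := evalAt (tq h τ) (coeffMap ι a)

variable {ι h} in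
theorem PsiFun_add {a b : LaurentSeries K} (ha : IsConv (coeffMap ι a))
    (hb : IsConv (coeffMap ι b)) (τ : ℍ) :
    PsiFun ι h (a + b) τ = PsiFun ι h a τ + PsiFun ι h b τ := by
  rw [PsiFun, map_add, evalAt_add ha hb (tq_ne_zero h τ) (norm_tq_lt_one h τ)]; rfl

variable {ι h} in
theorem PsiFun_mul {a b : LaurentSeries K} (ha : IsConv (coeffMap ι a))
    (hb : IsConv (coeffMap ι b)) (τ : ℍ) :
    PsiFun ι h (a * b) τ = PsiFun ι h a τ * PsiFun ι h b τ := by
  rw [PsiFun, map_mul, evalAt_mul ha hb (tq_ne_zero h τ) (norm_tq_lt_one h τ)]; rfl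

theorem PsiFun_algebraMap (c : K) (τ : ℍ) :
    PsiFun ι h (algebraMap K (LaurentSeries K) c) τ = ι c := by
  rw [PsiFun, JRational.coeffMap_algebraMap', evalAt_algebraMap]

/-- (G1) a convergent series is determined by its sum. -/
theorem eq_of_PsiFun_eq {a b : LaurentSeries K} (ha : IsConv (coeffMap ι a))
    (hb : IsConv (coeffMap ι b)) (hab : ∀ τ, PsiFun ι h a τ = PsiFun ι h b τ) : a = b := by
  have hinj : Function.Injective (coeffMap ι) := by
    intro x y hxy
    ext n
    have := congrArg (fun z => z.coeff n) hxy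
    simpa using ι.injective this
  apply hinj
  refine eq_of_evalAt_eq ha hb fun q hq hq1 => ?_
  obtain ⟨τ, rfl⟩ := exists_tq_eq h hq hq1
  exact hab τ

/-- (G1') the sum of a convergent series is holomorphic. -/
theorem mdifferentiable_PsiFun {a : LaurentSeries K} (ha : IsConv (coeffMap ι a)) :
    MDiff (PsiFun ι h a) := by
  have hh : (0 : ℝ) < (h : ℝ) := by exact_mod_cast (NeZero.pos h)
  rw [UpperHalfPlane.mdifferentiable_iff]
  have h1 : DifferentiableOn ℂ
      ((fun q => evalAt q (coeffMap ι a)) ∘ (Function.Periodic.qParam (h : ℝ))) {z | 0 < z.im} := by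
    refine (IsConv.differentiableOn ha).comp (by
      intro z _
      exact (Function.Periodic.differentiable_qParam z).differentiableWithinAt) ?_
    intro z hz
    refine ⟨?_, Function.Periodic.qParam_ne_zero _⟩
    simpa using Function.Periodic.norm_qParam_lt_one hh hz
  refine h1.congr fun z hz => ?_
  simp only [Function.comp_apply, PsiFun, tq, ofComplex_apply_of_im_pos hz]

variable (K) in
/-- The series in `t` which converge, whose sum is `Γ`-invariant and all of whose translates are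
holomorphic with moderate growth. -/
def goodSub : Subalgebra K (LaurentSeries K) where
  carrier := {a | IsConv (coeffMap ι a) ∧
    (∀ γ ∈ Γ, ∀ τ, PsiFun ι h a (γ • τ) = PsiFun ι h a τ) ∧
    ∀ g : SL(2, ℤ), (fun τ => PsiFun ι h a (g • τ)) ∈ niceSubring}
  mul_mem' := by
    rintro a b ⟨ha, ha2, ha3⟩ ⟨hb, hb2, hb3⟩
    refine ⟨by rw [map_mul]; exact ha.mul hb, fun γ hγ τ => ?_, fun g => ?_⟩
    · rw [PsiFun_mul ha hb, PsiFun_mul ha hb, ha2 γ hγ, hb2 γ hγ]
    · have := niceSubring.mul_mem (ha3 g) (hb3 g)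
      convert this using 1
      funext τ
      exact PsiFun_mul ha hb _
  add_mem' := by
    rintro a b ⟨ha, ha2, ha3⟩ ⟨hb, hb2, hb3⟩
    refine ⟨by rw [map_add]; exact ha.add hb, fun γ hγ τ => ?_, fun g => ?_⟩
    · rw [PsiFun_add ha hb, PsiFun_add ha hb, ha2 γ hγ, hb2 γ hγ]
    · have := niceSubring.add_mem (ha3 g) (hb3 g)
      convert this using 1
      funext τ
      exact PsiFun_add ha hb _
  algebraMap_mem' := by
    intro c
    refine ⟨by rw [JRational.coeffMap_algebraMap']; exact isConv_algebraMap _, fun γ _ τ => ?_,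
      fun g => ?_⟩
    · rw [PsiFun_algebraMap, PsiFun_algebraMap]
    · simp only [PsiFun_algebraMap]
      exact const_mem_niceSubring _

theorem goodSub_mono {Γ Γ' : Subgroup SL(2, ℤ)} (hΓ : Γ' ≤ Γ) :
    goodSub K ι Γ h ≤ goodSub K ι Γ' h :=
  fun _ ha => ⟨ha.1, fun γ hγ τ => ha.2.1 γ (hΓ hγ) τ, ha.2.2⟩

/-- (G3) `j(t^h)` converges to Klein's `j`. -/
theorem Good_coeffMap_jM : coeffMap ι (jM K h) = qExpand ℂ h jqC := by
  rw [jM, ModularCurve.coeffMap_qExpand, coeffMap_jqModC, jqC, ← jqModC_rat, coeffMap_jqModC]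

theorem isConv_jM : IsConv (coeffMap ι (jM K h)) := by
  rw [Good_coeffMap_jM]
  exact isConv_jqC.qExpand h

theorem PsiFun_jM (τ : ℍ) : PsiFun ι h (jM K h) τ = kleinJ τ := by
  rw [PsiFun, Good_coeffMap_jM, evalAt_qExpand, tq_pow, evalAt_jqC]

theorem Good_Jd_one (τ : ℍ) : Jd 1 τ = kleinJ τ := by
  rw [Jd]
  congr 1
  rw [Nat.cast_one, one_mul, ofComplex_apply]

theorem jM_mem_goodSub : jM K h ∈ goodSub K ι Γ h := by
  refine ⟨isConv_jM ι h, fun γ _ τ => ?_, fun g => ?_⟩
  · rw [PsiFun_jM, PsiFun_jM, kleinJ_smul]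
  · simp only [PsiFun_jM, ← Good_Jd_one]
    exact ⟨mdifferentiable_Jd_smul 1 one_ne_zero g, 1, isBigO_Jd_smul 1 one_ne_zero g⟩

/-- (G4) -/
theorem transcendental_jM : Transcendental K (jM K h) := by
  let f : LaurentSeries K →ₐ[K] LaurentSeries K :=
    { qExpand K h with
      commutes' := fun r => by
        show qExpand K h (algebraMap K (LaurentSeries K) r) = algebraMap K (LaurentSeries K) r
        rw [algebraMap_laurentSeries_eq_single, qExpand_single, mul_zero] }
  have hf : Function.Injective f := qExpand_injective h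
  have h1 : Transcendental K (jqModC K) :=
    P2MW.S_ModularCurve_coeff_jqModC_neg_one.ModularCurve.CharLRows.transcendental_jqModC K
  intro h2
  exact h1 ((isAlgebraic_algHom_iff f hf).1 h2)

end Fermat.Agent.S48.Full
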