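import Fermat.Agent.S48.Full.Eis4Defs
import Fermat.Agent.S24.JLaurent
import Fermat.Agent.S28.BMono

/-!
# S48 / FULL leaf E5 : `wFac ℂ = E₄²/Δ` converges to `E₄²/Δ`

Same proof as `S24.isConv_jqC`, `S24.evalAt_jqC` (`S24/JLaurent.lean`, `S24/JBridge.lean`:
`qExpansion_E₄`, `qExpansion_discriminant`, `taylor0_jNumFn`) with `E₄²` instead of `E₄³`.
-/

set_option autoImplicit false
set_option linter.unusedSectionVars false

open UpperHalfPlane ModularCurve Matrix ModularForm EisensteinSeries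
open scoped MatrixGroups Manifold Real

noncomputable section

namespace Fermat.Agent.S48.Full

open Fermat.Agent.S24 Fermat.Agent.S24.Degree Fermat.Agent.GAL.Tors.TwistedEis

local notation "Δ" => ModularForm.discriminant

variable (M : ℕ) [NeZero M]

/-- the holomorphic function `q * E₄² / Δ` on the unit disc. -/
def WFac_numFn (q : ℂ) : ℂ := cuspFunction 1 E₄ q ^ 2 / eulerFn q ^ 24

theorem WFac_differentiableOn_numFn : DifferentiableOn ℂ WFac_numFn (Metric.ball 0 1) :=
  (differentiableOn_cuspFunction_E₄.pow 2).div (differentiableOn_eulerFn.pow 24)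
    fun q hq => pow_ne_zero 24 (eulerFn_ne_zero (by simpa using hq))

open Filter Topology in
theorem WFac_taylor0_numFn : taylor0 WFac_numFn =
    (eisenstein4 ^ 2 * dedekindEtaUnitInv).map (Int.castRingHom ℂ) := by
  have hball : Metric.ball (0 : ℂ) 1 ∈ 𝓝 (0 : ℂ) := Metric.ball_mem_nhds 0 one_pos
  have hJ : AnalyticAt ℂ WFac_numFn 0 := WFac_differentiableOn_numFn.analyticAt hball
  have hE : AnalyticAt ℂ (cuspFunction 1 E₄) 0 := differentiableOn_cuspFunction_E₄.analyticAt hball
  have h1 : WFac_numFn * eulerFn ^ 24 =ᶠ[𝓝 0] (cuspFunction 1 E₄) ^ 2 := by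
    filter_upwards [hball] with q hq
    simp only [Pi.mul_apply, Pi.pow_apply, WFac_numFn]
    rw [div_mul_cancel₀ _ (pow_ne_zero 24 (eulerFn_ne_zero (by simpa using hq)))]
  have h2 := taylor0_congr h1
  rw [taylor0_mul hJ (analyticAt_eulerFn.pow 24), taylor0_pow analyticAt_eulerFn, taylor0_eulerFn,
    taylor0_pow hE] at h2
  have h3 : taylor0 (cuspFunction 1 E₄) = qExpansion 1 E₄ := rfl
  rw [h3, qExpansion_E₄, ← map_pow, ← map_pow] at h2
  have h4 : (ModularCurve.dedekindEtaUnit.map (Int.castRingHom ℂ)) *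
      (ModularCurve.dedekindEtaUnitInv.map (Int.castRingHom ℂ)) = 1 := by
    rw [← map_mul, ModularCurve.dedekindEtaUnit_mul_inv, map_one]
  rw [map_mul, ← h2, ← ModularCurve.dedekindEtaUnit, mul_assoc, h4, mul_one]

theorem WFac_eq (Λ : Type*) [CommRing Λ] : wFac Λ = HahnSeries.single (-1 : ℤ) 1 *
    HahnSeries.ofPowerSeries ℤ Λ ((eisenstein4 ^ 2 * dedekindEtaUnitInv).map
      (Int.castRingHom Λ)) := by
  rw [wFac, S28.DlLinv, map_mul, map_mul]
  ring

theorem WFac_eq_taylor : wFac ℂ = HahnSeries.single (-1 : ℤ) 1 *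
    HahnSeries.ofPowerSeries ℤ ℂ (taylor0 WFac_numFn) := by
  rw [WFac_eq, WFac_taylor0_numFn]

theorem isConv_wFac : IsConv (wFac ℂ) := by
  rw [WFac_eq_taylor]
  exact (isConv_single _ _).mul (isConv_taylor0 WFac_differentiableOn_numFn)

theorem evalAt_wFac (τ : ℍ) :
    evalAt (Function.Periodic.qParam 1 (τ : ℂ)) (wFac ℂ) = E₄ τ ^ 2 / Δ τ := by
  have hq : Function.Periodic.qParam 1 (τ : ℂ) ≠ 0 := Function.Periodic.qParam_ne_zero _
  have hq1 : ‖Function.Periodic.qParam 1 (τ : ℂ)‖ < 1 :=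
    Function.Periodic.norm_qParam_lt_one one_pos τ.im_pos
  rw [WFac_eq_taylor,
    evalAt_mul (isConv_single _ _) (isConv_taylor0 WFac_differentiableOn_numFn) hq hq1,
    evalAt_single, evalAt_taylor0 WFac_differentiableOn_numFn hq1, WFac_numFn]
  have h1 : cuspFunction 1 E₄ (Function.Periodic.qParam 1 τ) = E₄ τ :=
    SlashInvariantFormClass.eq_cuspFunction E₄ τ (by simp) one_ne_zero
  have h2 : ModularForm.discriminant τ = Function.Periodic.qParam 1 τ *
      eulerFn (Function.Periodic.qParam 1 τ) ^ 24 := by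
    rw [discriminant_eq_q_prod, eulerFn, (multipliable_one_sub_pow hq1).tprod_pow]
  have h3 : eulerFn (Function.Periodic.qParam 1 (τ : ℂ)) ≠ 0 := eulerFn_ne_zero hq1
  rw [h1, h2]
  simp only [_root_.zpow_neg, _root_.zpow_one, one_mul]
  field_simp

theorem wFac_ne_zero (Λ : Type*) [CommRing Λ] [Nontrivial Λ] : wFac Λ ≠ 0 := by
  have h : S28.IsMono (wFac Λ) (-1) 1 := by
    refine ⟨(eisenstein4 ^ 2 * dedekindEtaUnitInv).map (Int.castRingHom Λ), ?_, WFac_eq Λ⟩
    rw [← PowerSeries.coeff_zero_eq_constantCoeff_apply, PowerSeries.coeff_map,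
      PowerSeries.coeff_zero_eq_constantCoeff_apply, map_mul, map_pow,
      constantCoeff_eisenstein4, constantCoeff_dedekindEtaUnitInv]
    simp
  intro h0
  have h1 := h.coeff_self
  rw [h0] at h1
  simp at h1

end Fermat.Agent.S48.Full
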