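import Fermat.Agent.S48.Full.Eis4Exp
import Fermat.Agent.S48.Full.WFac

/-!
# S48 / FULL leaf E6 : `hVec ℂ M ζ_M v` converges to `hA M v`

`hasSum_G4` + `S24.hasSum_ofPowerSeries_iff` + `exists_tq_eq` give `IsConv (ofPowerSeries (eSer ..))` and
its value; `IsConv.qExpand`, `evalAt_qExpand`, `tq_pow`, `isConv_wFac`, `evalAt_wFac` the other factor.
-/

set_option autoImplicit false
set_option linter.unusedSectionVars false

open UpperHalfPlane ModularCurve Matrix ModularForm EisensteinSeries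
open scoped MatrixGroups Manifold Real

noncomputable section

namespace Fermat.Agent.S48.Full

open Fermat.Agent.S24 Fermat.Agent.S24.Degree Fermat.Agent.GAL.Tors.TwistedEis

local notation "Δ" => ModularForm.discriminant

variable (M : ℕ) [NeZero M]

theorem HVecC_isConv_eSer (v : Fin 2 → ZMod M) (hv : v ≠ 0) :
    IsConv (HahnSeries.ofPowerSeries ℤ ℂ (eSer ℂ M (v 0) (zetaC M ^ (v 1).val))) := by
  intro q hq hq1
  obtain ⟨τ, rfl⟩ := exists_tq_eq M hq hq1
  exact ((hasSum_ofPowerSeries_iff _ _ _).mp (hasSum_G4 M v hv τ)).summable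

theorem HVecC_evalAt_eSer (v : Fin 2 → ZMod M) (hv : v ≠ 0) (τ : ℍ) :
    evalAt (tq M τ) (HahnSeries.ofPowerSeries ℤ ℂ (eSer ℂ M (v 0) (zetaC M ^ (v 1).val))) =
      G4 M v τ / cM M :=
  ((hasSum_ofPowerSeries_iff _ _ _).mp (hasSum_G4 M v hv τ)).tsum_eq

theorem isConv_hVecC (v : Fin 2 → ZMod M) (hv : v ≠ 0) : IsConv (hVec ℂ M (zetaC M) v) :=
  (HVecC_isConv_eSer M v hv).mul (isConv_wFac.qExpand M)

theorem evalAt_hVecC (v : Fin 2 → ZMod M) (hv : v ≠ 0) (τ : ℍ) :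
    evalAt (tq M τ) (hVec ℂ M (zetaC M) v) = hA M v τ := by
  rw [hVec, hSer, evalAt_mul (HVecC_isConv_eSer M v hv) (isConv_wFac.qExpand M) (tq_ne_zero M τ)
    (norm_tq_lt_one M τ), HVecC_evalAt_eSer M v hv τ, evalAt_qExpand, tq_pow, evalAt_wFac, hA]

end Fermat.Agent.S48.Full
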