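import Fermat.Agent.S48.Full.InjDownA

/-!
# S48 / FULL leaf INJ-B : `StmtInjFull M → StmtInj1 M`
-/

set_option autoImplicit false
set_option linter.unusedSectionVars false

open UpperHalfPlane ModularCurve Matrix AlgebraicCurve
open scoped MatrixGroups Manifold

noncomputable section

namespace Fermat.Agent.S48.Full

open Fermat.Agent.S24 Fermat.Agent.GAL Fermat.Agent.GAL.Tors.Dict

variable {K : Type} [Field K] [IsAlgClosed K] [CharZero K] (ι : K →+* ℂ) (M : ℕ) [NeZero M]

/-- (aux.) an `m`-th root of unity in an extension field of an algebraically closed field is a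
constant. -/
theorem InjDown_exists_const {E : Type*} [Field E] [Algebra K E] {m : ℕ} (hm : m ≠ 0) {x : E}
    (hx : x ^ m = 1) : ∃ ξ : K, algebraMap K E ξ = x := by
  have hint : IsIntegral K x :=
    IsIntegral.of_pow (Nat.pos_of_ne_zero hm) (by rw [hx]; exact isIntegral_one)
  have hdeg := IsAlgClosed.degree_eq_one_of_irreducible K (minpoly.irreducible hint)
  exact minpoly.mem_range_of_degree_eq_one K x hdeg

/-- (D3) PROOF. By `mem_F1C_of_fixed_L` it suffices that `actFull L w = w`.  `(actFull L w)^m =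
actFull L (incl1 u) = incl1 u = w^m`, so `actFull L w = ξ w` with `ξ ∈ K`, `ξ^m = 1` (the ratio is
an `m`-th root of unity of the field `FS K _`; all of them are constants since `K` is algebraically
closed: `X^m - 1` splits in `K`; or: `ξ' := actFull L w / w` is algebraic over `K` inside
`K((t))`...).  Put `w' = actFull S w`.  `actFull T⁻¹ w' = actFull S (actFull L w) = ξ w'`
(`S_mul_matL`), i.e. `S28.twist ζ w' = ξ w'`: at `n₀ = order w'`: `ζ^{n₀} = ξ`.
`m * n₀ = order (w'^m) = order (cuspZero u) = M * e * v.ord u` and `m ∣ v.ord u`, so `M ∣ n₀`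
(cancel `m ≠ 0`) and `ξ = 1`. -/
theorem mem_F1C_of_pow_eq (m : ℕ) (hm : m ≠ 0) (u : F1C K M) (hu : u ≠ 0)
    (hdiv : ∀ v : Place K (F1C K M), (m : ℤ) ∣ v.ord u)
    (w : FS K (gensC K M)) (hw : w ^ m = incl1 ι M u) : (w : LaurentSeries K) ∈ F1C K M := by
  apply mem_F1C_of_fixed_L ι M w
  change actFull ι M matL w = w
  have hiu : incl1 ι M u ≠ 0 := (map_ne_zero_iff _ (incl1 ι M).injective).2 hu
  have hw0 : w ≠ 0 := by
    rintro rfl
    rw [zero_pow hm] at hw
    exact hiu hw.symm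
  -- `incl1 u` is fixed by `L`
  have hfix : actFull ι M matL (incl1 ι M u) = incl1 ι M u :=
    (mem_F1C_iff_fixed ι M (incl1 ι M u)).1 (by rw [coe_incl1]; exact u.2) matL
      (matL_mem_Gamma1up M)
  have hpow : (actFull ι M matL w / w) ^ m = 1 := by
    rw [div_pow, ← map_pow, hw, hfix, div_self hiu]
  obtain ⟨ξ, hξ⟩ := InjDown_exists_const (K := K) hm hpow
  have hσw : actFull ι M matL w = algebraMap K _ ξ * w := by
    rw [hξ, div_mul_cancel₀ _ hw0]
  -- transport to the cusp `0`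
  set w' := actFull ι M ModularGroup.S w with hw'
  have hw'0 : w' ≠ 0 := (map_ne_zero_iff _ (actFull ι M ModularGroup.S).injective).2 hw0
  have hTS : ModularGroup.T⁻¹ * ModularGroup.S = ModularGroup.S * matL := by
    rw [← S_mul_matL, inv_mul_cancel_right]
  have hT : actFull ι M ModularGroup.T⁻¹ w' = algebraMap K _ ξ * w' := by
    rw [hw', ← AlgEquiv.mul_apply, ← map_mul, hTS, map_mul, AlgEquiv.mul_apply, hσw, map_mul,
      AlgEquiv.commutes]
  obtain ⟨ζ, hζ⟩ := exists_isZeta ι M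
  have htw : S28.twist ζ (w' : LaurentSeries K) = HahnSeries.C ξ * (w' : LaurentSeries K) := by
    rw [← coe_actFull_T_inv ι M hζ, hT, MulMemClass.coe_mul, IntermediateField.coe_algebraMap_apply,
      algebraMap_laurentSeries_eq_single, HahnSeries.C_apply]
  have hw'L : (w' : LaurentSeries K) ≠ 0 := fun h0 => hw'0 (Subtype.ext h0)
  set n₀ : ℤ := (w' : LaurentSeries K).order with hn₀
  have hc : (w' : LaurentSeries K).coeff n₀ ≠ 0 := fun h0 => hw'L (HahnSeries.coeff_order_eq_zero.1 h0)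
  have hζξ : ((ζ ^ n₀ : Kˣ) : K) = ξ := by
    have h1 := congrArg (fun s => HahnSeries.coeff s n₀) htw
    simp only [S28.twist_coeff, HahnSeries.C_mul_eq_smul, HahnSeries.coeff_smul, smul_eq_mul] at h1
    exact mul_right_cancel₀ hc h1
  -- the order
  obtain ⟨v, e, hv⟩ := exists_place_cuspZero ι M
  have hord : (cuspZero ι M u).order = m * n₀ := by
    have h1 : cuspZero ι M u = (w' : LaurentSeries K) ^ m := by
      change ((actFull ι M ModularGroup.S (incl1 ι M u) : FS K (gensC K M)) : LaurentSeries K) = _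
      rw [← hw, map_pow, SubmonoidClass.coe_pow]
    rw [h1, HahnSeries.order_pow, nsmul_eq_mul]
  obtain ⟨k, hk⟩ := hdiv v
  have hdvd : (M : ℤ) ∣ n₀ := by
    have h2 := hv u hu
    rw [hord, hk] at h2
    have hm' : (m : ℤ) ≠ 0 := by exact_mod_cast hm
    refine ⟨e * k, ?_⟩
    apply mul_left_cancel₀ hm'
    rw [h2]; ring
  have hone : ζ ^ n₀ = 1 := (hζ.isPrimitiveRoot.zpow_eq_one_iff_dvd n₀).2 hdvd
  rw [hone, Units.val_one] at hζξ
  rw [hσw, ← hζξ, map_one, one_mul]

include ι in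
/-- PROOF. Given `P, Q : F1C`, apply `h` to `incl1 P, incl1 Q` (same series), `dvd_ord_incl1`
(`P / Q ≠ 0`: `Q ≠ 0` since `pA q ≠ 0`, `P ≠ 0` since `pA p = pA q ≠ 0`; `m ≠ 0` since its image
in the residue field is `≠ 0`), get `w` with `incl1 (P/Q) = w^m`, `mem_F1C_of_pow_eq`. -/
theorem injAt_F1C (A : ValuationSubring K) (h : InjAt A (FFullC K M)) : InjAt A (F1C K M) := by
  have h' : InjAt A (FS K (gensC K M)) := h
  intro m hm P Q p q hP hQ hq hpq hdiv
  have hm0 : m ≠ 0 := by
    rintro rfl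
    exact hm Nat.cast_zero
  have hQ0 : Q ≠ 0 := by
    rintro rfl
    exact Gauss.iA_ne_zero_of_pA_ne_zero A hq hQ.symm
  have hP0 : P ≠ 0 := by
    rintro rfl
    exact Gauss.iA_ne_zero_of_pA_ne_zero A (hpq ▸ hq) hP.symm
  have hPQ : P / Q ≠ 0 := div_ne_zero hP0 hQ0
  obtain ⟨w, hw⟩ := h' m hm (incl1 ι M P) (incl1 ι M Q) p q (by rw [coe_incl1, hP])
    (by rw [coe_incl1, hQ]) hq hpq (fun v => by
      rw [← map_div₀]
      exact dvd_ord_incl1 ι M m (P / Q) hPQ hdiv v)
  rw [← map_div₀] at hw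
  have hmem := mem_F1C_of_pow_eq ι M m hm0 (P / Q) hPQ hdiv w hw.symm
  refine ⟨⟨w, hmem⟩, ?_⟩
  apply Subtype.ext
  have h1 := congrArg (Subtype.val : FS K (gensC K M) → LaurentSeries K) hw
  rw [coe_incl1, SubmonoidClass.coe_pow] at h1
  rw [h1, SubmonoidClass.coe_pow]

/-- **INJ descends from the full level field to `F1`.** -/
theorem injDown (h : StmtInjFull M) : StmtInj1 M := by
  intro A hA
  rw [F1_eq]
  exact injAt_F1C S24.iota M A (h A hA)

end Fermat.Agent.S48.Full
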