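import Fermat.Agent.S48.Full.F1B
import Fermat.Agent.GAL.Tors.Dict.PlaceOf
import Fermat.Agent.S28.CPar

/-!
# S48 / FULL leaf INJ-A : `StmtInjFull M → StmtInj1 M`, the place at the cusp `0`

`F1C K M ≤ FFullC K M` is the fixed field of `± Γ¹(M) = ⟨± Γ(M), L⟩`, `L = [1 0; 1 1]`; the
extension is totally ramified at the cusp `0`, so it contains no unramified subextension: an
`m`-th root in `FFullC` of a Kummer unit of `F1C` lies in `F1C`.
-/

set_option autoImplicit false
set_option linter.unusedSectionVars false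

open UpperHalfPlane ModularCurve Matrix AlgebraicCurve
open scoped MatrixGroups Manifold

noncomputable section

namespace Fermat.Agent.S48.Full

open Fermat.Agent.S24 Fermat.Agent.GAL Fermat.Agent.GAL.Tors.Dict

variable {K : Type} [Field K] [IsAlgClosed K] [CharZero K] (ι : K →+* ℂ) (M : ℕ) [NeZero M]

/-- `L = [1 0; 1 1]`. -/
def matL : SL(2, ℤ) := ⟨!![1, 0; 1, 1], by simp [Matrix.det_fin_two]⟩

/-- `S L S⁻¹ = T⁻¹`. -/
theorem S_mul_matL : ModularGroup.S * matL * ModularGroup.S⁻¹ = ModularGroup.T⁻¹ := by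
  rw [Matrix.SpecialLinearGroup.SL2_inv_expl, Matrix.SpecialLinearGroup.SL2_inv_expl]
  ext i j
  fin_cases i <;> fin_cases j <;>
    simp [matL, ModularGroup.S, ModularGroup.T, Matrix.SpecialLinearGroup.coe_mul,
      Matrix.mul_apply, Fin.sum_univ_two]

theorem matL_mem_Gamma1up : matL ∈ Gamma1up M := by
  rw [mem_Gamma1up]
  refine ⟨by simp [matL], Or.inl (by simp [matL])⟩

/-- The inclusion `F1C K M → FFullC K M = FS K (gensC K M)`. -/
def incl1 : F1C K M →ₐ[K] FS K (gensC K M) :=
  IntermediateField.inclusion (show F1C K M ≤ FS K (gensC K M) from F1C_le_FFullC ι M)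

theorem coe_incl1 (x : F1C K M) : ((incl1 ι M x : FS K (gensC K M)) : LaurentSeries K) = x :=
  IntermediateField.coe_inclusion _ x

/-- The embedding of `F1C K M` into `K((t))` at the cusp `0`: `x ↦ t`-expansion of `x ∘ S⁻¹`. -/
def cuspZero : F1C K M →+* LaurentSeries K :=
  ((FS K (gensC K M)).val.toRingHom.comp
    (actFull ι M ModularGroup.S : FS K (gensC K M) →+* FS K (gensC K M))).comp
      (incl1 ι M).toRingHom

theorem InjDownA_cuspZero_apply (x : F1C K M) :
    cuspZero ι M x = ((actFull ι M ModularGroup.S (incl1 ι M x) : FS K (gensC K M)) :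
      LaurentSeries K) := rfl

/-- (D1) PROOF. `y := actFull S (incl1 x)` is fixed by `actFull T⁻¹`
(`T⁻¹ S = S L`, `map_mul`, and `incl1 x` is fixed by `L ∈ ± Γ¹(M)`: `mem_F1C_iff_fixed`), so
`S28.twist ζ y = y` (`coe_actFull_T_inv`, `ζ` from `exists_isZeta`): `ζ^n c_n = c_n` for all `n`
(coefficients of `S28.twist`), and for `n = order` (`c_n ≠ 0`): `ζ^n = 1`, `M ∣ n`
(`IsPrimitiveRoot.zpow_eq_one_iff_dvd`). -/
theorem dvd_order_cuspZero (x : F1C K M) : (M : ℤ) ∣ (cuspZero ι M x).order := by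
  by_cases hx : x = 0
  · subst hx
    rw [map_zero, HahnSeries.order_zero]
    exact dvd_zero _
  obtain ⟨ζ, hζ⟩ := exists_isZeta ι M
  set y : FS K (gensC K M) := actFull ι M ModularGroup.S (incl1 ι M x) with hy
  have hfixL : actFull ι M matL (incl1 ι M x) = incl1 ι M x := by
    have h1 : ((incl1 ι M x : FS K (gensC K M)) : LaurentSeries K) ∈ F1C K M := by
      rw [coe_incl1]; exact x.2
    exact (mem_F1C_iff_fixed ι M _).mp h1 matL (matL_mem_Gamma1up M)
  have hTS : ModularGroup.T⁻¹ * ModularGroup.S = ModularGroup.S * matL := by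
    rw [← S_mul_matL, inv_mul_cancel_right]
  have hfix : actFull ι M ModularGroup.T⁻¹ y = y := by
    rw [hy, ← AlgEquiv.mul_apply, ← map_mul, hTS, map_mul, AlgEquiv.mul_apply, hfixL]
  have htw : S28.twist ζ (y : LaurentSeries K) = (y : LaurentSeries K) := by
    rw [← coe_actFull_T_inv ι M hζ, hfix]
  have hy0 : (y : LaurentSeries K) ≠ 0 := by
    have : cuspZero ι M x ≠ 0 := (map_ne_zero _).mpr hx
    exact this
  have hc : (y : LaurentSeries K).coeff (y : LaurentSeries K).order ≠ 0 :=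
    HahnSeries.coeff_order_eq_zero.not.mpr hy0
  have h2 := congrArg (fun s : LaurentSeries K => s.coeff (y : LaurentSeries K).order) htw
  have h3 : ((ζ ^ (y : LaurentSeries K).order : Kˣ) : K) * (y : LaurentSeries K).coeff
      (y : LaurentSeries K).order = (y : LaurentSeries K).coeff (y : LaurentSeries K).order := h2
  have h4 : ((ζ ^ (y : LaurentSeries K).order : Kˣ) : K) = 1 :=
    mul_right_cancel₀ hc (by rw [h3, one_mul])
  have h5 : ζ ^ (y : LaurentSeries K).order = 1 := Units.ext h4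
  exact (hζ.isPrimitiveRoot.zpow_eq_one_iff_dvd _).mp h5

/-- a uniformiser. -/
theorem InjDownA_exists_unif {F : Type*} [Field F] [Algebra K F] (v : Place K F) :
    ∃ f : F, f ≠ 0 ∧ v.ord f = 1 := by
  obtain ⟨π, hπ⟩ := IsDiscreteValuationRing.exists_irreducible v.toValuationSubring
  refine ⟨(π : F), ?_, v.ord_coe_irreducible hπ⟩
  simpa [ne_eq, ZeroMemClass.coe_eq_zero] using hπ.ne_zero

theorem InjDownA_order_jM : (jM K M).order = -(M : ℤ) := by
  have h1 : (jqModC K).order = -1 := by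
    have h := Fermat.Agent.S28.orderTop_jqModC K
    have h0 : jqModC K ≠ 0 := jqModC_ne_zero_of_nontrivial K
    rw [HahnSeries.orderTop_of_ne_zero h0] at h
    rw [HahnSeries.order_of_ne h0]
    exact_mod_cast h
  rw [jM, order_qExpand', h1]
  ring

/-- (D2) the place of `F1C K M` at the cusp `0`.
PROOF. `exists_place_of_hom (cuspZero ι M) x hx` with `x = j(t^M)` (fixed by `actFull S`:
`GenSet.act_jF`; its order is `-M ≠ 0`) gives `v`, `e' > 0` with `ordOf = e' * v.ord`.  Take `f` with
`v.ord f = 1` (uniformiser: `Place.exists_ord_eq_one` or similar in the Prelude / `Lib/RR`):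
`M ∣ e'` by `dvd_order_cuspZero`. -/
theorem exists_place_cuspZero : ∃ (v : Place K (F1C K M)) (e : ℤ),
    ∀ f : F1C K M, f ≠ 0 → (cuspZero ι M f).order = M * e * v.ord f := by
  let x : F1C K M := ⟨jM K M, IntermediateField.subset_adjoin K _ (Or.inr (Or.inl rfl))⟩
  have hxj : incl1 ι M x = (genSet_full ι M).jF := Subtype.ext (coe_incl1 ι M x)
  have hx : ordOf (cuspZero ι M) x ≠ 0 := by
    have h1 : cuspZero ι M x = jM K M := by
      rw [InjDownA_cuspZero_apply, hxj]
      have := (genSet_full ι M).act_jF (stable_full ι M) ModularGroup.S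
      exact congrArg (fun z : FS K (gensC K M) => (z : LaurentSeries K)) this
    unfold ordOf
    rw [h1, InjDownA_order_jM]
    have : (M : ℤ) ≠ 0 := by exact_mod_cast NeZero.ne M
    simpa using this
  obtain ⟨v, e', -, -, h⟩ := exists_place_of_hom (k := K) (cuspZero ι M) x hx
  obtain ⟨f, hf0, hf⟩ := InjDownA_exists_unif v
  obtain ⟨e, he⟩ : (M : ℤ) ∣ e' := by
    have h1 := h f hf0
    rw [hf, mul_one] at h1
    rw [← h1]
    exact dvd_order_cuspZero ι M f
  refine ⟨v, e, fun g hg => ?_⟩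
  rw [← he]
  exact h g hg

/-- (D4) divisibility of the divisor goes up (`Dict.dvd_ord_map` for `incl1`). -/
theorem dvd_ord_incl1 (m : ℤ) (u : F1C K M) (hu : u ≠ 0)
    (hdiv : ∀ v : Place K (F1C K M), m ∣ v.ord u) (P : Place K (FS K (gensC K M))) :
    m ∣ P.ord (incl1 ι M u) :=
  dvd_ord_map (K := K) (K' := K) (incl1 ι M).toRingHom
    (fun a => ⟨a, (incl1 ι M).commutes a⟩) m u hu hdiv P

end Fermat.Agent.S48.Full
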