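import Fermat.Agent.S48.Full.GenDeg
import Fermat.Agent.GAL.Tors.Dict.Bridge

/-!
# S48 / FULL : `K(S) → Mer` (meromorphic functions on `ℍ`)
-/

set_option autoImplicit false
set_option linter.unusedSectionVars false

open UpperHalfPlane ModularCurve Polynomial AlgebraicCurve
open scoped MatrixGroups Manifold

noncomputable section

namespace Fermat.Agent.S48.Full

open Fermat.Agent.S24 Fermat.Agent.GAL Fermat.Agent.GAL.Tors

variable {K : Type} [Field K] {ι : K →+* ℂ} {Γ : Subgroup SL(2, ℤ)}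
  {h : ℕ} [NeZero h] {S : Set (LaurentSeries K)}

namespace GenSet

variable (H : GenSet ι Γ h S)

/-- The realisation, with values in `Holo`. -/
def PsiH : AS K S →+* Holo := H.PsiA.codRestrict Holo H.mdifferentiable_PsiA

theorem PsiH_apply (a : AS K S) (τ : ℍ) : (H.PsiH a : ℍ → ℂ) τ = H.PsiA a τ := rfl

theorem PsiH_injective : Function.Injective H.PsiH := fun _ _ hab =>
  H.PsiA_injective (congrArg Subtype.val hab)

/-- The realisation of `K(S)` by meromorphic functions on `ℍ`. -/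
def PsiMer : FS K S →+* Mer :=
  IsFractionRing.lift (A := AS K S) (g := ofHolo.comp H.PsiH)
    (ofHolo_injective.comp H.PsiH_injective)

theorem PsiMer_coe (a : AS K S) : H.PsiMer (a : FS K S) = ofHolo (H.PsiH a) :=
  IsFractionRing.lift_algebraMap _ a

theorem PsiMer_injective : Function.Injective H.PsiMer := H.PsiMer.injective

theorem PsiMer_algebraMap (c : K) :
    H.PsiMer (algebraMap K (FS K S) c) = algebraMap ℂ Mer (ι c) := by
  have h1 : algebraMap K (FS K S) c = ((algebraMap K (AS K S) c : AS K S) : FS K S) := rfl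
  rw [h1, PsiMer_coe, IsScalarTower.algebraMap_apply ℂ Holo Mer]
  congr 1
  apply Subtype.ext
  funext τ
  exact H.PsiA_algebraMap c τ

/-- (M1) elements of `K(S)` are `Γ`-invariant. -/
theorem compSL_PsiMer (γ : SL(2, ℤ)) (hγ : γ ∈ Γ) (x : FS K S) :
    compSL γ (H.PsiMer x) = H.PsiMer x := by
  have hh : (compSL γ).comp H.PsiMer = H.PsiMer := by
    apply IsFractionRing.ringHom_ext (A := AS K S)
    intro a
    show compSL γ (H.PsiMer (a : FS K S)) = H.PsiMer (a : FS K S)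
    rw [PsiMer_coe, compSL_ofHolo_apply]
    congr 1
    apply Subtype.ext
    funext τ
    rw [holoComp_apply, PsiH_apply, PsiH_apply]
    exact H.PsiA_smul γ hγ a τ
  exact RingHom.congr_fun hh x

/-- (M2) a good series, seen in `K(S)`. -/
theorem PsiMer_of_good [Γ.FiniteIndex] [IsAlgClosed K] (x : FS K S)
    (hx : (x : LaurentSeries K) ∈ goodSub K ι Γ h) :
    H.PsiMer x = ofHolo ⟨PsiFun ι h (x : LaurentSeries K), mdifferentiable_PsiFun ι h hx.1⟩ := by
  obtain ⟨a, ha, s, hs, hs0, hxa⟩ := exists_div_AS S x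
  have h1 : x * s = a := by
    rw [hxa]
    field_simp
  have h2 : H.PsiMer x * H.PsiMer ((⟨s, hs⟩ : AS K S) : FS K S) =
      H.PsiMer ((⟨a, ha⟩ : AS K S) : FS K S) := by
    rw [← map_mul]
    exact congrArg _ h1
  rw [PsiMer_coe, PsiMer_coe] at h2
  have h3 : (⟨PsiFun ι h (x : LaurentSeries K), mdifferentiable_PsiFun ι h hx.1⟩ : Holo) *
      H.PsiH ⟨s, hs⟩ = H.PsiH ⟨a, ha⟩ := by
    apply Subtype.ext
    funext τ
    show PsiFun ι h (x : LaurentSeries K) τ * PsiFun ι h (s : LaurentSeries K) τ =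
      PsiFun ι h (a : LaurentSeries K) τ
    rw [← PsiFun_mul hx.1 (H.isConv_coe ⟨s, hs⟩) τ]
    have h5 : (x : LaurentSeries K) * (s : LaurentSeries K) = (a : LaurentSeries K) :=
      congrArg Subtype.val h1
    exact congrArg (fun y => PsiFun ι h y τ) h5
  have h4 : ofHolo (H.PsiH ⟨s, hs⟩) ≠ 0 := by
    rw [Ne, map_eq_zero_iff _ ofHolo_injective, map_eq_zero_iff _ H.PsiH_injective]
    exact fun h => hs0 (congrArg Subtype.val h)
  apply mul_right_cancel₀ h4
  rw [h2, ← map_mul, h3]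

/-- (M3) `u b^m = a` with `a, b ∈ K[S]`. -/
theorem exists_rep (m : ℕ) (hm : m ≠ 0) (u : (FS K S)ˣ) :
    ∃ a b : AS K S, a ≠ 0 ∧ b ≠ 0 ∧ (u : FS K S) * (b : FS K S) ^ m = (a : FS K S) := by
  obtain ⟨a0, ha0, s, hs, hs0, hu⟩ := exists_div_AS S (u : FS K S)
  have ha00 : a0 ≠ 0 := by
    rintro rfl
    rw [zero_div] at hu
    exact u.ne_zero hu
  obtain ⟨n, rfl⟩ : ∃ n, m = n + 1 := ⟨m - 1, by omega⟩
  refine ⟨⟨a0, ha0⟩ * ⟨s, hs⟩ ^ n, ⟨s, hs⟩, ?_, ?_, ?_⟩
  · refine mul_ne_zero ?_ (pow_ne_zero _ ?_)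
    · exact fun h => ha00 (congrArg Subtype.val h)
    · exact fun h => hs0 (congrArg Subtype.val h)
  · exact fun h => hs0 (congrArg Subtype.val h)
  · show (u : FS K S) * s ^ (n + 1) = a0 * s ^ n
    rw [hu, pow_succ]
    field_simp

end GenSet

end Fermat.Agent.S48.Full
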