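import Fermat.Agent.S48.Full.Conc

/-!
# S48 / FULL leaf N-A : exact orders of `j - c` at the places of `K(S)` for a neat group `Γ`

Instantiation of `GAL/Tors/Dict/{AnAlg,AnAlgCusp}` (`exists_ptEmb_of_place`, `ordOf_ptEmb_mul`,
`exists_cuspEmb_of_place`, `ordOf_cuspEmb_mul`) as in `Conc.lean` (`conc_dvd_ord` shows how to feed
`hj`, `hn`, `H.translate_mem`).
-/

set_option autoImplicit false
set_option linter.unusedSectionVars false

open UpperHalfPlane ModularCurve Polynomial AlgebraicCurve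
open scoped MatrixGroups Manifold

noncomputable section

namespace Fermat.Agent.S48.Full

open Fermat.Agent.S24 Fermat.Agent.S24.Degree Fermat.Agent.S24.JLocal Fermat.Agent.GAL
  Fermat.Agent.S24.EmbedPoint Fermat.Agent.GAL.Tors Fermat.Agent.GAL.Tors.Dict

/-- The elements of `Γ` with a fixed point in `ℍ` are `± 1`. -/
def IsNeat (Γ : Subgroup SL(2, ℤ)) : Prop :=
  ∀ γ ∈ Γ, ∀ τ : ℍ, γ • τ = τ → γ = 1 ∨ γ = -1

/-- All cusps of `Γ` have width `w`. -/
def UniformWidth (Γ : Subgroup SL(2, ℤ)) (w : ℕ) : Prop :=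
  ∀ (g : SL(2, ℤ)) (n : ℕ), g * ModularGroup.T ^ n * g⁻¹ ∈ Γ ↔ w ∣ n

/-- The ramification index of `j : ℍ → ℂ` over `c`. -/
def eJ {K : Type} [Field K] (c : K) : ℤ := by
  classical exact if c = 0 then 3 else if c = 1728 then 2 else 1

theorem eJ_pos {K : Type} [Field K] (c : K) : 0 < eJ c := by
  unfold eJ; split_ifs <;> norm_num

section NeatAHelpers

open Fermat.Agent.S24.PointExp

/-- the fixed point equation. -/
theorem NeatA_fixed_eq (τ₀ : ℍ) (g : SL(2, ℤ)) (hg : g • τ₀ = τ₀) :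
    (τ₀ : ℂ) * (((g 1 0 : ℤ) : ℂ) * τ₀ + (g 1 1 : ℤ)) = ((g 0 0 : ℤ) : ℂ) * τ₀ + (g 0 1 : ℤ) := by
  have hd : ((g 1 0 : ℤ) : ℂ) * τ₀ + (g 1 1 : ℤ) ≠ 0 := by
    have := denom_ne_zero g τ₀
    rwa [ModularGroup.denom_apply] at this
  have hcoe : ((g • τ₀ : ℍ) : ℂ) =
      (((g 0 0 : ℤ) : ℂ) * τ₀ + (g 0 1 : ℤ)) / (((g 1 0 : ℤ) : ℂ) * τ₀ + (g 1 1 : ℤ)) := by
    rw [coe_specialLinearGroup_apply]
    simp only [algebraMap_int_eq, eq_intCast, Complex.ofReal_intCast]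
  have h1 : ((g • τ₀ : ℍ) : ℂ) = τ₀ := congrArg _ hg
  rw [hcoe, div_eq_iff hd] at h1
  exact h1.symm

theorem NeatA_denom_mul (τ₀ : ℍ) (g g' : SL(2, ℤ)) (hg' : g' • τ₀ = τ₀) :
    denom (g * g' : SL(2, ℤ)) τ₀ = denom g τ₀ * denom g' τ₀ := by
  have h0 := NeatA_fixed_eq τ₀ g' hg'
  rw [ModularGroup.denom_apply, ModularGroup.denom_apply, ModularGroup.denom_apply]
  have e10 : (g * g') 1 0 = g 1 0 * g' 0 0 + g 1 1 * g' 1 0 := by
    simp [Matrix.SpecialLinearGroup.coe_mul, Matrix.mul_apply, Fin.sum_univ_two]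
  have e11 : (g * g') 1 1 = g 1 0 * g' 0 1 + g 1 1 * g' 1 1 := by
    simp [Matrix.SpecialLinearGroup.coe_mul, Matrix.mul_apply, Fin.sum_univ_two]
  rw [e10, e11]
  push_cast
  linear_combination (-(g 1 0 : ℂ)) * h0

theorem NeatA_lam_mul (τ₀ : ℍ) (g g' : SL(2, ℤ)) (hg' : g' • τ₀ = τ₀) :
    lam τ₀ (g * g') = lam τ₀ g * lam τ₀ g' := by
  rw [lam, lam, lam, NeatA_denom_mul τ₀ g g' hg', map_mul, mul_div_mul_comm]

theorem NeatA_pow_smul (τ₀ : ℍ) (g : SL(2, ℤ)) (hg : g • τ₀ = τ₀) (n : ℕ) : g ^ n • τ₀ = τ₀ := by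
  induction n with
  | zero => simp
  | succ n ih => rw [pow_succ, mul_smul, hg, ih]

theorem NeatA_lam_pow (τ₀ : ℍ) (g : SL(2, ℤ)) (hg : g • τ₀ = τ₀) (n : ℕ) :
    lam τ₀ (g ^ n) = lam τ₀ g ^ n := by
  induction n with
  | zero => rw [pow_zero, pow_zero, lam_one]
  | succ n ih => rw [pow_succ, pow_succ, NeatA_lam_mul τ₀ _ _ hg, ih]

theorem NeatA_lam_neg_one (τ₀ : ℍ) : lam τ₀ (-1) = 1 := by
  have h : denom ((-1 : SL(2, ℤ))) τ₀ = -1 := by
    rw [ModularGroup.denom_apply]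
    simp
  rw [lam, h]
  simp

theorem NeatA_eq_of_lam_eq_one (τ₀ : ℍ) (g : SL(2, ℤ)) (hg : g • τ₀ = τ₀) (hl : lam τ₀ g = 1) :
    g = 1 ∨ g = -1 := by
  have h0 := NeatA_fixed_eq τ₀ g hg
  have hd : denom g τ₀ ≠ 0 := denom_ne_zero g τ₀
  rw [lam, div_eq_one_iff_eq hd, ModularGroup.denom_apply] at hl
  have him := congrArg Complex.im hl
  simp only [Complex.conj_im, Complex.add_im, Complex.mul_im, Complex.intCast_re,
    Complex.intCast_im, UpperHalfPlane.coe_im, zero_mul, add_zero] at him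
  have hy : 0 < τ₀.im := τ₀.im_pos
  have hc : (g 1 0 : ℝ) = 0 := by
    have : (g 1 0 : ℝ) * τ₀.im = 0 := by linarith
    exact (mul_eq_zero.1 this).resolve_right hy.ne'
  have hc' : g 1 0 = 0 := by exact_mod_cast hc
  have hdet : g 0 0 * g 1 1 - g 0 1 * g 1 0 = 1 := by
    have := g.det_coe
    rwa [Matrix.det_fin_two] at this
  rw [hc', mul_zero, sub_zero] at hdet
  rw [hc'] at h0
  have him0 := congrArg Complex.im h0
  have hre0 := congrArg Complex.re h0
  simp only [Complex.add_im, Complex.mul_im, Complex.intCast_re, Complex.add_re, Complex.mul_re,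
    Complex.intCast_im, UpperHalfPlane.coe_im, UpperHalfPlane.coe_re, zero_mul, add_zero,
    Int.cast_zero, mul_zero, zero_add, sub_zero] at him0 hre0
  have had : (g 1 1 : ℝ) = g 0 0 := by
    have : τ₀.im * ((g 1 1 : ℝ) - g 0 0) = 0 := by linarith
    have := (mul_eq_zero.1 this).resolve_left hy.ne'
    linarith
  have hb : (g 0 1 : ℝ) = 0 := by
    rw [had] at hre0
    linarith
  have had' : g 1 1 = g 0 0 := by exact_mod_cast had
  have hb' : g 0 1 = 0 := by exact_mod_cast hb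
  rw [had'] at hdet
  rcases Int.eq_one_or_neg_one_of_mul_eq_one hdet with h1 | h1
  · left
    ext i j
    fin_cases i <;> fin_cases j <;> simp [h1, hb', hc', had']
  · right
    ext i j
    fin_cases i <;> fin_cases j <;> simp [h1, hb', hc', had']

end NeatAHelpers

variable {K : Type} [Field K] [IsAlgClosed K] [CharZero K] {ι : K →+* ℂ} {Γ : Subgroup SL(2, ℤ)}
  [Γ.FiniteIndex] {h : ℕ} [NeZero h] {S : Set (LaurentSeries K)}

/-- The analytic order of `j - ι c` at a point where it vanishes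
(`S24.JLocal.analyticOrderAt_kleinJ_sub`, `analyticOrderAt_kleinJ_of_E₄_eq_zero`,
`analyticOrderAt_kleinJ_sub_of_E₆_eq_zero`, `kleinJ_eq_zero_iff`, `kleinJ_eq_1728_iff`;
`ι c = 0 ↔ c = 0`, `ι c = 1728 ↔ c = 1728` by injectivity of `ι`). -/
theorem analyticOrderAt_kleinJ_eq_eJ (ι : K →+* ℂ) (c : K) (τ : ℍ) (e₀ : ℕ) (he₀ : 0 < e₀)
    (hord : analyticOrderAt (fun w : ℂ => kleinJ (ofComplex w) - ι c) (τ : ℂ) = e₀) :
    (e₀ : ℤ) = eJ c := by
  have hval : kleinJ τ = ι c := by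
    by_contra hne
    have han : AnalyticAt ℂ (fun w : ℂ => kleinJ (ofComplex w) - ι c) (τ : ℂ) :=
      (JLocal.analyticAt_comp_ofComplex mdifferentiable_kleinJ τ).sub analyticAt_const
    have h0 : analyticOrderAt (fun w : ℂ => kleinJ (ofComplex w) - ι c) (τ : ℂ) = 0 := by
      rw [han.analyticOrderAt_eq_zero]
      simp only [ofComplex_apply]
      exact sub_ne_zero.2 hne
    rw [h0] at hord
    exact he₀.ne' (by exact_mod_cast hord.symm)
  unfold eJ
  split_ifs with h0 h1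
  · subst h0
    have hE := kleinJ_eq_zero_iff.1 (by rw [hval, map_zero])
    have h3 := analyticOrderAt_kleinJ_of_E₄_eq_zero hE
    simp only [map_zero, sub_zero] at hord
    rw [h3] at hord
    have : e₀ = 3 := by exact_mod_cast hord.symm
    rw [this]; rfl
  · subst h1
    have hc : ι (1728 : K) = 1728 := map_ofNat ι 1728
    have hE := kleinJ_eq_1728_iff.1 (by rw [hval, hc])
    have h3 := analyticOrderAt_kleinJ_sub_of_E₆_eq_zero hE
    rw [hc, h3] at hord
    have : e₀ = 2 := by exact_mod_cast hord.symm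
    rw [this]; rfl
  · have hc0 : kleinJ τ ≠ 0 := by
      rw [hval]
      exact (map_ne_zero ι).2 h0
    have hc1 : kleinJ τ ≠ 1728 := by
      rw [hval, ← map_ofNat ι 1728]
      exact fun h => h1 (ι.injective h)
    have h3 := analyticOrderAt_kleinJ_sub hc0 hc1
    rw [hval, hord] at h3
    have : e₀ = 1 := by exact_mod_cast h3
    rw [this]; rfl

namespace GenSet

variable (H : GenSet ι Γ h S)
include H

set_option maxHeartbeats 1600000 in
/-- **Finite places.**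
PROOF. `0 ≤ v.ord jF`. `exists_ptEmb_of_place` gives `c', τ₀, e₀, g₀, g`; `ordOf_ptEmb_mul` with
`f = jF - c'`: `ordOf (ptEmb τ₀ g) (jF - c') = e₀` (the embedding sends `jF - c'` to the Taylor
expansion of `kleinJ - ι c'` at `τ₀` (translated by `g`, `kleinJ_smul`) in the local parameter; see
how `AnAlg.lean` proves `ordOf_ptEmb_mul` from `ordOf_mul_minimalPeriod` with `x = jF - c`:
hypothesis `hord : ∀ i, (σ i x).order = e₀`).  So `v.ord (jF - c') = minimalPeriod (g₀ • ·) (g Γ)`;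
in particular it is positive, hence `c' = c` (otherwise `c - c'` is a non zero constant of positive
order).  `minimalPeriod = e₀`: `g₀ ^ n • gΓ = gΓ ↔ g⁻¹ g₀ⁿ g ∈ Γ`; this element fixes `g⁻¹ τ₀`, so
by neatness it is `± 1`, i.e. `g₀ⁿ = ± 1`, i.e. `lam τ₀ g₀⁻¹ ^ n = 1`
(`lam` = derivative multiplier, multiplicative on the stabiliser, `= 1` iff the element acts
trivially: see `AlgAn.lean`/`S24` lemmas on `lam`), i.e. `e₀ ∣ n` (`IsPrimitiveRoot`).  Conversely
`g₀ ^ e₀ = ± 1 ∈ Γ` by `hneg`.  Conclude with `analyticOrderAt_kleinJ_eq_eJ`. -/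
theorem ord_jF_sub_of_neat (hneat : IsNeat Γ) (hneg : (-1 : SL(2, ℤ)) ∈ Γ)
    (v : Place K (FS K S)) (c : K) (hv : 0 < v.ord (H.jF - algebraMap K (FS K S) c)) :
    v.ord (H.jF - algebraMap K (FS K S) c) = eJ c := by
  have hj : Transcendental K (jOf (FS K S) H.realisation) := H.transcendental_jF
  have : FiniteDimensional (IntermediateField.adjoin K {jOf (FS K S) H.realisation})
      (FS K S) := H.finiteDimensional_jF
  have hn : Module.finrank (IntermediateField.adjoin K {jOf (FS K S) H.realisation}) (FS K S)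
      = Nat.card (SL(2, ℤ) ⧸ Γ) := H.finrank_jF
  have hne : ∀ c' : K, H.jF - algebraMap K (FS K S) c' ≠ 0 := by
    intro c' h0
    apply hj
    have : jOf (FS K S) H.realisation = algebraMap K (FS K S) c' := sub_eq_zero.1 h0
    rw [this]
    exact isAlgebraic_algebraMap c'
  have hv0 : 0 ≤ v.ord (jOf (FS K S) H.realisation) := by
    have h1 : H.jF - algebraMap K (FS K S) c ∈ v.toValuationSubring :=
      S24.mem_of_ord_nonneg v (hne c) hv.le
    have h2 : H.jF ∈ v.toValuationSubring := by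
      have := add_mem h1 (v.algebraMap_mem' c)
      rwa [sub_add_cancel] at this
    exact S24.ord_nonneg_of_mem v h2
  obtain ⟨c', τ₀, e₀, g₀, g, he₀, hord, hg₀, hprim, hvg⟩ :=
    exists_ptEmb_of_place H.realisation hj hn v hv0
  have key := ordOf_ptEmb_mul H.realisation hj hn c' τ₀ e₀ g₀ g he₀ hord hg₀ hprim v hvg _ (hne c')
  have hordOf : ordOf (ptEmb (FS K S) H.realisation τ₀ g) (H.jF - algebraMap K (FS K S) c') = e₀ := by
    have h1 := (ptFamily (FS K S) H.realisation c' τ₀ e₀ hord g₀ hg₀ hprim).order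
      (g : SL(2, ℤ) ⧸ Γ)
    have h2 : (ptFamily (FS K S) H.realisation c' τ₀ e₀ hord g₀ hg₀ hprim).σ (g : SL(2, ℤ) ⧸ Γ)
        = ptEmb (FS K S) H.realisation τ₀ g := sigma_mk_eq_ptEmb (FS K S) H.realisation τ₀ g
    rw [h2] at h1
    exact h1
  have hg₀i : g₀⁻¹ • τ₀ = τ₀ := inv_smul_eq_iff.mpr hg₀.symm
  -- the minimal period
  have hiff : ∀ n : ℕ, g₀ ^ n • (g : SL(2, ℤ) ⧸ Γ) = (g : SL(2, ℤ) ⧸ Γ) ↔ e₀ ∣ n := by
    intro n
    have hmem : g₀ ^ n • (g : SL(2, ℤ) ⧸ Γ) = (g : SL(2, ℤ) ⧸ Γ) ↔ (g₀ ^ n * g)⁻¹ * g ∈ Γ := by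
      have : g₀ ^ n • (g : SL(2, ℤ) ⧸ Γ) = ((g₀ ^ n * g : SL(2, ℤ)) : SL(2, ℤ) ⧸ Γ) := rfl
      rw [this, QuotientGroup.eq]
    have e2 : (g₀ ^ n * g)⁻¹ * g = g⁻¹ * (g₀⁻¹) ^ n * g := by group
    rw [hmem, e2, ← hprim.pow_eq_one_iff_dvd, ← NeatA_lam_pow τ₀ _ hg₀i]
    constructor
    · intro hΓ
      have hfix : (g⁻¹ * (g₀⁻¹) ^ n * g) • (g⁻¹ • τ₀) = g⁻¹ • τ₀ := by
        rw [← mul_smul, mul_assoc, mul_inv_cancel, mul_one, mul_smul,
          NeatA_pow_smul τ₀ _ hg₀i]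
      rcases hneat _ hΓ _ hfix with h1 | h1
      · have : (g₀⁻¹) ^ n = 1 := by
          have : (g₀⁻¹) ^ n = g * (g⁻¹ * (g₀⁻¹) ^ n * g) * g⁻¹ := by group
          rw [this, h1]; group
        rw [this, lam_one]
      · have : (g₀⁻¹) ^ n = -1 := by
          have : (g₀⁻¹) ^ n = g * (g⁻¹ * (g₀⁻¹) ^ n * g) * g⁻¹ := by group
          rw [this, h1]
          simp
        rw [this, NeatA_lam_neg_one]
    · intro hl
      rcases NeatA_eq_of_lam_eq_one τ₀ _ (NeatA_pow_smul τ₀ _ hg₀i n) hl with h1 | h1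
      · rw [h1]
        simp [one_mem]
      · rw [h1]
        simpa using hneg
  have hmp : Function.minimalPeriod (g₀ • ·) (g : SL(2, ℤ) ⧸ Γ) = e₀ := by
    apply Nat.dvd_antisymm
    · rw [← MulAction.pow_smul_eq_iff_minimalPeriod_dvd, hiff]
    · rw [← hiff, MulAction.pow_smul_eq_iff_minimalPeriod_dvd]
  rw [hordOf, hmp] at key
  have he₀' : (e₀ : ℤ) ≠ 0 := by exact_mod_cast he₀.ne'
  have hval : v.ord (H.jF - algebraMap K (FS K S) c') = e₀ := (mul_left_cancel₀ he₀' key).symm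
  have hcc : c' = c := by
    by_contra hcc
    have h1 : (H.jF - algebraMap K (FS K S) c) + -(H.jF - algebraMap K (FS K S) c')
        = algebraMap K (FS K S) (c' - c) := by
      rw [map_sub]; ring
    have h2 : algebraMap K (FS K S) (c' - c) ≠ 0 := by
      rw [Ne, map_eq_zero]
      exact sub_ne_zero.2 hcc
    have h3 := S24.ord_add_ge v (by rw [h1]; exact h2) (hne c) (neg_ne_zero.2 (hne c'))
    have hneg' : v.ord (-(H.jF - algebraMap K (FS K S) c')) =
        v.ord (H.jF - algebraMap K (FS K S) c') := by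
      unfold Place.ord
      rw [Valuation.map_neg]
    rw [h1, S24.ord_algebraMap, hneg', hval] at h3
    have h4 : (0 : ℤ) < e₀ := by exact_mod_cast he₀
    have := lt_min hv h4
    omega
  rw [← hcc, hval]
  exact analyticOrderAt_kleinJ_eq_eJ ι c' τ₀ e₀ he₀ hord

end GenSet

end Fermat.Agent.S48.Full
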