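import Fermat.Agent.S48.Full.NeatA

/-!
# S48 / FULL leaf N-C : the order of `j` at the cusps of `K(S)` when all cusps have width `w`
-/

set_option autoImplicit false
set_option linter.unusedSectionVars false

open UpperHalfPlane ModularCurve Polynomial AlgebraicCurve
open scoped MatrixGroups Manifold

noncomputable section

namespace Fermat.Agent.S48.Full

open Fermat.Agent.S24 Fermat.Agent.S24.Degree Fermat.Agent.S24.JLocal Fermat.Agent.GAL
  Fermat.Agent.S24.EmbedPoint Fermat.Agent.GAL.Tors Fermat.Agent.GAL.Tors.Dict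

variable {K : Type} [Field K] [IsAlgClosed K] [CharZero K] {ι : K →+* ℂ} {Γ : Subgroup SL(2, ℤ)}
  [Γ.FiniteIndex] {h : ℕ} [NeZero h] {S : Set (LaurentSeries K)}

namespace GenSet

variable (H : GenSet ι Γ h S)
include H

/-- **Cusps.**
PROOF. `exists_cuspEmb_of_place w (H.translate_mem w hw')` gives `g`; `ordOf_cuspEmb_mul` with
`f = jF`: `ordOf (cuspEmb w g) jF = - w` (expansion of `kleinJ` in `e^{2πiτ/w}`:
`order_Ecusp_mul`, order `-1` in `q`), and `minimalPeriod (T • ·) (gΓ) = w` by `hw`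
(`Tⁿ g Γ = g Γ ↔ g⁻¹ Tⁿ g ∈ Γ`). -/
theorem ord_jF_of_uniformWidth (w : ℕ) [NeZero w] (hw : UniformWidth Γ w)
    (v : Place K (FS K S)) (hv : v.ord H.jF < 0) : v.ord H.jF = -(w : ℤ) := by
  have hw' : ∀ g : SL(2, ℤ), g * ModularGroup.T ^ w * g⁻¹ ∈ Γ := fun g => (hw g w).mpr dvd_rfl
  have hj : Transcendental K (jOf (FS K S) H.realisation) := H.transcendental_jF
  have : FiniteDimensional (IntermediateField.adjoin K {jOf (FS K S) H.realisation})
      (FS K S) := H.finiteDimensional_jF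
  have hn : Module.finrank (IntermediateField.adjoin K {jOf (FS K S) H.realisation}) (FS K S)
      = Nat.card (SL(2, ℤ) ⧸ Γ) := H.finrank_jF
  have hv' : v.ord (jOf (FS K S) H.realisation) < 0 := hv
  obtain ⟨g, hvg⟩ := exists_cuspEmb_of_place (F := FS K S) H.realisation w (H.translate_mem w hw')
    hj hn v hv'
  have hj0 : jOf (FS K S) H.realisation ≠ 0 := by
    intro h0
    rw [h0] at hj
    exact hj isAlgebraic_zero
  have key := ordOf_cuspEmb_mul (F := FS K S) H.realisation w (H.translate_mem w hw') hj hn g v hvg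
    _ (inv_ne_zero hj0)
  have hordj : ordOf (cuspEmb (FS K S) H.realisation w (H.translate_mem w hw') g)
      (jOf (FS K S) H.realisation)⁻¹ = w := by
    have h1 := (cuspFamily (FS K S) H.realisation w (H.translate_mem w hw')).order
      ((g : SL(2, ℤ)) : SL(2, ℤ) ⧸ Γ)
    rw [show (cuspFamily (FS K S) H.realisation w (H.translate_mem w hw')).σ
      = (Fermat.Agent.S24.EmbedCusp.cuspData H.realisation w (H.translate_mem w hw')).sigma (FS K S)
        from rfl,
      sigma_mk_eq_cuspEmb] at h1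
    exact h1
  have hper : Function.minimalPeriod (ModularGroup.T • ·) (g : SL(2, ℤ) ⧸ Γ) = w := by
    apply Nat.dvd_antisymm
    · rw [← MulAction.pow_smul_eq_iff_minimalPeriod_dvd]
      show ((ModularGroup.T ^ w * g : SL(2, ℤ)) : SL(2, ℤ) ⧸ Γ) = (g : SL(2, ℤ) ⧸ Γ)
      rw [eq_comm, QuotientGroup.eq]
      have := hw' g⁻¹
      rwa [inv_inv, mul_assoc] at this
    · set n := Function.minimalPeriod (ModularGroup.T • ·) (g : SL(2, ℤ) ⧸ Γ) with hn'
      have h1 : ModularGroup.T ^ n • (g : SL(2, ℤ) ⧸ Γ) = (g : SL(2, ℤ) ⧸ Γ) := by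
        rw [MulAction.pow_smul_eq_iff_minimalPeriod_dvd]
      have h2 : ((ModularGroup.T ^ n * g : SL(2, ℤ)) : SL(2, ℤ) ⧸ Γ) = (g : SL(2, ℤ) ⧸ Γ) := h1
      rw [eq_comm, QuotientGroup.eq] at h2
      refine (hw g⁻¹ n).mp ?_
      rwa [inv_inv, mul_assoc]
  rw [hordj, hper, v.ord_inv] at key
  have hw0 : (w : ℤ) ≠ 0 := by exact_mod_cast NeZero.ne w
  have h3 : (w : ℤ) = -v.ord (jOf (FS K S) H.realisation) := mul_left_cancel₀ hw0 key
  have h4 : v.ord H.jF = v.ord (jOf (FS K S) H.realisation) := rfl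
  rw [h4]
  omega

end GenSet

end Fermat.Agent.S48.Full
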