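import Fermat.Agent.S48.Full.GenDeg
import Fermat.Agent.S24.Hermite

/-!
# S48 / FULL leaf SC-A : change of variable `τ ↦ hτ`, `τ ↦ τ/h` (analytic lemmas)

`PsiFun ι 1 a τ = PsiFun ι h a (hτ)`: the same series `a`, read in the variable `t = e^{2πiτ/h}`
(width `h`) or in the variable `q = e^{2πiτ}` (width `1`).
-/

set_option autoImplicit false
set_option linter.unusedSectionVars false

open UpperHalfPlane ModularCurve Polynomial Filter Asymptotics
open scoped MatrixGroups Manifold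

noncomputable section

namespace Fermat.Agent.S48.Full

open Fermat.Agent.S24 Fermat.Agent.S24.Degree Fermat.Agent.S24.JLocal Fermat.Agent.GAL

/-- `τ ↦ τ / d`. -/
def divH (d : ℕ) [NeZero d] (τ : ℍ) : ℍ := affPt 1 d 0 one_pos (NeZero.pos d) τ

theorem coe_divH (d : ℕ) [NeZero d] (τ : ℍ) : ((divH d τ : ℍ) : ℂ) = (τ : ℂ) / d := by
  rw [divH, coe_affPt]
  simp

theorem mulH_divH (d : ℕ) [NeZero d] (τ : ℍ) : mulH d (divH d τ) = τ := by
  apply UpperHalfPlane.ext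
  rw [coe_mulH, coe_divH]
  have hd : (d : ℂ) ≠ 0 := Nat.cast_ne_zero.mpr (NeZero.ne d)
  field_simp

theorem divH_mulH (d : ℕ) [NeZero d] (τ : ℍ) : divH d (mulH d τ) = τ := by
  apply UpperHalfPlane.ext
  rw [coe_divH, coe_mulH]
  have hd : (d : ℂ) ≠ 0 := Nat.cast_ne_zero.mpr (NeZero.ne d)
  field_simp

theorem mulH_eq_affPt (d : ℕ) [NeZero d] (τ : ℍ) :
    mulH d τ = affPt d 1 0 (NeZero.pos d) one_pos τ := by
  apply UpperHalfPlane.ext
  rw [coe_mulH, coe_affPt]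
  simp

theorem tq_mulH (h : ℕ) [NeZero h] (τ : ℍ) : tq h (mulH h τ) = tq 1 τ := by
  have hh : (h : ℂ) ≠ 0 := Nat.cast_ne_zero.mpr (NeZero.ne h)
  unfold tq Function.Periodic.qParam
  rw [coe_mulH]
  congr 1
  push_cast
  field_simp

variable {K : Type} [Field K] (ι : K →+* ℂ) (h : ℕ) [NeZero h]

theorem PsiFun_mulH (a : LaurentSeries K) (τ : ℍ) :
    PsiFun ι h a (mulH h τ) = PsiFun ι 1 a τ := by
  rw [PsiFun, PsiFun, tq_mulH]

theorem PsiFun_divH (a : LaurentSeries K) (τ : ℍ) :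
    PsiFun ι 1 a (divH h τ) = PsiFun ι h a τ := by
  rw [← PsiFun_mulH ι h, mulH_divH]

/-- `niceSubring` is stable under `τ ↦ (aτ+b)/e`.
PROOF. `MDiff`: as in `S24.mdifferentiable_Jd_smul` (`S24/Translates.lean` l.163-195: the map
`affPt a e b` is holomorphic).  Growth: `im (affPt τ) = a im τ / e ≤ a im τ` and
`affPt` tends to `atImInfty`; as in `S24.isBigO_Jd_smul` (l.196 ff): if
`f = O(exp (2π m im))` then `f ∘ affPt = O(exp (2π (m a) im))`. -/
theorem comp_affPt_mem_niceSubring {f : ℍ → ℂ} (hf : f ∈ niceSubring) (a e : ℕ) (b : ℤ)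
    (ha : 0 < a) (he : 0 < e) : (fun τ => f (affPt a e b ha he τ)) ∈ niceSubring := by
  obtain ⟨hJ, m, hm⟩ := hf
  refine ⟨?_, m * a, ?_⟩
  · rw [mdifferentiable_iff] at hJ ⊢
    have hmaps : Set.MapsTo (fun z : ℂ => ((a : ℂ) * z + (b : ℂ)) / (e : ℂ))
        {z | 0 < z.im} {z | 0 < z.im} := by
      intro z hz
      change 0 < z.im at hz
      change 0 < (((a : ℂ) * z + (b : ℂ)) / (e : ℂ)).im
      rw [im_affine_aux]
      positivity
    have hdiff : DifferentiableOn ℂ (fun z : ℂ => ((a : ℂ) * z + (b : ℂ)) / (e : ℂ))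
        {z | 0 < z.im} := by fun_prop
    refine (hJ.comp hdiff hmaps).congr fun z hz => ?_
    simp only [Function.comp_apply]
    congr 1
    apply UpperHalfPlane.ext
    rw [coe_affPt, ofComplex_apply_of_im_pos hz, ofComplex_apply_of_im_pos (hmaps hz)]
  · have h1 := hm.comp_tendsto (tendsto_affPt a e b ha he)
    refine h1.trans ?_
    refine IsBigO.of_bound 1 (Eventually.of_forall fun τ => ?_)
    simp only [Function.comp_apply, im_affPt, one_mul]
    rw [Real.norm_of_nonneg (Real.exp_pos _).le, Real.norm_of_nonneg (Real.exp_pos _).le]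
    apply Real.exp_le_exp.mpr
    have hτ := τ.im_pos
    have he1 : (1 : ℝ) ≤ (e : ℝ) := by exact_mod_cast he
    have ha0 : (0 : ℝ) < (a : ℝ) := by exact_mod_cast ha
    have h2 : (a : ℝ) * τ.im / (e : ℝ) ≤ (a : ℝ) * τ.im :=
      div_le_self (by positivity) he1
    have hpi := Real.pi_pos
    push_cast
    calc 2 * Real.pi * m * ((a : ℝ) * τ.im / (e : ℝ)) ≤ 2 * Real.pi * m * ((a : ℝ) * τ.im) := by
          apply mul_le_mul_of_nonneg_left h2 (by positivity)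
      _ = 2 * Real.pi * (m * a) * τ.im := by ring

/-- Hermite normal form of `[d 0; 0 1] γ` (`S24.exists_smul_affPt_eq`). -/
theorem exists_smul_affPt_mulH (d : ℕ) [NeZero d] (γ : SL(2, ℤ)) :
    ∃ (γ' : SL(2, ℤ)) (a e : ℕ) (b : ℤ) (ha : 0 < a) (he : 0 < e), a * e = d ∧
      ∀ τ : ℍ, mulH d (γ • τ) = γ' • affPt a e b ha he τ := by
  obtain ⟨γ', a, e, b, ha, he, hae, h⟩ := exists_smul_affPt_eq d (NeZero.ne d) γ
  refine ⟨γ', a, e, b, ha, he, hae, fun τ => ?_⟩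
  rw [← h τ]
  apply UpperHalfPlane.ext
  rw [coe_mulH, coe_ofComplex_natCast_mul d (NeZero.ne d)]

theorem ScaleA_divH_eq (d : ℕ) [NeZero d] (τ : ℍ) :
    divH d τ = ModularGroup.S • mulH d (ModularGroup.S • τ) := by
  apply UpperHalfPlane.ext
  have hd : (d : ℂ) ≠ 0 := Nat.cast_ne_zero.mpr (NeZero.ne d)
  have hτ : (τ : ℂ) ≠ 0 := UpperHalfPlane.ne_zero τ
  rw [coe_divH, UpperHalfPlane.modular_S_smul, UpperHalfPlane.modular_S_smul]
  simp only [coe_mulH]
  field_simp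

/-- Hermite normal form of `[1 0; 0 d] γ`.
PROOF. `τ/d = S • (d • (S • τ))` with `S = ModularGroup.S` (`S • τ = -1/τ`), so
`divH d (γ • τ) = S • mulH d ((S * γ) • τ) = (S * γ') • affPt a e b τ`
by `exists_smul_affPt_mulH d (S * γ)`. -/
theorem exists_smul_affPt_divH (d : ℕ) [NeZero d] (γ : SL(2, ℤ)) :
    ∃ (γ' : SL(2, ℤ)) (a e : ℕ) (b : ℤ) (ha : 0 < a) (he : 0 < e), a * e = d ∧
      ∀ τ : ℍ, divH d (γ • τ) = γ' • affPt a e b ha he τ := by
  obtain ⟨γ', a, e, b, ha, he, hae, h⟩ := exists_smul_affPt_mulH d (ModularGroup.S * γ)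
  refine ⟨ModularGroup.S * γ', a, e, b, ha, he, hae, fun τ => ?_⟩
  rw [ScaleA_divH_eq, ← mul_smul, h τ, mul_smul]

end Fermat.Agent.S48.Full
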